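import Fermat.Agent.S44.SP.Core2
import Fermat.Agent.S44.SP.Desc.K2
import Fermat.Agent.S44.SP.Desc.Nm
import Fermat.Agent.S35.Nu

/-!
# S44 / SP : the interface DESC (level `2 M1 → M1`)          (statement: helper20;  proof: helper10, from the keys in `SP/Desc/{T,VVW,K2,Nm}.lean`)

`2 ∤ M1`, `S0 : Setup (M1 * 2) q 2 A`.  `ub ∈ k((Q))` is at the same time
* the reduction (up to a constant) of `v0 : FN (M1 q)`  (level `M1 q`: NO `2` in the level), and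
* the reduction of `u1 ∈ Vinf A (M1 * 2)`.
`uz : FN (M1 * 2)` with `q^(n+1) ∣ div uz` and `red (uz / (u1^(q^n) hh^(q^(n+1)))) = c`, `hh : FN (M1 * 2)` (`sp_core3`).
Then `uz' := normAlpha M1 2 uz : FN M1` has `q^(n+1) ∣ div uz'` and `red uz' = c' ub^(3 q^n) h'^(q^(n+1))`.

Proof: see the header of `Geo/IfSP.lean` (helper2), items (W), (N).
-/

set_option autoImplicit false
set_option synthInstance.maxHeartbeats 400000

open HahnSeries ModularCurve AlgebraicCurve Fermat.Agent.S24 Fermat.Agent.S29 Fermat.Agent.S18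
  Fermat.Agent.ES Fermat.Agent.ES.Alg Fermat.Agent.S34.Mod Fermat.Agent.S37

noncomputable section

namespace Fermat.Agent.S44.SP

/-- **DESC** -/
theorem om_desc {q M1 : ℕ} [NeZero M1] [NeZero q] {A : ValuationSubring Kb} (hq5 : 5 ≤ q)
    (h2 : ¬ 2 ∣ M1) (S0 : Setup (M1 * 2) q 2 A) {ub : LaurentSeries (kA A)}
    {v0 : FN (M1 * q)} (hv0 : RedC A (M1 * q) v0 ub)
    (u1 : Vinf A (M1 * 2)) (hu1 : resInf A (M1 * 2) u1 = ub)
    {n : ℕ} {uz hh : FN (M1 * 2)} {c : kA A} (hz : PDiv Kb (FN (M1 * 2)) (q ^ (n + 1)) uz)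
    (hh0 : hh ≠ 0) (hc : c ≠ 0)
    (hO : RedQ A (M1 * 2) (uz * ((u1 : FN (M1 * 2)) ^ (q ^ n) * hh ^ (q ^ (n + 1)))⁻¹)
      (HahnSeries.C c)) :
    PDiv Kb (FN M1) (q ^ (n + 1)) (Alg.normAlpha M1 2 uz) ∧ Om A M1 q n ub (Alg.normAlpha M1 2 uz) 3 := by
  have hq2 : q ≠ 2 := by omega
  have h : Nat.Coprime 2 M1 := (Nat.Prime.coprime_iff_not_dvd Nat.prime_two).2 h2
  refine ⟨Fermat.Agent.S35.PDiv.normAlpha hz, ?_⟩
  obtain ⟨c0, hc0, hub, hQ0⟩ := hv0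
  obtain ⟨hv, hres⟩ := Geo.resInf_of_redQ hQ0
  have hm1 : (-1 : (kA A)ˣ) ^ 2 = 1 := by simp
  -- the norm of `u1`
  have k2 := Desc.resInf_Wq_u1 S0 hq2 h ⟨_, hv⟩ u1 (hu1.trans hres.symm)
  obtain ⟨hy1, e1⟩ := Desc.resInf_normAlpha h u1 (Desc.Wq_mem_Vinf S0 hq2 h u1.2)
  rw [k2, hres, hu1, twist_qExpand 2 _ hm1] at e1
  have e1' : resInf A M1 ⟨_, hy1⟩ = ub ^ 3 := by
    apply qExpand_injective (R := kA A) 2
    rw [e1, map_pow]
    ring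
  -- the norm of `y`
  obtain ⟨y, hy⟩ : ∃ y : FN (M1 * 2),
      y = uz * ((u1 : FN (M1 * 2)) ^ (q ^ n) * hh ^ (q ^ (n + 1)))⁻¹ := ⟨_, rfl⟩
  rw [← hy] at hO
  obtain ⟨hyV, hyres⟩ := Geo.resInf_of_redQ hO
  obtain ⟨a, rfl⟩ := IsLocalRing.residue_surjective c
  have hWy := Desc.Wq_mem_Vinf S0 hq2 h hyV
  have hWres : resInf A (M1 * 2) ⟨_, hWy⟩ = HahnSeries.C (IsLocalRing.residue A a) := by
    have h0 : resInf A (M1 * 2) (⟨y, hyV⟩ - ⟨_, algebraMap_mem_Vinf a⟩) = 0 := by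
      rw [map_sub, hyres, resInf_algebraMap, sub_self]
    have h1 := Desc.resInf_Wq_eq_zero S0 hq2 h _ h0
    have e : (⟨_, hWy⟩ : Vinf A (M1 * 2)) =
        ⟨_, Desc.Wq_mem_Vinf S0 hq2 h (⟨y, hyV⟩ - ⟨_, algebraMap_mem_Vinf a⟩ : Vinf A (M1 * 2)).2⟩ +
          ⟨_, algebraMap_mem_Vinf a⟩ := by
      apply Subtype.ext
      show Wq h y = Wq h (y - algebraMap Kb (FN (M1 * 2)) (a : Kb)) +
        algebraMap Kb (FN (M1 * 2)) (a : Kb)
      rw [map_sub, AlgEquiv.commutes, sub_add_cancel]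
    rw [e, map_add, h1, zero_add, resInf_algebraMap]
  obtain ⟨hy2, e2⟩ := Desc.resInf_normAlpha h ⟨y, hyV⟩ hWy
  rw [hWres, hyres, qExpand_C, twist_C] at e2
  have e2' : resInf A M1 ⟨_, hy2⟩ = HahnSeries.C (IsLocalRing.residue A a ^ 3) := by
    apply qExpand_injective (R := kA A) 2
    rw [e2, qExpand_C, map_pow]
    ring
  -- assembly
  have hu0 : (u1 : FN (M1 * 2)) ≠ 0 := by
    intro h0
    apply hub
    have : u1 = 0 := Subtype.ext h0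
    rw [← hu1, this, map_zero]
  have hd0 : (u1 : FN (M1 * 2)) ^ (q ^ n) * hh ^ (q ^ (n + 1)) ≠ 0 :=
    mul_ne_zero (pow_ne_zero _ hu0) (pow_ne_zero _ hh0)
  have huz : uz = y * ((u1 : FN (M1 * 2)) ^ (q ^ n) * hh ^ (q ^ (n + 1))) := by
    rw [hy, mul_assoc, inv_mul_cancel₀ hd0, mul_one]
  have hNh : Alg.normAlpha M1 2 hh ≠ 0 := by
    intro h0
    have h1 : Alg.normAlpha M1 2 (hh * hh⁻¹) = 1 := by rw [mul_inv_cancel₀ hh0, map_one]
    rw [map_mul, h0, zero_mul] at h1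
    exact zero_ne_one h1
  have hc3 : IsLocalRing.residue A a ^ 3 ≠ 0 := pow_ne_zero _ hc
  have O1 : Om A M1 q n ub (Alg.normAlpha M1 2 y) 0 := by
    refine ⟨_, redC_of_Vinf ⟨_, hy2⟩ (by rw [e2']; exact C_ne_zero' hc3), ?_⟩
    rw [e2']
    exact ⟨_, 1, hc3, one_ne_zero, by simp⟩
  have O2 : Om A M1 q n ub (Alg.normAlpha M1 2 (u1 : FN (M1 * 2)) ^ (q ^ n)) 3 := by
    refine ⟨_, (redC_of_Vinf ⟨_, hy1⟩ (by rw [e1']; exact pow_ne_zero _ hub)).pow (q ^ n), ?_⟩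
    rw [e1']
    refine ⟨1, 1, one_ne_zero, one_ne_zero, ?_⟩
    rw [map_one, one_mul, one_pow, mul_one, ← pow_mul, ← zpow_natCast]
    congr 1
    push_cast
    ring
  have O3 : Om A M1 q n ub (Alg.normAlpha M1 2 hh ^ (q ^ (n + 1))) 0 := om_pow hNh
  have := O1.mul hub (O2.mul hub O3)
  rw [huz, map_mul, map_mul, map_pow, map_pow]
  simpa using this

end Fermat.Agent.S44.SP
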