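import Fermat.Agent.S44.SP.AnnInst

/-!
# S44 / SP : from a lattice eigenvector mod `p` to `SpOut`          (helper20, key `S44/SP-MAIN`, part (a))
-/

set_option autoImplicit false
set_option synthInstance.maxHeartbeats 400000

open HahnSeries ModularCurve AlgebraicCurve Fermat.Agent.S24 Fermat.Agent.S29 Fermat.Agent.S18
  Fermat.Agent.ES Fermat.Agent.ES.Alg Fermat.Agent.S33 CongruenceSubgroup Fermat.Agent.S41 Fermat.Agent.S31

noncomputable section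

namespace Fermat.Agent.S44.SP

/-- a lattice vector, not divisible by `q`, eigen mod `q`, gives `SpOut` -/
theorem spOut_of_X {q : Nat.Primes} {M : ℕ} [NeZero M] [NeZero (q : ℕ)] {S : Set ℕ} {a : ℕ → ℤ}
    (y : XN M) (hy : ¬ DivP (q : ℕ) y)
    (hT : ∀ (ℓ : ℕ) (hℓ : ℓ.Prime) (hN : ¬ ℓ ∣ M), ¬ ℓ ∣ M * (q : ℕ) → ℓ ∈ S →
      DivP (q : ℕ) (heckeX M hℓ hN y - a ℓ • y)) : SpOut q M S a := by
  have hq0 : (q : ℕ) ≠ 0 := q.2.ne_zero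
  have hD := desc_holds M (q : ℕ) hq0
  have hk := isKummer_uK hD y
  refine ⟨uK hD y, pdiv_of_isKummer M (q : ℕ) y y.2 _ hk, ?_, ?_⟩
  · rintro ⟨r, hr⟩
    apply hy
    have hr0 : r ≠ 0 := by
      rintro rfl
      rw [zero_pow hq0] at hr
      exact hk.ne_zero hr
    have h0 : Theta hq0 hD y = 0 := by
      rw [Theta_eq hq0 hD y hk]
      have : (cl (uK hD y) hk.ne_zero : WW M (q : ℕ)) = cl (r ^ (q : ℕ)) (pow_ne_zero _ hr0) := by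
        congr 1
      rw [this, cl_pow hr0, nsmul_WW]
    obtain ⟨c', hc'⟩ := Theta_ker hq0 hD y h0
    exact ⟨c', by rw [hc', natCast_zsmul]⟩
  · intro ℓ hℓ hNq hS
    have : NeZero ℓ := ⟨hℓ.ne_zero⟩
    have hN : ¬ ℓ ∣ M := fun h => hNq (Dvd.dvd.mul_right h _)
    obtain ⟨z, hz⟩ := hT ℓ hℓ hN hNq hS
    have hk3 := k3_holds' M (q : ℕ) ℓ hℓ hN y (heckeX M hℓ hN y) (uK hD y) y.2 hk
      (isTransfer_heckeX M hℓ hN y)
    have e1 := Theta_eq hq0 hD _ hk3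
    have e0 := Theta_eq hq0 hD _ hk
    have e3 : Theta hq0 hD (heckeX M hℓ hN y - a ℓ • y) = 0 := by
      rw [hz, map_zsmul, natCast_zsmul, nsmul_WW]
    rw [map_sub, map_zsmul, e1, e0, ← Top.cl_zpow] at e3
    exact kuAux_exists_of_cl_eq _ _ (sub_eq_zero (G := WW M (q : ℕ)).mp e3)

section Eig

variable {A : ValuationSubring Kb} {N : ℕ} [NeZero N]

theorem RedC.of_intRed {y : FN N} {r : LaurentSeries (kA A)} (h : IntRed A N y r) (hr : r ≠ 0) :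
    RedC A N y r :=
  ⟨1, one_ne_zero, hr, by rw [map_one, one_mul]; exact .of_intRed h⟩

theorem RedC.zpow {y : FN N} {r : LaurentSeries (kA A)} (h : RedC A N y r) (n : ℤ) :
    RedC A N (y ^ n) (r ^ n) := by
  cases n with
  | ofNat n => simpa using h.pow n
  | negSucc n => rw [zpow_negSucc, zpow_negSucc]; exact (h.pow _).inv

/-- the eigen-hypothesis on `ub` from an eigenfunction (modulo `p`-th powers) of ANY level `N'` whose prime divisors divide `N * p` -/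
theorem eigB_of_intRed {p N' : ℕ} [NeZero N'] (hk : ∀ x : kA A, ∃ b, b ^ p = x)
    (hdvd : ∀ ℓ : ℕ, ℓ ∣ N' → ℓ ∣ N * p) {S : Set ℕ} {a : ℕ → ℤ}
    {ub : LaurentSeries (kA A)} {v : FN N'} (hv : IntRed A N' v ub) (hub : ub ≠ 0)
    (hT : ∀ (ℓ : ℕ) (hℓ : ℓ.Prime), ¬ ℓ ∣ N' → ℓ ∈ S →
      ∃ g : FN N', @Tl N' ℓ _ ⟨hℓ.ne_zero⟩ v = v ^ (a ℓ) * g ^ p) : EigB A N p ub S a := by
  intro ℓ hℓ hN hS
  have : NeZero ℓ := ⟨hℓ.ne_zero⟩
  have hN' : ¬ ℓ ∣ N' := fun h => hN (hdvd ℓ h)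
  obtain ⟨g, hg⟩ := hT ℓ hℓ hN' hS
  obtain ⟨R, hR, hh⟩ := intRed_Tl hℓ hN' hv
  have hR0 : R ≠ 0 := hh.ne_zero hub
  have hT0 : Tl N' ℓ v ≠ 0 := hR.ne_zero hR0
  have hg0 : g ≠ 0 := by
    rintro rfl
    by_cases hp : p = 0
    · subst hp
      obtain ⟨b, hb⟩ := hk 0
      rw [pow_zero] at hb
      exact one_ne_zero hb
    · rw [zero_pow hp, mul_zero] at hg
      exact hT0 hg
  obtain ⟨rg, hrg⟩ := exists_redC (A := A) hg0
  have h1 : RedC A N' (Tl N' ℓ v) (ub ^ (a ℓ) * rg ^ p) := by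
    rw [hg]
    exact ((RedC.of_intRed hv hub).zpow _).mul (hrg.pow p)
  obtain ⟨c, hc, e⟩ := h1.unique (RedC.of_intRed hR hR0)
  obtain ⟨b, hb⟩ := hk c
  have hb0 : b ≠ 0 := by
    rintro rfl
    by_cases hp : p = 0
    · subst hp
      obtain ⟨b, hb⟩ := hk 0
      rw [pow_zero] at hb
      exact one_ne_zero hb
    · rw [zero_pow hp] at hb
      exact hc hb.symm
  refine ⟨HahnSeries.C b * rg, mul_ne_zero (C_ne_zero' hb0) hrg.ne_zero, ?_⟩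
  have e2 : ub ^ (a ℓ) * (HahnSeries.C b * rg) ^ p = R := by
    rw [e, mul_pow, ← map_pow, hb]
    ring
  rw [e2]
  exact hh

end Eig

/-- **SP, algebraic half**: (the output of GLUE) + (eigenfunction of level `M * q` reducing to `ub`) gives `SpOut` at the level `M` -/
theorem spOut_of_om {q : Nat.Primes} {M : ℕ} [NeZero M] [NeZero (q : ℕ)] {A : ValuationSubring Kb}
    [CharP (kA A) (q : ℕ)] (hk : ∀ x : kA A, ∃ b, b ^ (q : ℕ) = x) {S : Set ℕ} {a : ℕ → ℤ}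
    {ub : LaurentSeries (kA A)} (hnp : ¬ ∃ w : LaurentSeries (kA A), ub = w ^ (q : ℕ))
    {v : FN (M * (q : ℕ))} (hv : IntRed A (M * (q : ℕ)) v ub)
    (hT : ∀ (ℓ : ℕ) (hℓ : ℓ.Prime), ¬ ℓ ∣ M * (q : ℕ) → ℓ ∈ S →
      ∃ g : FN (M * (q : ℕ)), @Tl (M * (q : ℕ)) ℓ _ ⟨hℓ.ne_zero⟩ v = v ^ (a ℓ) * g ^ (q : ℕ))
    (hG : ∃ (m : ℕ) (uz : FN M), PDiv Kb (FN M) ((q : ℕ) ^ (m + 1)) uz ∧ Om A M (q : ℕ) m ub uz 1) :
    SpOut q M S a := by
  have hub : ub ≠ 0 := by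
    rintro rfl
    exact hnp ⟨0, (zero_pow q.2.ne_zero).symm⟩
  obtain ⟨m, uz, hz, hO⟩ := hG
  have hE : EigB A M (q : ℕ) ub S a := eigB_of_intRed hk (fun _ h => h) hv hub hT
  obtain ⟨y, hy, hyT⟩ := sp_alg q.2 hk hub hnp hE hz hO
  exact spOut_of_X y hy hyT

/-! ### generalisations: exponent `e` prime to `q`, `RedC` instead of `IntRed` -/

section Gen

variable {A : ValuationSubring Kb} {N : ℕ} [NeZero N]

/-- the eigen-hypothesis on `ub` from an eigenfunction whose reduction up to a constant is `ub` -/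
theorem eigB_of_redC {p N' : ℕ} [NeZero N'] (hk : ∀ x : kA A, ∃ b, b ^ p = x)
    (hdvd : ∀ ℓ : ℕ, ℓ ∣ N' → ℓ ∣ N * p) {S : Set ℕ} {a : ℕ → ℤ}
    {ub : LaurentSeries (kA A)} {v : FN N'} (hv : RedC A N' v ub)
    (hT : ∀ (ℓ : ℕ) (hℓ : ℓ.Prime), ¬ ℓ ∣ N' → ℓ ∈ S →
      ∃ g : FN N', @Tl N' ℓ _ ⟨hℓ.ne_zero⟩ v = v ^ (a ℓ) * g ^ p) : EigB A N p ub S a := by
  intro ℓ hℓ hN hS
  have : NeZero ℓ := ⟨hℓ.ne_zero⟩
  have hub : ub ≠ 0 := hv.ne_zero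
  have hp0 : p ≠ 0 := by
    rintro rfl
    obtain ⟨b, hb⟩ := hk 0
    rw [pow_zero] at hb
    exact one_ne_zero hb
  have hN' : ¬ ℓ ∣ N' := fun h => hN (hdvd ℓ h)
  obtain ⟨g, hg⟩ := hT ℓ hℓ hN' hS
  obtain ⟨R, hR, hh⟩ := hv.Tl hℓ hN'
  have hR0 : R ≠ 0 := hR.ne_zero
  have hT0 : Tl N' ℓ v ≠ 0 := by
    intro h0
    obtain ⟨c, hc, -, x1, x2, z1, z2, h1, h2, hz, e1, e2⟩ := hR
    rw [h0, mul_zero, zero_mul] at e1
    have hz1 : z1 ≠ 0 := by rw [← e2]; exact mul_ne_zero hR0 hz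
    exact h1.ne_zero hz1 e1.symm
  have hg0 : g ≠ 0 := by
    rintro rfl
    rw [zero_pow hp0, mul_zero] at hg
    exact hT0 hg
  obtain ⟨rg, hrg⟩ := exists_redC (A := A) hg0
  have h1 : RedC A N' (Tl N' ℓ v) (ub ^ (a ℓ) * rg ^ p) := by
    rw [hg]
    exact (hv.zpow _).mul (hrg.pow p)
  obtain ⟨c, hc, e⟩ := h1.unique hR
  obtain ⟨b, hb⟩ := hk c
  have hb0 : b ≠ 0 := by
    rintro rfl
    rw [zero_pow hp0] at hb
    exact hc hb.symm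
  refine ⟨HahnSeries.C b * rg, mul_ne_zero (C_ne_zero' hb0) hrg.ne_zero, ?_⟩
  have e2 : ub ^ (a ℓ) * (HahnSeries.C b * rg) ^ p = R := by
    rw [e, mul_pow, ← map_pow, hb]
    ring
  rw [e2]
  exact hh

theorem pdiv_zpow {K F : Type*} [Field K] [Field F] [Algebra K F] {m : ℕ} {u : F}
    (hu : PDiv K F m u) (n : ℤ) : PDiv K F m (u ^ n) := by
  cases n with
  | ofNat n => simpa using hu.pow n
  | negSucc n => rw [zpow_negSucc]; exact (hu.pow _).inv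

/-- from the exponent `e` prime to `p` to the exponent `1` -/
theorem exists_om_one {p m : ℕ} (hp : p.Prime) {ub : LaurentSeries (kA A)} (hub : ub ≠ 0)
    {uz : FN N} {e : ℤ} (he : ¬ (p : ℤ) ∣ e) (hz : PDiv Kb (FN N) (p ^ (m + 1)) uz)
    (hO : Om A N p m ub uz e) :
    ∃ uz' : FN N, PDiv Kb (FN N) (p ^ (m + 1)) uz' ∧ Om A N p m ub uz' 1 := by
  have hcop : IsCoprime e (p : ℤ) :=
    ((Nat.prime_iff_prime_int.mp hp).coprime_iff_not_dvd.mpr he).symm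
  obtain ⟨k, t, hkt⟩ := hcop
  refine ⟨uz ^ k, pdiv_zpow hz k, ?_⟩
  have h1 := (hO.zpow hub k).add_p hub t
  have e1 : k * e + (p : ℤ) * t = 1 := by rw [← hkt]; ring
  rwa [e1] at h1

end Gen

/-- **SP, algebraic half, general form** : exponent `e` prime to `q`; `ub` = the reduction of `v` up to a constant -/
theorem spOut_of_om' {q : Nat.Primes} {M : ℕ} [NeZero M] [NeZero (q : ℕ)] {A : ValuationSubring Kb}
    [CharP (kA A) (q : ℕ)] (hk : ∀ x : kA A, ∃ b, b ^ (q : ℕ) = x) {S : Set ℕ} {a : ℕ → ℤ}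
    {ub : LaurentSeries (kA A)} (hnp : ¬ ∃ w : LaurentSeries (kA A), ub = w ^ (q : ℕ))
    {v : FN (M * (q : ℕ))} (hv : RedC A (M * (q : ℕ)) v ub)
    (hT : ∀ (ℓ : ℕ) (hℓ : ℓ.Prime), ¬ ℓ ∣ M * (q : ℕ) → ℓ ∈ S →
      ∃ g : FN (M * (q : ℕ)), @Tl (M * (q : ℕ)) ℓ _ ⟨hℓ.ne_zero⟩ v = v ^ (a ℓ) * g ^ (q : ℕ))
    {e : ℤ} (he : ¬ ((q : ℕ) : ℤ) ∣ e)
    (hG : ∃ (m : ℕ) (uz : FN M), PDiv Kb (FN M) ((q : ℕ) ^ (m + 1)) uz ∧ Om A M (q : ℕ) m ub uz e) :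
    SpOut q M S a := by
  have hub : ub ≠ 0 := hv.ne_zero
  obtain ⟨m, uz, hz, hO⟩ := hG
  obtain ⟨uz', hz', hO'⟩ := exists_om_one q.2 hub he hz hO
  have hE : EigB A M (q : ℕ) ub S a := eigB_of_redC hk (fun _ h => h) hv hT
  obtain ⟨y, hy, hyT⟩ := sp_alg q.2 hk hub hnp hE hz' hO'
  exact spOut_of_X y hy hyT

end Fermat.Agent.S44.SP
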