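import Fermat.Agent.S44.SP.HeckeRed
import Fermat.Agent.S24.PlacesCore

/-!
# S44 / SP : the interface `PDivBar` between GEO (NODE / SMOOTH) and SP          (helper18)

Everything on `q`-expansions, `k = kA A`.

* `Kap A M`   : the residue field of level `M` inside `k((q))` = reductions `z₁ / z₂` (`RedQ`) of elements of the Gauss ring.
* `IsVR A M O` : `O` is a valuation ring of `Kap A M` containing the constants.
* `PDivAt A M p O z` : `z` is a unit of `O` times a `p`-th power of `Kap A M`.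
* `PDivBar A M p z` : this holds for all `O`.
* `dvd_ord_of_pDivBar` : if `ι : Ft → k((q))` has range `Kap A M` then `PDivBar (ι ub)` gives `p ∣ ord_x ub` for all places `x` of `Ft`.
-/

set_option autoImplicit false
set_option synthInstance.maxHeartbeats 400000

open HahnSeries ModularCurve AlgebraicCurve Fermat.Agent.S24 Fermat.Agent.S29 Fermat.Agent.S18
  Fermat.Agent.ES.Alg

noncomputable section

namespace Fermat.Agent.S44.SP

variable (A : ValuationSubring Kb) (M : ℕ) [NeZero M]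

/-- the residue field of level `M`, inside `k((q))` -/
def Kap : Set (LaurentSeries (kA A)) := {z | ∃ y : FN M, RedQ A M y z}

/-- `O` is a valuation ring of `Kap A M` over the constants -/
def IsVR (O : Subring (LaurentSeries (kA A))) : Prop :=
  (∀ z ∈ O, z ∈ Kap A M) ∧ (∀ c : kA A, (HahnSeries.C c : LaurentSeries (kA A)) ∈ O) ∧
    ∀ y ∈ Kap A M, y ≠ 0 → y ∈ O ∨ y⁻¹ ∈ O

/-- `z` is a unit of `O` times a `p`-th power -/
def PDivAt (p : ℕ) (O : Subring (LaurentSeries (kA A))) (z : LaurentSeries (kA A)) : Prop :=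
  ∃ g ∈ Kap A M, g ≠ 0 ∧ z * g ^ p ∈ O ∧ (z * g ^ p)⁻¹ ∈ O

/-- the divisor of `z` on the special fibre is divisible by `p` -/
def PDivBar (p : ℕ) (z : LaurentSeries (kA A)) : Prop :=
  ∀ O : Subring (LaurentSeries (kA A)), IsVR A M O → PDivAt A M p O z

variable {A M}

theorem mem_Kap_of_intRed {x : FN M} {z : LaurentSeries (kA A)} (h : IntRed A M x z) :
    z ∈ Kap A M := ⟨x, RedQ.of_intRed h⟩

theorem dvd_ord_of_pDivBar {Ft : Type*} [Field Ft] [Algebra (kA A) Ft]
    (ι : Ft →+* LaurentSeries (kA A)) (hι : ∀ z, z ∈ Kap A M ↔ ∃ y, ι y = z)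
    (hC : ∀ c : kA A, ι (algebraMap (kA A) Ft c) = HahnSeries.C c)
    {p : ℕ} {ub : Ft} (hub : ub ≠ 0) (h : PDivBar A M p (ι ub)) (x : Place (kA A) Ft) :
    (p : ℤ) ∣ x.ord ub := by
  have hVR : IsVR A M (x.toValuationSubring.toSubring.map ι) := by
    refine ⟨?_, ?_, ?_⟩
    · rintro z ⟨y, -, rfl⟩
      exact (hι _).2 ⟨y, rfl⟩
    · intro c
      exact ⟨algebraMap (kA A) Ft c, x.algebraMap_mem' c, hC c⟩
    · intro y hy hy0
      obtain ⟨y', rfl⟩ := (hι y).1 hy
      rcases x.toValuationSubring.mem_or_inv_mem y' with h1 | h1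
      · exact Or.inl ⟨y', h1, rfl⟩
      · exact Or.inr ⟨y'⁻¹, h1, map_inv₀ ι y'⟩
  obtain ⟨g, hg, hg0, h1, h2⟩ := h _ hVR
  obtain ⟨g', rfl⟩ := (hι g).1 hg
  have hg0' : g' ≠ 0 := by rintro rfl; exact hg0 (map_zero ι)
  obtain ⟨w1, hw1, e1⟩ := h1
  obtain ⟨w2, hw2, e2⟩ := h2
  have e1' : w1 = ub * g' ^ p := ι.injective (by rw [e1, map_mul, map_pow])
  have e2' : w2 = (ub * g' ^ p)⁻¹ := ι.injective (by rw [e2, map_inv₀, map_mul, map_pow])
  have n1 : 0 ≤ x.ord (ub * g' ^ p) := by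
    rw [← e1']; exact S24.ord_nonneg_of_mem x hw1
  have n2 : 0 ≤ x.ord (ub * g' ^ p)⁻¹ := by
    rw [← e2']; exact S24.ord_nonneg_of_mem x hw2
  rw [x.ord_inv] at n2
  have n3 : x.ord (ub * g' ^ p) = 0 := le_antisymm (by linarith) n1
  rw [x.ord_mul hub (pow_ne_zero _ hg0'), ← zpow_natCast, x.ord_zpow] at n3
  exact ⟨- x.ord g', by linarith⟩

end Fermat.Agent.S44.SP
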