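import Fermat.Agent.S44.SP.Inst
import Fermat.Agent.S44.SP.VR

/-!
# S44 / SP-GLUE : from `PDivBar` to `Om`            (helper18)

Level `M`, `r0 ∈ {2, 3}`, `r0 ∣ M`, `p ∤ M`, `A` over `p`.

* `exists_redQ`, `mem_VV_of_redQ`, `smV_iff_of_redQ` : the Gauss ring `KL.VV A τ (FN M)` = elements having a reduction `RedQ`.
* `rhoQ : VV →+* k((q))`, `exists_iota` : every `RedData` reduction `red : VV → Ft` embeds in `k((q))`, with range `Kap A M`.
* `sp_core` : `ub ∈ Kap A M`, `ub ≠ 0`, `PDivBar A M p ub`  ⟹  `∃ n uz, PDiv (p^(n+1)) uz ∧ Om A M p n ub uz 1`.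
-/

set_option autoImplicit false
set_option synthInstance.maxHeartbeats 400000

open HahnSeries ModularCurve AlgebraicCurve Polynomial
open Fermat.Agent.S24 Fermat.Agent.S29 Fermat.Agent.S18 Fermat.Agent.S37 Fermat.Agent.ES.Alg

noncomputable section

namespace Fermat.Agent.S44.SP

theorem intRed_add {A : ValuationSubring Kb} {N : ℕ} [NeZero N] {x x' : FN N}
    {r r' : LaurentSeries (kA A)}
    (h : IntRed A N x r) (h' : IntRed A N x' r') : IntRed A N (x + x') (r + r') := by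
  obtain ⟨y, hy, rfl⟩ := h
  obtain ⟨y', hy', rfl⟩ := h'
  exact ⟨y + y', by rw [map_add, hy, hy']; rfl, map_add _ _ _⟩

theorem RedQ.add {A : ValuationSubring Kb} {N : ℕ} [NeZero N] {y y' : FN N}
    {r r' : LaurentSeries (kA A)} (h : RedQ A N y r)
    (h' : RedQ A N y' r') : RedQ A N (y + y') (r + r') := by
  obtain ⟨x1, x2, z1, z2, h1, h2, hz, e1, e2⟩ := h
  obtain ⟨x1', x2', z1', z2', h1', h2', hz', e1', e2'⟩ := h'
  exact ⟨x1 * x2' + x1' * x2, x2 * x2', z1 * z2' + z1' * z2, z2 * z2',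
    intRed_add (h1.mul h2') (h1'.mul h2), h2.mul h2', mul_ne_zero hz hz',
    by rw [← e1, ← e1']; ring, by rw [← e2, ← e2']; ring⟩

section Level

variable {M r0 : ℕ} [NeZero M] (H : Haupt M r0) (hrM : r0 ∣ M) (A : ValuationSubring Kb) {p : ℕ}
  (hp : p.Prime) (hA : A.LiesOverPrime p) (hpM : ¬ p ∣ M)

include hp hA hpM

theorem exists_redQ {x : FN M} (hx : x ∈ KL.VV A (tauL H hrM) (FN M)) : ∃ r, RedQ A M x r := by
  obtain ⟨x1, x2, z1, z2, h1, h2, hz2, hmul⟩ := exists_quot_of_mem_VV H hrM A hp hA hpM hx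
  exact ⟨z1 / z2, x1, x2, z1, z2, h1, h2, hz2, hmul, div_mul_cancel₀ _ hz2⟩

theorem mem_VV_of_redQ {x : FN M} {r : LaurentSeries (kA A)} (h : RedQ A M x r) :
    x ∈ KL.VV A (tauL H hrM) (FN M) := by
  obtain ⟨x1, x2, z1, z2, h1, h2, hz, e1, e2⟩ := h
  have hx2 : x2 ≠ 0 := h2.ne_zero hz
  have : x = x1 * x2⁻¹ := by rw [← e1, mul_assoc, mul_inv_cancel₀ hx2, mul_one]
  rw [this]
  exact mul_mem (mem_VV_of_intRed H hrM A hp hA hpM h1) (inv_mem_VV_of_intRed H hrM A hp hA hpM h2 hz)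

theorem smV_iff_of_redQ {x : FN M} {r : LaurentSeries (kA A)} (h : RedQ A M x r) :
    KL.SmV A (tauL H hrM) (FN M) x ↔ r = 0 := by
  have hfin := finiteDimensional_LT H hrM
  obtain ⟨x1, x2, z1, z2, h1, h2, hz, e1, e2⟩ := h
  have hx2 : x2 ≠ 0 := h2.ne_zero hz
  constructor
  · intro hs
    have h3 := KL.SmV.mul_left A hs (mem_VV_of_intRed H hrM A hp hA hpM h2)
    rw [mul_comm, e1] at h3
    have hz1 : z1 = 0 := by
      by_contra hne
      exact not_smV_of_intRed H hrM A hp hA hpM h1 hne h3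
    rw [hz1] at e2
    exact (mul_eq_zero.1 e2).resolve_right hz
  · rintro rfl
    rw [zero_mul] at e2
    rw [← e2] at h1
    have h3 := KL.SmV.mul_left A (smV_of_intRed_zero H hrM A hp hA hpM h1)
      (inv_mem_VV_of_intRed H hrM A hp hA hpM h2 hz)
    have : x = x2⁻¹ * x1 := by rw [← e1, mul_comm x, inv_mul_cancel_left₀ hx2]
    rw [this]
    exact h3

/-- the reduction of `q`-expansions on the Gauss ring -/
def rhoQ : KL.VV A (tauL H hrM) (FN M) →+* LaurentSeries (kA A) where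
  toFun x := (exists_redQ H hrM A hp hA hpM x.2).choose
  map_one' := RedQ.unique (exists_redQ H hrM A hp hA hpM (1 : KL.VV A (tauL H hrM) (FN M)).2).choose_spec
    (RedQ.of_intRed intRed_one)
  map_zero' := RedQ.unique (exists_redQ H hrM A hp hA hpM (0 : KL.VV A (tauL H hrM) (FN M)).2).choose_spec
    (RedQ.of_intRed ⟨0, by rw [map_zero]; rfl, map_zero _⟩)
  map_mul' x y := RedQ.unique (exists_redQ H hrM A hp hA hpM (x * y).2).choose_spec
    ((exists_redQ H hrM A hp hA hpM x.2).choose_spec.mul (exists_redQ H hrM A hp hA hpM y.2).choose_spec)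
  map_add' x y := RedQ.unique (exists_redQ H hrM A hp hA hpM (x + y).2).choose_spec
    ((exists_redQ H hrM A hp hA hpM x.2).choose_spec.add (exists_redQ H hrM A hp hA hpM y.2).choose_spec)

theorem rhoQ_spec (x : KL.VV A (tauL H hrM) (FN M)) :
    RedQ A M (x : FN M) (rhoQ H hrM A hp hA hpM x) :=
  (exists_redQ H hrM A hp hA hpM x.2).choose_spec

theorem exists_iota {Ft : Type*} [Field Ft] [Algebra (KL.kk A) Ft]
    {red : KL.VV A (tauL H hrM) (FN M) →+* Ft}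
    (hRD : RedData A (tauL H hrM) (FN M) (KL.VV A (tauL H hrM) (FN M)) red) :
    ∃ ι : Ft →+* LaurentSeries (kA A),
      (∀ x : KL.VV A (tauL H hrM) (FN M), RedQ A M (x : FN M) (ι (red x))) ∧
      (∀ z, z ∈ Kap A M ↔ ∃ y, ι y = z) ∧
      (∀ c : kA A, ι (algebraMap (kA A) Ft c) = HahnSeries.C c) := by
  have hker : RingHom.ker red ≤ RingHom.ker (rhoQ H hrM A hp hA hpM) := by
    intro x hx
    rw [RingHom.mem_ker] at hx ⊢
    exact (smV_iff_of_redQ H hrM A hp hA hpM (rhoQ_spec H hrM A hp hA hpM x)).1 ((hRD.ker x).1 hx)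
  let ι : Ft →+* LaurentSeries (kA A) := red.liftOfSurjective hRD.surj ⟨rhoQ H hrM A hp hA hpM, hker⟩
  have hι : ∀ x, ι (red x) = rhoQ H hrM A hp hA hpM x := fun x =>
    red.liftOfRightInverse_comp_apply _ _ ⟨rhoQ H hrM A hp hA hpM, hker⟩ x
  have h1 : ∀ x : KL.VV A (tauL H hrM) (FN M), RedQ A M (x : FN M) (ι (red x)) := fun x => by
    rw [hι]; exact rhoQ_spec H hrM A hp hA hpM x
  refine ⟨ι, h1, ?_, ?_⟩
  · intro z
    constructor
    · rintro ⟨y, hy⟩
      exact ⟨red ⟨y, mem_VV_of_redQ H hrM A hp hA hpM hy⟩,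
        RedQ.unique (h1 ⟨y, mem_VV_of_redQ H hrM A hp hA hpM hy⟩) hy⟩
    · rintro ⟨y, rfl⟩
      obtain ⟨x, rfl⟩ := hRD.surj y
      exact ⟨x, h1 x⟩
  · intro c
    obtain ⟨a, rfl⟩ := IsLocalRing.residue_surjective c
    have hm : algebraMap Kb (FN M) (a : Kb) ∈ KL.VV A (tauL H hrM) (FN M) :=
      mem_VV_of_intRed H hrM A hp hA hpM (intRed_cst a)
    have := hRD.alg a hm
    rw [← this]
    exact RedQ.unique (h1 ⟨_, hm⟩) (RedQ.of_intRed (intRed_cst a))

end Level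

/-- **SP-CORE on `q`-expansions.** -/
theorem sp_core {M r0 : ℕ} [NeZero M] [NeZero r0] (hr : r0 = 2 ∨ r0 = 3) (hrM : r0 ∣ M)
    (A : ValuationSubring Kb) {p : ℕ} (hp : p.Prime) (hA : A.LiesOverPrime p) (hpM : ¬ p ∣ M)
    {ub : LaurentSeries (kA A)} (hub : ub ≠ 0) (hK : ub ∈ Kap A M) (hP : PDivBar A M p ub) :
    ∃ (n : ℕ) (uz : FN M), PDiv Kb (FN M) (p ^ (n + 1)) uz ∧ Om A M p n ub uz 1 := by
  have hfin := finiteDimensional_LT (haupt M r0 hr hrM) hrM
  obtain ⟨Ft, _, _, red, hRD⟩ := exists_redData (transcendental_tauL (haupt M r0 hr hrM) hrM)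
    (isGen_tauL (haupt M r0 hr hrM) hrM) (fld_mod (haupt M r0 hr hrM) hrM A hp hA hpM)
  obtain ⟨ι, h1, h2, h3⟩ := exists_iota (haupt M r0 hr hrM) hrM A hp hA hpM hRD
  obtain ⟨ub', rfl⟩ := (h2 ub).1 hK
  have hub' : ub' ≠ 0 := by rintro rfl; exact hub (map_zero ι)
  obtain ⟨n, uz, c, hbar, hc, hh, hred, hdiv⟩ := core_haupt hr hrM A hp hA hpM hRD ub' hub'
    (fun x => dvd_ord_of_pDivBar ι h2 h3 hub' hP x)
  have hr0 : ι (red uz) ≠ 0 := by
    rw [hred, Ne, map_eq_zero]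
    exact mul_ne_zero (mul_ne_zero (by rw [Ne, map_eq_zero]; exact hc) (pow_ne_zero _ hub'))
      (pow_ne_zero _ hh)
  have huz0 : (uz : FN M) ≠ 0 := by
    intro h0
    apply hr0
    have : uz = 0 := Subtype.ext h0
    rw [this, map_zero, map_zero]
  refine ⟨n, uz, ⟨huz0, hdiv⟩, ι (red uz), ⟨1, one_ne_zero, hr0, ?_⟩, c, ι hbar, hc, ?_, ?_⟩
  · rw [map_one, one_mul]; exact h1 uz
  · rw [Ne, map_eq_zero]; exact hh
  · rw [hred, map_mul, map_mul, map_pow, map_pow, h3, mul_one, zpow_natCast]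

end Fermat.Agent.S44.SP
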