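import Mathlib

/-!
# S44 / SP / ABS : the abstract lifting lemma (lead)

`P` a `p`-divisible abelian group with finite `p^n`-torsion, `sp : P →+ Y`, `h`, `hb` additive endomorphisms with `sp ∘ h = hb ∘ sp`,
the fixed points of `hb` are finite.  If `h D = D` and `p • sp D = 0` then `sp D` is the image of a `p`-power torsion element of `P`.
-/

set_option autoImplicit false

namespace Fermat.Agent.S44.SP

/-- Bezout step -/
theorem abs_pow_smul_mem {Y : Type*} [AddCommGroup Y] {p : ℕ} (hp : p.Prime) (S : AddSubgroup Y) {g : Y}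
    {c n F : ℕ} (hc0 : 0 < c) (hcF : c ≤ F) (h1 : c • g ∈ S) (h2 : p ^ n • g ∈ S) : p ^ F • g ∈ S := by
  obtain ⟨j, -, hj⟩ := (Nat.dvd_prime_pow hp).1 (Nat.gcd_dvd_right c (p ^ n))
  have hd : (Nat.gcd c (p ^ n)) • g ∈ S := by
    have hb := Nat.gcd_eq_gcd_ab c (p ^ n)
    have h3 : ((Nat.gcd c (p ^ n) : ℕ) : ℤ) • g =
        (Nat.gcdA c (p ^ n)) • (c • g) + (Nat.gcdB c (p ^ n)) • (p ^ n • g) := by
      rw [hb, add_smul, mul_comm (c : ℤ), mul_comm ((p ^ n : ℕ) : ℤ), mul_smul, mul_smul,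
        natCast_zsmul, natCast_zsmul]
    rw [← natCast_zsmul, h3]
    exact S.add_mem (S.zsmul_mem h1 _) (S.zsmul_mem h2 _)
  rw [hj] at hd
  have hle : p ^ j ≤ c := hj ▸ Nat.le_of_dvd hc0 (Nat.gcd_dvd_left c (p ^ n))
  have hlt : p ^ j < p ^ F := lt_of_le_of_lt (hle.trans hcF) (Nat.lt_pow_self hp.one_lt)
  have hjF : j < F := (Nat.pow_lt_pow_iff_right hp.one_lt).1 hlt
  obtain ⟨e, rfl⟩ := Nat.exists_eq_add_of_lt hjF
  have : p ^ (j + e + 1) • g = p ^ (e + 1) • (p ^ j • g) := by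
    rw [← mul_smul, ← pow_add]
    congr 2
    omega
  rw [this]
  exact S.nsmul_mem hd _

/-- index of the image = order of the kernel -/
theorem abs_card_smul_mem_range {G : Type*} [AddCommGroup G] [Finite G] (φ : G →+ G) (g : G) :
    Nat.card φ.ker • g ∈ φ.range := by
  have h1 := AddSubgroup.card_eq_card_quotient_mul_card_addSubgroup φ.ker
  have h2 := AddSubgroup.card_eq_card_quotient_mul_card_addSubgroup φ.range
  have h3 : Nat.card (G ⧸ φ.ker) = Nat.card φ.range :=
    Nat.card_congr (QuotientAddGroup.quotientKerEquivRange φ).toEquiv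
  have h4 : 0 < Nat.card φ.range := Nat.card_pos
  have h5 : Nat.card (G ⧸ φ.range) = Nat.card φ.ker := by
    rw [h3] at h1
    rw [h1, mul_comm] at h2
    exact (Nat.eq_of_mul_eq_mul_right h4 h2).symm
  have h6 : Nat.card (G ⧸ φ.range) • (QuotientAddGroup.mk g : G ⧸ φ.range) = 0 :=
    card_nsmul_eq_zero'
  rw [h5, ← QuotientAddGroup.mk_nsmul, QuotientAddGroup.eq_zero_iff] at h6
  exact h6

section Main

variable {P Y : Type*} [AddCommGroup P] [AddCommGroup Y] {p : ℕ}

theorem abs_exists_div (hdiv : ∀ x : P, ∃ y : P, p • y = x) (n : ℕ) (x : P) :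
    ∃ y : P, p ^ n • y = x := by
  induction n generalizing x with
  | zero => exact ⟨x, by simp⟩
  | succ n ih =>
    obtain ⟨y, hy⟩ := hdiv x
    obtain ⟨z, hz⟩ := ih y
    exact ⟨z, by rw [pow_succ', mul_smul, hz, hy]⟩

/-- **[S44/SP-ABS]** -/
theorem exists_torsion_lift (hp : p.Prime)
    (hdiv : ∀ x : P, ∃ y : P, p • y = x)
    (hfin : ∀ n : ℕ, {x : P | p ^ n • x = 0}.Finite)
    (sp : P →+ Y) (h : P →+ P) (hb : Y →+ Y) (hcomm : ∀ x, sp (h x) = hb (sp x))
    (hFix : {y : Y | hb y = y}.Finite)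
    (D : P) (hD : h D = D) (hpD : p • sp D = 0) :
    ∃ (n : ℕ) (z : P), p ^ n • z = 0 ∧ sp z = sp D := by
  classical
  -- the fixed subgroup
  let φ : Y →+ Y := hb - AddMonoidHom.id Y
  have hφ : ∀ y, φ y = hb y - y := fun y => rfl
  have hker : ∀ y, y ∈ φ.ker ↔ hb y = y := by
    intro y
    rw [AddMonoidHom.mem_ker, hφ, sub_eq_zero]
  haveI : Finite φ.ker := by
    have : (φ.ker : Set Y) = {y : Y | hb y = y} := by
      ext y
      exact hker y
    have h2 : (φ.ker : Set Y).Finite := this ▸ hFix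
    exact h2.to_subtype
  set F : ℕ := Nat.card φ.ker with hF
  -- torsion subgroups and their images
  let T : ℕ → AddSubgroup P := fun n => (nsmulAddMonoidHom (α := P) (p ^ n)).ker
  have hT : ∀ n x, x ∈ T n ↔ p ^ n • x = 0 := by
    intro n x
    exact AddMonoidHom.mem_ker
  let G : ℕ → AddSubgroup Y := fun n => (T n).map sp
  have hGfin : ∀ n, Finite (G n) := by
    intro n
    have h1 : ((T n : AddSubgroup P) : Set P).Finite := by
      have : ((T n : AddSubgroup P) : Set P) = {x : P | p ^ n • x = 0} := by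
        ext x
        exact hT n x
      rw [this]
      exact hfin n
    have h2 : ((G n : AddSubgroup Y) : Set Y).Finite := by
      have : ((G n : AddSubgroup Y) : Set Y) = sp '' (T n : Set P) := rfl
      rw [this]
      exact h1.image _
    exact h2.to_subtype
  have hGφ : ∀ n, ∀ g ∈ G n, φ g ∈ G n := by
    rintro n _ ⟨x, hx, rfl⟩
    refine ⟨h x - x, ?_, ?_⟩
    · have hx' : p ^ n • x = 0 := (hT n x).1 hx
      refine (hT n _).2 ?_
      rw [smul_sub, ← map_nsmul, hx', map_zero, sub_zero]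
    · rw [map_sub, hcomm, hφ]
  have hGtor : ∀ n, ∀ g ∈ G n, p ^ n • g = 0 := by
    rintro n _ ⟨x, hx, rfl⟩
    rw [← map_nsmul, (hT n x).1 hx, map_zero]
  -- Lemma B
  have hB : ∀ n, ∀ g ∈ G n, ∃ g' ∈ G n, φ g' = p ^ F • g := by
    intro n g hg
    haveI := hGfin n
    let φn : G n →+ G n :=
      (φ.comp (G n).subtype).codRestrict (G n) (fun x => hGφ n x x.2)
    have hφn : ∀ x : G n, ((φn x : G n) : Y) = φ x := fun x => rfl
    have h1 := abs_card_smul_mem_range φn ⟨g, hg⟩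
    have hc0 : 0 < Nat.card φn.ker := Nat.card_pos
    have hcF : Nat.card φn.ker ≤ F := by
      let ι : φn.ker → φ.ker := fun x => ⟨((x : G n) : Y), by
        have h2 : φn (x : G n) = 0 := x.2
        have h3 : φ ((x : G n) : Y) = 0 := by
          rw [← hφn, h2]
          rfl
        exact h3⟩
      have hι : Function.Injective ι := by
        intro x y hxy
        apply Subtype.ext
        apply Subtype.ext
        exact congrArg (fun z : φ.ker => (z : Y)) hxy
      exact Nat.card_le_card_of_injective ι hι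
    have h2 : p ^ n • (⟨g, hg⟩ : G n) ∈ φn.range := by
      have : p ^ n • (⟨g, hg⟩ : G n) = 0 := by
        apply Subtype.ext
        exact hGtor n g hg
      rw [this]
      exact φn.range.zero_mem
    obtain ⟨g', hg'⟩ := abs_pow_smul_mem hp φn.range hc0 hcF h1 h2
    refine ⟨g', g'.2, ?_⟩
    rw [← hφn, hg']
    rfl
  -- Lemma C
  have hC : ∀ n, ∀ g ∈ G n, ∃ g' ∈ G (n + F), φ g' = g := by
    rintro n _ ⟨x, hx, rfl⟩
    obtain ⟨x', hx'⟩ := abs_exists_div hdiv F x
    have h1 : x' ∈ T (n + F) := by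
      refine (hT _ _).2 ?_
      rw [pow_add, mul_smul, hx']
      exact (hT n x).1 hx
    obtain ⟨g', hg', h2⟩ := hB (n + F) (sp x') ⟨x', h1, rfl⟩
    refine ⟨g', hg', ?_⟩
    rw [h2, ← map_nsmul, hx']
  -- main argument
  obtain ⟨D', hD'⟩ := abs_exists_div hdiv F D
  have h1 : φ (sp D') ∈ G F := by
    refine ⟨h D' - D', ?_, ?_⟩
    · refine (hT _ _).2 ?_
      rw [smul_sub, ← map_nsmul, hD', hD, sub_self]
    · rw [map_sub, hcomm, hφ]
  obtain ⟨g', hg', h2⟩ := hC F _ h1
  have hw : sp D' - g' ∈ φ.ker := by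
    rw [AddMonoidHom.mem_ker, map_sub, h2, sub_self]
  have hw1 : F • (sp D' - g') ∈ (⊥ : AddSubgroup Y) := by
    have h3 : Nat.card φ.ker • (⟨sp D' - g', hw⟩ : φ.ker) = 0 := card_nsmul_eq_zero'
    have h4 := congrArg (fun z : φ.ker => (z : Y)) h3
    exact AddSubgroup.mem_bot.2 h4
  have hw2 : p ^ (F + F + 1) • (sp D' - g') ∈ (⊥ : AddSubgroup Y) := by
    refine AddSubgroup.mem_bot.2 ?_
    have h5 : p ^ (F + F + 1) • sp D' = 0 := by
      have : p ^ (F + F + 1) = p ^ F * (p * p ^ F) := by ring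
      rw [this, mul_smul, mul_smul, ← map_nsmul sp (p ^ F) D', hD', hpD, smul_zero]
    have h6 : p ^ (F + F + 1) • g' = 0 := by
      rw [pow_succ', mul_smul, hGtor _ g' hg', smul_zero]
    rw [smul_sub, h5, h6, sub_zero]
  have hF0 : 0 < F := Nat.card_pos
  have hw3 := AddSubgroup.mem_bot.1 (abs_pow_smul_mem hp ⊥ hF0 le_rfl hw1 hw2)
  obtain ⟨x', hx', rfl⟩ := hg'
  refine ⟨F + F, p ^ F • x', ?_, ?_⟩
  · rw [smul_comm, (hT _ _).1 hx', smul_zero]
  · rw [smul_sub, sub_eq_zero, ← map_nsmul, ← map_nsmul, hD'] at hw3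
    exact hw3.symm

end Main

end Fermat.Agent.S44.SP
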