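import Mathlib

/-!
# S44 / SP / Ann : step (a) of the SP-argument      key `S44/SP-ANN` (helper19), Mathlib only

A finite `R`-module `M` without nonzero element killed by `ker θ` (`θ : R →+* k`, `k` a field) is killed by some `s` with `θ s = 1`.
-/

set_option autoImplicit false

namespace Fermat.Agent.S44.SP

variable {R M k : Type*} [CommRing R] [Field k] [AddCommGroup M] [Module R M]

theorem ann_aux [Finite M] (θ : R →+* k)
    (h0 : ∀ x : M, (∀ r : R, θ r = 0 → r • x = 0) → x = 0) :
    ∀ (n : ℕ) (N : Submodule R M), (N : Set M).ncard = n →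
      ∃ s : R, θ s = 1 ∧ ∀ x ∈ N, s • x = 0 := by
  intro n
  induction n using Nat.strong_induction_on with
  | _ n ih =>
    intro N hN
    by_cases hsplit : ∃ t : R, θ t = 0 ∧ (∃ x ∈ N, x ≠ 0 ∧ t • x = 0) ∧ (∃ x ∈ N, t • x ≠ 0)
    · obtain ⟨t, ht, ⟨x₁, hx₁N, hx₁0, hx₁⟩, ⟨x₂, hx₂N, hx₂⟩⟩ := hsplit
      let K : Submodule R M := N ⊓ LinearMap.ker (LinearMap.lsmul R M t)
      let N' : Submodule R M := N.map (LinearMap.lsmul R M t)
      have hKmem : ∀ x, x ∈ K ↔ x ∈ N ∧ t • x = 0 := by
        intro x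
        simp [K, Submodule.mem_inf, LinearMap.mem_ker]
      have hK : (K : Set M) ⊂ (N : Set M) := by
        refine ⟨fun x hx => ((hKmem x).1 hx).1, fun hcon => ?_⟩
        exact hx₂ ((hKmem x₂).1 (hcon hx₂N)).2
      have hN'le : (N' : Set M) ⊆ (N : Set M) := by
        rintro _ ⟨x, hx, rfl⟩
        exact N.smul_mem t hx
      have hN' : (N' : Set M) ⊂ (N : Set M) := by
        refine ⟨hN'le, fun hcon => ?_⟩
        -- `t` is surjective on `N`, hence injective
        let f : N → N := fun x => ⟨t • (x : M), N.smul_mem t x.2⟩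
        have hsurj : Function.Surjective f := by
          rintro ⟨y, hy⟩
          obtain ⟨x, hx, hxy⟩ := hcon hy
          exact ⟨⟨x, hx⟩, Subtype.ext hxy⟩
        have hinj := Finite.injective_iff_surjective.2 hsurj
        have : (⟨x₁, hx₁N⟩ : N) = 0 := by
          apply hinj
          apply Subtype.ext
          show t • x₁ = t • (0 : M)
          rw [hx₁, smul_zero]
        exact hx₁0 (congrArg Subtype.val this)
      have c1 := Set.ncard_lt_ncard hK (Set.toFinite _)
      have c2 := Set.ncard_lt_ncard hN' (Set.toFinite _)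
      rw [hN] at c1 c2
      obtain ⟨s₁, hs₁, hs₁K⟩ := ih _ c1 K rfl
      obtain ⟨s₂, hs₂, hs₂N⟩ := ih _ c2 N' rfl
      refine ⟨s₁ * s₂, by rw [map_mul, hs₁, hs₂, one_mul], fun x hx => ?_⟩
      rw [mul_smul]
      apply hs₁K
      rw [hKmem]
      refine ⟨N.smul_mem _ hx, ?_⟩
      rw [smul_comm]
      exact hs₂N _ ⟨x, hx, rfl⟩
    · push Not at hsplit
      by_cases hbot : ∀ x ∈ N, x = 0
      · exact ⟨1, map_one θ, fun x hx => by rw [hbot x hx, smul_zero]⟩
      push Not at hbot
      obtain ⟨x₀, hx₀N, hx₀⟩ := hbot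
      have hr : ∃ r : R, θ r = 0 ∧ r • x₀ ≠ 0 := by
        by_contra hcon
        push Not at hcon
        exact hx₀ (h0 x₀ hcon)
      obtain ⟨r, hr0, hrx⟩ := hr
      have hinj' : ∀ x ∈ N, x ≠ 0 → r • x ≠ 0 := by
        intro x hx hx0 hrx0
        exact hrx (hsplit r hr0 ⟨x, hx, hx0, hrx0⟩ x₀ hx₀N)
      let f : N → N := fun x => ⟨r • (x : M), N.smul_mem r x.2⟩
      have hinj : Function.Injective f := by
        intro x y hxy
        have h1 : r • (x : M) = r • (y : M) := congrArg Subtype.val hxy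
        by_contra hne
        have h2 : ((x : M) - y) ≠ 0 := fun h => hne (Subtype.ext (sub_eq_zero.1 h))
        apply hinj' _ (N.sub_mem x.2 y.2) h2
        rw [smul_sub, h1, sub_self]
      have hbij : Function.Bijective f := ⟨hinj, Finite.injective_iff_surjective.1 hinj⟩
      let e : Equiv.Perm N := Equiv.ofBijective f hbij
      have hk : 0 < orderOf e := orderOf_pos e
      have hpow : ∀ (j : ℕ) (x : N), (((e ^ j) x : N) : M) = r ^ j • (x : M) := by
        intro j
        induction j with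
        | zero => intro x; simp
        | succ j ih' =>
          intro x
          rw [pow_succ', Equiv.Perm.mul_apply]
          show r • (((e ^ j) x : N) : M) = _
          rw [ih', smul_smul, ← pow_succ']
      refine ⟨1 - r ^ orderOf e, ?_, fun x hx => ?_⟩
      · rw [map_sub, map_one, map_pow, hr0, zero_pow hk.ne', sub_zero]
      · have := hpow (orderOf e) ⟨x, hx⟩
        rw [pow_orderOf_eq_one, Equiv.Perm.one_apply] at this
        rw [sub_smul, one_smul, ← this, sub_self]

/-- [S44/SP-ANN] -/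
theorem exists_ann [Finite M] (θ : R →+* k)
    (h0 : ∀ x : M, (∀ r : R, θ r = 0 → r • x = 0) → x = 0) :
    ∃ s : R, θ s = 1 ∧ ∀ x : M, s • x = 0 := by
  obtain ⟨s, hs, h⟩ := ann_aux θ h0 _ ⊤ rfl
  exact ⟨s, hs, fun x => h x Submodule.mem_top⟩

end Fermat.Agent.S44.SP
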