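import Fermat.Agent.S44.SP.Ann

/-!
# S44 / SP : `exists_ann` for a lattice with commuting operators          (helper20, key `S44/SP-ANNINST`, Mathlib only)

`X` a finitely generated torsion free abelian group, `T i` commuting endomorphisms, `a i : ℤ`, `p` prime.  EITHER there is
`y ∉ p X` with `T i y - a i y ∈ p X` for all `i`, OR there is `s` in the subalgebra of `End X × 𝔽_p` generated by the `(T i, a i)` with
`s.2 = 1` and `s.1 X ⊆ p^(n+1) X`.
-/

set_option autoImplicit false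

namespace Fermat.Agent.S44.SP

open Submodule

section

variable {X : Type*} [AddCommGroup X]

/-- `P X` -/
def QQ (X : Type*) [AddCommGroup X] (P : ℤ) : Submodule ℤ X :=
  LinearMap.range (P • (LinearMap.id : X →ₗ[ℤ] X))

theorem mem_QQ {P : ℤ} {x : X} : x ∈ QQ X P ↔ ∃ z : X, x = P • z := by
  constructor
  · rintro ⟨z, hz⟩; exact ⟨z, hz.symm⟩
  · rintro ⟨z, hz⟩; exact ⟨z, hz.symm⟩

theorem QQ_le_comap (P : ℤ) (f : Module.End ℤ X) : QQ X P ≤ (QQ X P).comap f := by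
  intro x hx
  obtain ⟨z, rfl⟩ := mem_QQ.mp hx
  exact mem_QQ.mpr ⟨f z, map_smul f P z⟩

/-- the action on `X / P X` -/
def annRho (X : Type*) [AddCommGroup X] (P : ℤ) : Module.End ℤ X →+* Module.End ℤ (X ⧸ QQ X P) where
  toFun f := (QQ X P).mapQ (QQ X P) f (QQ_le_comap P f)
  map_one' := by
    apply Submodule.linearMap_qext
    ext x
    rfl
  map_mul' f g := by
    apply Submodule.linearMap_qext
    ext x
    rfl
  map_zero' := by
    apply Submodule.linearMap_qext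
    ext x
    rfl
  map_add' f g := by
    apply Submodule.linearMap_qext
    ext x
    rfl

theorem annRho_mk (P : ℤ) (f : Module.End ℤ X) (x : X) :
    annRho X P f (Submodule.Quotient.mk x) = Submodule.Quotient.mk (f x) := rfl

theorem finite_quot_QQ [Module.Finite ℤ X] {P : ℕ} (hP : P ≠ 0) : Finite (X ⧸ QQ X (P : ℤ)) := by
  haveI : NeZero P := ⟨hP⟩
  have hk : ∀ x : X ⧸ QQ X (P : ℤ), P • x = 0 := by
    intro x
    obtain ⟨x, rfl⟩ := Submodule.Quotient.mk_surjective _ x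
    rw [← Submodule.Quotient.mk_smul, Submodule.Quotient.mk_eq_zero]
    exact mem_QQ.mpr ⟨x, (natCast_zsmul x P).symm⟩
  letI : Module (ZMod P) (X ⧸ QQ X (P : ℤ)) := AddCommGroup.zmodModule hk
  have h2 : Module.Finite (ZMod P) (X ⧸ QQ X (P : ℤ)) :=
    Module.Finite.of_restrictScalars_finite ℤ (ZMod P) _
  exact @Module.finite_of_finite (ZMod P) (X ⧸ QQ X (P : ℤ)) _ _ _ _ h2

end

variable {X : Type*} [AddCommGroup X] [Module.Finite ℤ X] [IsAddTorsionFree X]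
  {ι : Type*} (T : ι → Module.End ℤ X) (a : ι → ℤ) (p : ℕ)

/-- the generators `(T i, a i)` -/
def genS : Set (Module.End ℤ X × ZMod p) := Set.range fun i => (T i, (a i : ZMod p))

theorem annX (hp : p.Prime) (hcomm : ∀ i j, Commute (T i) (T j)) (n : ℕ) :
    (∃ y : X, (¬ ∃ z : X, y = (p : ℤ) • z) ∧ ∀ i, ∃ z : X, T i y - a i • y = (p : ℤ) • z) ∨
    (∃ s ∈ Algebra.adjoin ℤ (genS T a p), s.2 = 1 ∧
      ∀ c : X, ∃ z : X, s.1 c = ((p ^ (n + 1) : ℕ) : ℤ) • z) := by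
  classical
  haveI : Fact p.Prime := ⟨hp⟩
  have hcomm' : ∀ x ∈ genS T a p, ∀ y ∈ genS T a p, x * y = y * x := by
    rintro _ ⟨i, rfl⟩ _ ⟨j, rfl⟩
    exact Prod.ext (hcomm i j) (mul_comm _ _)
  letI : CommRing (Algebra.adjoin ℤ (genS T a p)) := Algebra.adjoinCommRingOfComm ℤ hcomm'
  let θ : Algebra.adjoin ℤ (genS T a p) →+* ZMod p :=
    (RingHom.snd _ _).comp (Algebra.adjoin ℤ (genS T a p)).val.toRingHom
  let ρ : Algebra.adjoin ℤ (genS T a p) →+* Module.End ℤ (X ⧸ QQ X ((p ^ (n + 1) : ℕ) : ℤ)) :=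
    (annRho X _).comp ((RingHom.fst _ _).comp (Algebra.adjoin ℤ (genS T a p)).val.toRingHom)
  letI : Module (Algebra.adjoin ℤ (genS T a p)) (X ⧸ QQ X ((p ^ (n + 1) : ℕ) : ℤ)) :=
    Module.compHom _ ρ
  haveI : Finite (X ⧸ QQ X ((p ^ (n + 1) : ℕ) : ℤ)) := finite_quot_QQ (pow_ne_zero _ hp.ne_zero)
  have hsm : ∀ (r : Algebra.adjoin ℤ (genS T a p)) (c : X),
      r • (Submodule.Quotient.mk c : X ⧸ QQ X ((p ^ (n + 1) : ℕ) : ℤ)) =
        Submodule.Quotient.mk (r.1.1 c) := fun r c => rfl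
  by_cases h0 : ∀ x : X ⧸ QQ X ((p ^ (n + 1) : ℕ) : ℤ),
      (∀ r : Algebra.adjoin ℤ (genS T a p), θ r = 0 → r • x = 0) → x = 0
  · right
    obtain ⟨s, hs, hs0⟩ := exists_ann θ h0
    refine ⟨s.1, s.2, hs, fun c => ?_⟩
    have := hs0 (Submodule.Quotient.mk c)
    rw [hsm] at this
    exact mem_QQ.mp ((Submodule.Quotient.mk_eq_zero _).mp this)
  · left
    push Not at h0
    obtain ⟨x, hx, hx0⟩ := h0
    obtain ⟨c, rfl⟩ := Submodule.Quotient.mk_surjective _ x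
    have hc0 : ¬ ∃ z : X, c = ((p ^ (n + 1) : ℕ) : ℤ) • z := fun h =>
      hx0 ((Submodule.Quotient.mk_eq_zero _).mpr (mem_QQ.mpr h))
    have hp0 : (p : ℤ) ≠ 0 := by exact_mod_cast hp.ne_zero
    -- `p c ∈ P X`
    have h1 : ∃ z : X, (p : ℤ) • c = ((p ^ (n + 1) : ℕ) : ℤ) • z := by
      have hmem : algebraMap ℤ (Module.End ℤ X × ZMod p) (p : ℤ) ∈ Algebra.adjoin ℤ (genS T a p) :=
        Subalgebra.algebraMap_mem _ _
      have := hx ⟨_, hmem⟩ (by
        show (algebraMap ℤ (Module.End ℤ X × ZMod p) (p : ℤ)).2 = 0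
        simp)
      rw [hsm] at this
      obtain ⟨z, hz⟩ := mem_QQ.mp ((Submodule.Quotient.mk_eq_zero _).mp this)
      refine ⟨z, ?_⟩
      rw [← hz]
      simp [Module.algebraMap_end_apply]
    obtain ⟨y, hy⟩ := h1
    have hcy : c = ((p ^ n : ℕ) : ℤ) • y := by
      have : (p : ℤ) • c = (p : ℤ) • (((p ^ n : ℕ) : ℤ) • y) := by
        rw [hy, smul_smul]; congr 1; push_cast; ring
      exact smul_right_injective X hp0 this
    refine ⟨y, ?_, fun i => ?_⟩
    · rintro ⟨z, rfl⟩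
      apply hc0
      refine ⟨z, ?_⟩
      rw [hcy, smul_smul]; congr 1 <;> (push_cast; ring)
    · have hmem : ((T i, (a i : ZMod p)) : Module.End ℤ X × ZMod p) -
          algebraMap ℤ (Module.End ℤ X × ZMod p) (a i) ∈ Algebra.adjoin ℤ (genS T a p) :=
        Subalgebra.sub_mem _ (Algebra.subset_adjoin ⟨i, rfl⟩) (Subalgebra.algebraMap_mem _ _)
      have := hx ⟨_, hmem⟩ (by
        show (((T i, (a i : ZMod p)) : Module.End ℤ X × ZMod p) -
          algebraMap ℤ (Module.End ℤ X × ZMod p) (a i)).2 = 0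
        simp)
      rw [hsm] at this
      obtain ⟨z, hz⟩ := mem_QQ.mp ((Submodule.Quotient.mk_eq_zero _).mp this)
      refine ⟨z, ?_⟩
      have hpn : ((p ^ n : ℕ) : ℤ) ≠ 0 := by exact_mod_cast pow_ne_zero _ hp.ne_zero
      apply smul_right_injective X hpn
      show ((p ^ n : ℕ) : ℤ) • (T i y - a i • y) = ((p ^ n : ℕ) : ℤ) • ((p : ℤ) • z)
      have e1 : ((p ^ n : ℕ) : ℤ) • ((p : ℤ) • z) = ((p ^ (n + 1) : ℕ) : ℤ) • z := by
        rw [smul_smul]; congr 1 <;> (push_cast; ring)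
      rw [e1, ← hz, smul_sub, ← map_smul, ← hcy, smul_comm, ← hcy]
      simp [Module.algebraMap_end_apply]

end Fermat.Agent.S44.SP
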