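import Fermat.Agent.S44.SP.HeckeRed
import Fermat.Agent.S44.SP.AnnX
import Fermat.Agent.S44.Top.SpOut

/-!
# S44 / SP : ANN + HECKE-RED on `XN M / p^(n+1)`          (helper20, key `S44/SP-ANNINST`)

`sp_alg` : if `uz : FN M` has divisor divisible by `p^(n+1)` and its reduction is `c * ub^(p^n) * h^(p^(n+1))`, where `ub ∈ k((q))` is NOT a
`p`-th power and is an eigenvector of the `T̄_ℓ` (`ℓ ∈ S`) modulo `p`-th powers with eigenvalues `a ℓ`, then `SpOut`.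

No commutativity of the function level `Tl` is needed: `WW M (p^(n+1)) ⊇ Θ(XN M) ≅ XN M / p^(n+1)` and `heckeX_commute`.
-/

set_option autoImplicit false
set_option synthInstance.maxHeartbeats 400000

open HahnSeries ModularCurve AlgebraicCurve Fermat.Agent.S24 Fermat.Agent.S29 Fermat.Agent.S18
  Fermat.Agent.ES Fermat.Agent.ES.Alg Fermat.Agent.S33 CongruenceSubgroup Fermat.Agent.S41 Fermat.Agent.S31

noncomputable section

namespace Fermat.Agent.S44.SP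

variable (A : ValuationSubring Kb) (N : ℕ) [NeZero N] (p m : ℕ) (ub : LaurentSeries (kA A))

/-- `Om` on classes modulo `p^(m+1)`-th powers -/
def OmW (w : WW N (p ^ (m + 1))) (e : ℤ) : Prop :=
  ∃ (u : FN N) (hu : u ≠ 0), cl u hu = w ∧ Om A N p m ub u e

variable {A N p m ub}

theorem OmW.of_cl (hp : p ≠ 0) (hub : ub ≠ 0) {u : FN N} {hu : u ≠ 0} {e : ℤ}
    (h : OmW A N p m ub (cl u hu) e) : Om A N p m ub u e := by
  obtain ⟨u', hu', hcl, hO⟩ := h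
  obtain ⟨g, hg⟩ := kuAux_exists_of_cl_eq hu hu' hcl.symm
  have hg0 : g ≠ 0 := by
    rintro rfl
    rw [zero_pow (pow_ne_zero _ hp), mul_zero] at hg
    exact hu hg
  have := hO.mul hub (om_pow (A := A) (p := p) (m := m) (ub := ub) hg0)
  rwa [← hg, add_zero] at this

theorem OmW.add (hub : ub ≠ 0) {w w' : WW N (p ^ (m + 1))} {e e' : ℤ} (h : OmW A N p m ub w e)
    (h' : OmW A N p m ub w' e') : OmW A N p m ub (w + w') (e + e') := by
  obtain ⟨u, hu, rfl, hO⟩ := h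
  obtain ⟨u', hu', rfl, hO'⟩ := h'
  exact ⟨u * u', mul_ne_zero hu hu', cl_mul hu hu', hO.mul hub hO'⟩

theorem OmW.zsmul (hub : ub ≠ 0) {w : WW N (p ^ (m + 1))} {e : ℤ} (h : OmW A N p m ub w e) (z : ℤ) :
    OmW A N p m ub (z • w) (z * e) := by
  obtain ⟨u, hu, rfl, hO⟩ := h
  exact ⟨u ^ z, zpow_ne_zero _ hu, Top.cl_zpow hu z, hO.zpow hub z⟩

theorem omW_zero : OmW A N p m ub 0 0 := by
  refine ⟨(1 : FN N) ^ (p ^ (m + 1)), pow_ne_zero _ one_ne_zero, ?_, om_pow one_ne_zero⟩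
  rw [cl_pow (one_ne_zero : (1 : FN N) ≠ 0), nsmul_WW]

theorem isAddTorsionFree_XN : IsAddTorsionFree (XN N) := by
  refine ⟨fun n hn c c' h => ?_⟩
  apply Subtype.ext
  apply AddMonoidHom.ext
  intro γ
  have h1 := congrArg (fun z : XN N => (z : Additive (Gamma0 N) →+ ℤ) γ) h
  simp only [Submodule.coe_smul, AddMonoidHom.coe_smul, Pi.smul_apply, nsmul_eq_mul] at h1
  exact mul_left_cancel₀ (by exact_mod_cast hn) h1

section Main

variable (S : Set ℕ) (a : ℕ → ℤ)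

/-- the eigen-hypothesis on `ub` -/
def EigB (A : ValuationSubring Kb) (N p : ℕ) (ub : LaurentSeries (kA A)) (S : Set ℕ) (a : ℕ → ℤ) :
    Prop :=
  ∀ (ℓ : ℕ) (hℓ : ℓ.Prime), ¬ ℓ ∣ N * p → ℓ ∈ S → ∃ gb : LaurentSeries (kA A), gb ≠ 0 ∧
    @HRel _ _ (@zb A ℓ ⟨hℓ.ne_zero⟩) ℓ ⟨hℓ.ne_zero⟩ ub (ub ^ (a ℓ) * gb ^ p)

/-- the index set -/
abbrev Idx (N p : ℕ) (S : Set ℕ) : Type := {ℓ : ℕ // ℓ.Prime ∧ ¬ ℓ ∣ N * p ∧ ℓ ∈ S}

variable {S a}

theorem natCast_kA_ne_zero [CharP (kA A) p] (hp : p.Prime) {ℓ : ℕ} (hℓ : ℓ.Prime)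
    (hN : ¬ ℓ ∣ N * p) : (ℓ : kA A) ≠ 0 := by
  intro h
  rw [CharP.cast_eq_zero_iff (kA A) p] at h
  have := (Nat.prime_dvd_prime_iff_eq hp hℓ).mp h
  exact hN (this ▸ dvd_mul_left p N)

theorem OmW.TX [CharP (kA A) p] (hp : p.Prime) (hub : ub ≠ 0) (hE : EigB A N p ub S a)
    (i : Idx N p S) {c : XN N} {e : ℤ}
    (h : OmW A N p m ub (Theta (pow_ne_zero (m + 1) hp.ne_zero) (desc_holds N _ (pow_ne_zero (m + 1) hp.ne_zero)) c) e) :
    OmW A N p m ub (Theta (pow_ne_zero (m + 1) hp.ne_zero) (desc_holds N _ (pow_ne_zero (m + 1) hp.ne_zero))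
      (Fermat.Agent.S29.TX N i.1 c)) (e * a i.1) := by
  obtain ⟨ℓ, hℓ, hNp, hS⟩ := i
  have hN : ¬ ℓ ∣ N := fun h => hNp (Dvd.dvd.mul_right h p)
  haveI : NeZero ℓ := ⟨hℓ.ne_zero⟩
  set hP := pow_ne_zero (m + 1) hp.ne_zero
  set hD := desc_holds N _ hP
  obtain ⟨gb, hgb, hU⟩ := hE ℓ hℓ hNp hS
  rw [Theta_apply] at h
  have h1 := h.of_cl hp.ne_zero hub
  have hk := k3_holds' N (p ^ (m + 1)) ℓ hℓ hN c (heckeX N hℓ hN c) (uK hD c) c.2
    (isKummer_uK hD c) (isTransfer_heckeX N hℓ hN c)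
  refine ⟨_, hk.ne_zero, ?_, h1.Tl hℓ hN (natCast_kA_ne_zero hp hℓ hNp) hub hgb hU⟩
  show _ = Theta hP hD (Fermat.Agent.S29.TX N ℓ c)
  rw [TX_eq hℓ hN]
  exact (Theta_eq hP hD _ hk).symm

theorem om_adjoin [CharP (kA A) p] (hp : p.Prime) (hub : ub ≠ 0) (hE : EigB A N p ub S a)
    (s : Module.End ℤ (XN N) × ZMod p)
    (hs : s ∈ Algebra.adjoin ℤ (genS (fun i : Idx N p S => Fermat.Agent.S29.TX N i.1)
      (fun i => a i.1) p)) :
    ∀ (c : XN N) (e : ℤ),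
      OmW A N p m ub (Theta (pow_ne_zero (m + 1) hp.ne_zero) (desc_holds N _ (pow_ne_zero (m + 1) hp.ne_zero)) c) e →
      ∃ e' : ℤ, (e' : ZMod p) = s.2 ∧
        OmW A N p m ub (Theta (pow_ne_zero (m + 1) hp.ne_zero) (desc_holds N _ (pow_ne_zero (m + 1) hp.ne_zero))
          (s.1 c)) (e * e') := by
  induction hs using Algebra.adjoin_induction with
  | mem x hx =>
    obtain ⟨i, rfl⟩ := hx
    intro c e h
    exact ⟨a i.1, rfl, h.TX hp hub hE i⟩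
  | algebraMap z =>
    intro c e h
    refine ⟨z, by simp, ?_⟩
    have e1 : (algebraMap ℤ (Module.End ℤ (XN N) × ZMod p) z).1 c = z • c := by
      simp [Module.algebraMap_end_apply]
    rw [e1, map_zsmul, mul_comm]
    exact h.zsmul hub z
  | add x y _ _ hx hy =>
    intro c e h
    obtain ⟨e1, he1, h1⟩ := hx c e h
    obtain ⟨e2, he2, h2⟩ := hy c e h
    refine ⟨e1 + e2, by rw [Int.cast_add, he1, he2]; rfl, ?_⟩
    have e3 : (x + y).1 c = x.1 c + y.1 c := rfl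
    rw [e3, map_add, mul_add]
    exact h1.add hub h2
  | mul x y _ _ hx hy =>
    intro c e h
    obtain ⟨e2, he2, h2⟩ := hy c e h
    obtain ⟨e1, he1, h1⟩ := hx _ _ h2
    refine ⟨e1 * e2, by rw [Int.cast_mul, he1, he2]; rfl, ?_⟩
    have e3 : (x * y).1 c = x.1 (y.1 c) := rfl
    rw [e3]
    convert h1 using 1
    ring

/-- **ANN + HECKE-RED** -/
theorem sp_alg [CharP (kA A) p] (hp : p.Prime) (hk : ∀ x : kA A, ∃ b, b ^ p = x) (hub : ub ≠ 0)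
    (hnp : ¬ ∃ w : LaurentSeries (kA A), ub = w ^ p) (hE : EigB A N p ub S a) {uz : FN N}
    (hz : PDiv Kb (FN N) (p ^ (m + 1)) uz) (hO : Om A N p m ub uz 1) :
    ∃ y : XN N, ¬ DivP p y ∧ ∀ (ℓ : ℕ) (hℓ : ℓ.Prime) (hN : ¬ ℓ ∣ N), ¬ ℓ ∣ N * p → ℓ ∈ S →
      DivP p (heckeX N hℓ hN y - a ℓ • y) := by
  haveI := isAddTorsionFree_XN (N := N)
  have hP := pow_ne_zero (m + 1) hp.ne_zero
  have hcomm : ∀ i j : Idx N p S, Commute (Fermat.Agent.S29.TX N i.1) (Fermat.Agent.S29.TX N j.1) := by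
    rintro ⟨ℓ, hℓ, hNp, -⟩ ⟨ℓ', hℓ', hNp', -⟩
    have hN : ¬ ℓ ∣ N := fun h => hNp (Dvd.dvd.mul_right h p)
    have hN' : ¬ ℓ' ∣ N := fun h => hNp' (Dvd.dvd.mul_right h p)
    show Commute (Fermat.Agent.S29.TX N ℓ) (Fermat.Agent.S29.TX N ℓ')
    rw [TX_eq hℓ hN, TX_eq hℓ' hN']
    exact heckeX_commute N hℓ hN hℓ' hN'
  rcases annX (fun i : Idx N p S => Fermat.Agent.S29.TX N i.1) (fun i => a i.1) p hp hcomm m with
    ⟨y, hy, hT⟩ | ⟨s, hs, hs2, hs1⟩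
  · refine ⟨y, hy, fun ℓ hℓ hN hNp hS => ?_⟩
    have := hT ⟨ℓ, hℓ, hNp, hS⟩
    rwa [TX_eq hℓ hN] at this
  · exfalso
    obtain ⟨c, hc⟩ := Fermat.Agent.S30.Surj.exists_isKummer_of_pdiv N (p ^ (m + 1)) hP uz hz
    have h0 : OmW A N p m ub (Theta hP (desc_holds N _ hP) c) 1 :=
      ⟨uz, hc.ne_zero, (Theta_eq hP _ c hc).symm, hO⟩
    obtain ⟨e', he', h1⟩ := om_adjoin hp hub hE s hs c 1 h0
    obtain ⟨z, hz'⟩ := hs1 c
    rw [hz', map_zsmul, natCast_zsmul, nsmul_WW, one_mul] at h1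
    obtain ⟨u, hu, hcl, hOu⟩ := h1
    have h2 : OmW A N p m ub (cl u hu) 0 := by rw [hcl]; exact omW_zero
    apply hnp
    refine hOu.exists_root hp hk hub (h2.of_cl hp.ne_zero hub) ?_
    rw [sub_zero]
    intro hd
    have h3 : (e' : ZMod p) = 0 := (ZMod.intCast_zmod_eq_zero_iff_dvd e' p).mpr hd
    rw [he', hs2] at h3
    haveI : Fact p.Prime := ⟨hp⟩
    exact one_ne_zero h3

end Main

end Fermat.Agent.S44.SP
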