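import Fermat.Agent.S44.SP.FinMain
import Fermat.Agent.S44.SP.Abs

/-!
# S44 / SP-CORE : the abstract geometric core of the SP argument (= MAP + FIN + ABS + FUN)   (helper18)

INPUT: `SpD O red r`; `Pic0 K F` is `p`-divisible with finite `p^n`-torsion; every divisor of `F` is fixed by some Frobenius datum (`FrobD`);
`ub ∈ Ft` with `p ∣ ord_x ub` for all places `x` of `Ft`.
OUTPUT: `n`, `uz ∈ O` with `p^(n+1) ∣ div uz` and `red uz = c * ub^(p^n) * hbar^(p^(n+1))`.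

PROOF. `u'` a lift of `ub`, `r_* div u' = p Δ`; `D := s_* Δ` (`s` a section of `r`, `SpD.onto`), `deg D = 0`, `r_* D = Δ`;
`p * sp [D] = 0` (`sp_eq_iff`); `γ` fixes `D`; `exists_torsion_lift` + `finite_fix`: `z = [Dz]`, `p^n z = 0`, `sp z = sp [D]`;
`p^(n+1) Dz = div uz`; `r_* Dz = Δ + r_* div h`; so `red uz / (ub^(p^n) * (red h)^(p^(n+1)))` has trivial divisor: constant.
-/

set_option autoImplicit false

open AlgebraicCurve Fermat.Agent.S37

noncomputable section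

namespace Fermat.Agent.S44.SP

variable {K F k Ft : Type*} [Field K] [Field F] [Algebra K F] [Field k] [Field Ft] [Algebra k Ft]
variable {O : Subring F} {red : O →+* Ft} {r : Place K F → Place k Ft}
variable [IsAlgClosed K] [CharZero K]

/-- a principal divisor is `div y` with `y ∈ O`, `red y ≠ 0` -/
theorem SpD.exists_rep (h : SpD O red r) {E : Divisor K F}
    (hE : E ∈ Divisor.principal (K := K) (F := F)) :
    ∃ y : O, red y ≠ 0 ∧ (∀ P, E P = P.ord (y : F)) ∧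
      ∀ x, Finsupp.mapDomain r E x = x.ord (red y) := by
  obtain ⟨f, hf, hEf⟩ := hE
  obtain ⟨c, hc, y, hy, hy0⟩ := h.scale f hf
  have h1 : ∀ P, E P = P.ord (y : F) := fun P => by rw [hEf P, hy, ord_const_mul P hc hf]
  exact ⟨y, hy0, h1, h.RED y hy0 E h1⟩

/-- **[S44/SP-CORE]** -/
theorem SpD.core [IsAlgClosed k] (h : SpD O red r) {p : ℕ} (hp : p.Prime)
    (hdiv : ∀ x : Pic0 K F, ∃ y : Pic0 K F, p • y = x)
    (hfin : ∀ n : ℕ, {x : Pic0 K F | p ^ n • x = 0}.Finite)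
    {t : Ft} {oo : Place K F}
    (hFrob : ∀ D : Divisor K F, ∃ (γ : SemilinearAut K F) (γb : SemilinearAut k Ft) (q : ℕ),
      FrobD O red γ γb q t oo ∧ γ • D = D)
    (ub : Ft) (hub : ub ≠ 0) (hpu : ∀ x : Place k Ft, (p : ℤ) ∣ x.ord ub) :
    ∃ (n : ℕ) (uz : O) (c : k) (hbar : Ft), c ≠ 0 ∧ hbar ≠ 0 ∧
      red uz = algebraMap k Ft c * ub ^ (p ^ n) * hbar ^ (p ^ (n + 1)) ∧
      ∀ P : Place K F, ((p ^ (n + 1) : ℕ) : ℤ) ∣ P.ord (uz : F) := by
  classical
  have hp0 : (p : ℤ) ≠ 0 := by exact_mod_cast hp.ne_zero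
  -- the divisor `Δ`
  obtain ⟨u', Du, hu', hDu, hDu', hdg⟩ := h.exists_div ub hub
  have hDup : Du ∈ Divisor.principal (K := K) (F := F) :=
    ⟨u', ne_zero_of_red_ne_zero (red := red) (by rw [hu']; exact hub), hDu⟩
  set Δ : Divisor k Ft := (Finsupp.mapDomain r Du).mapRange (fun m => m / (p : ℤ)) (by simp) with hΔ
  have hΔx : ∀ x, (p : ℤ) * Δ x = x.ord ub := by
    intro x
    rw [hΔ, Finsupp.mapRange_apply, hDu']
    exact Int.mul_ediv_cancel' (hpu x)
  have hpΔ : (p : ℤ) • Δ = Finsupp.mapDomain r Du := by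
    ext x
    rw [Finsupp.smul_apply, smul_eq_mul, hΔx, hDu']
  have hdgΔ : dg Δ = 0 := by
    have : (p : ℤ) * dg Δ = 0 := by
      rw [← smul_eq_mul, ← map_zsmul, hpΔ, hdg]
    exact (mul_eq_zero.mp this).resolve_left hp0
  -- lift
  choose s hs using h.onto
  set D : Divisor K F := Finsupp.mapDomain s Δ with hD
  have hrD : Finsupp.mapDomain r D = Δ := by
    rw [hD, ← Finsupp.mapDomain_comp]
    have : r ∘ s = id := funext hs
    rw [this, Finsupp.mapDomain_id]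
  have hD0 : D ∈ Divisor.degZero (K := K) (F := F) := by
    rw [Divisor.mem_degZero, ← dg_eq_degree h.ff, hD, dg_mapDomain, hdgΔ]
  obtain ⟨γ, γb, q, hF, hγD⟩ := hFrob D
  have he := h.eqv hF.compat
  -- `p * sp [D] = 0`
  have hpD : p • sp r (Pic0.mk ⟨D, hD0⟩) = 0 := by
    rw [← map_nsmul]
    have e1 : p • Pic0.mk (⟨D, hD0⟩ : Divisor.degZero (K := K) (F := F)) =
        Pic0.mk (p • ⟨D, hD0⟩) := rfl
    have e0 : (0 : YY r) = sp r (Pic0.mk 0) := (map_zero _).symm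
    rw [e1, e0, sp_eq_iff h.ff]
    refine ⟨Du, hDup, ?_⟩
    have e2 : ((p • (⟨D, hD0⟩ : Divisor.degZero (K := K) (F := F)) :
        Divisor.degZero (K := K) (F := F)) : Divisor K F) = p • D := rfl
    have e3 := map_nsmul (Finsupp.mapDomain.addMonoidHom r) p D
    simp only [Finsupp.mapDomain.addMonoidHom_apply] at e3
    rw [e2, e3, hrD, ← hpΔ]
    simp
  have hfix : hP γ (Pic0.mk ⟨D, hD0⟩) = Pic0.mk ⟨D, hD0⟩ := by
    rw [hP_apply, SemilinearAut.pic0_smul_mk]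
    congr 1
    exact Subtype.ext hγD
  obtain ⟨n, z, hz, hspz⟩ := exists_torsion_lift (P := Pic0 K F) (Y := YY r) hp hdiv hfin (sp r)
    (hP γ) (hb he) (sp_hP he) (h.finite_fix hF) (Pic0.mk ⟨D, hD0⟩) hfix hpD
  obtain ⟨Dz, rfl⟩ := Pic0.mk_surjective z
  -- `p^(n+1) Dz` is principal
  have hz' : p ^ (n + 1) • Pic0.mk Dz = 0 := by rw [pow_succ', mul_smul, hz, smul_zero]
  have hprin : (p ^ (n + 1) • (Dz : Divisor K F)) ∈ Divisor.principal (K := K) (F := F) := by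
    have e1 : p ^ (n + 1) • Pic0.mk Dz = Pic0.mk (p ^ (n + 1) • Dz) := rfl
    rw [e1] at hz'
    have := (QuotientAddGroup.eq_zero_iff _).mp hz'
    rwa [AddSubgroup.mem_addSubgroupOf] at this
  obtain ⟨uz, huz0, huz, huz'⟩ := h.exists_rep hprin
  obtain ⟨E, hE, hEz⟩ := (sp_eq_iff h.ff _ _).mp hspz
  obtain ⟨hh, hh0, -, hh'⟩ := h.exists_rep hE
  -- compare divisors
  set w : Ft := red uz * (ub ^ (p ^ n) * red hh ^ (p ^ (n + 1)))⁻¹ with hw
  have hden : ub ^ (p ^ n) * red hh ^ (p ^ (n + 1)) ≠ 0 :=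
    mul_ne_zero (pow_ne_zero _ hub) (pow_ne_zero _ hh0)
  have hw0 : w ≠ 0 := mul_ne_zero huz0 (inv_ne_zero hden)
  have hordpow : ∀ (x : Place k Ft) (a : Ft) (m : ℕ), x.ord (a ^ m) = m * x.ord a := by
    intro x a m
    have := x.ord_zpow a m
    rwa [zpow_natCast] at this
  have hwx : ∀ x : Place k Ft, x.ord w = 0 := by
    intro x
    rw [hw, x.ord_mul huz0 (inv_ne_zero hden), x.ord_inv,
      x.ord_mul (pow_ne_zero _ hub) (pow_ne_zero _ hh0), hordpow, hordpow, ← huz' x, ← hh' x]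
    have e3 := map_nsmul (Finsupp.mapDomain.addMonoidHom r) (p ^ (n + 1)) (Dz : Divisor K F)
    simp only [Finsupp.mapDomain.addMonoidHom_apply] at e3
    have e4 : Finsupp.mapDomain r (Dz : Divisor K F) = Δ + Finsupp.mapDomain r E := by
      rw [hEz]
      show Finsupp.mapDomain r D + _ = _
      rw [hrD]
    rw [e3, e4, Finsupp.smul_apply, Finsupp.add_apply, ← hΔx x]
    push_cast
    rw [nsmul_eq_mul]
    push_cast
    ring
  obtain ⟨c, hc⟩ := hF.CONST w hw0 hwx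
  refine ⟨n, uz, c, red hh, ?_, hh0, ?_, ?_⟩
  · rintro rfl
    rw [map_zero] at hc
    exact hw0 hc
  · rw [← hc, hw, mul_assoc (red uz * _), mul_assoc (red uz), inv_mul_cancel₀ hden, mul_one]
  · intro P
    rw [← huz P, Finsupp.smul_apply, nsmul_eq_mul]
    exact Dvd.intro _ rfl

end Fermat.Agent.S44.SP
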