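import Fermat.Agent.S44.SP.Glue
import Fermat.Agent.S44.Geo.Defs
import Fermat.Agent.S44.Geo.SmoothVR

/-!
# S44 / SP : `sp_core` in the Place language of `Geo/Defs.lean`          (helper20, key `S44/SP-CORE2`)

* `redQ_of_Vinf` : `v ∈ Vinf A N`, `resInf v ≠ 0`  ⟹  `RedQ A N v (resInf v)`;
* `sp_core2` : `u1 ∈ Vinf A M`, `resInf u1 ≠ 0`, `PDivRed S0 q u1`  ⟹  `∃ n uz, PDiv (q^(n+1)) uz ∧ Om A M q n (resInf u1) uz 1`.
-/

set_option autoImplicit false
set_option synthInstance.maxHeartbeats 400000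

open HahnSeries ModularCurve AlgebraicCurve Fermat.Agent.S24 Fermat.Agent.S29 Fermat.Agent.S18
  Fermat.Agent.ES Fermat.Agent.ES.Alg Fermat.Agent.S34.Mod Fermat.Agent.S37

noncomputable section

namespace Fermat.Agent.S44.SP

theorem redQ_of_Vinf {A : ValuationSubring Kb} {N : ℕ} [NeZero N] (v : Vinf A N)
    (hne : resInf A N v ≠ 0) : RedQ A N (v : FN N) (resInf A N v) := by
  have hv0 : (v : FN N) ≠ 0 := by
    intro h
    apply hne
    have : v = 0 := Subtype.ext h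
    rw [this, map_zero]
  obtain ⟨r, c, hc, hr, hQ⟩ := exists_redC (A := A) hv0
  obtain ⟨hy, hres⟩ := Geo.resInf_of_redQ hQ
  have hinv := inv_mem_Vinf (x := ⟨_, hy⟩) (by rw [hres]; exact hr)
  have hcF : algebraMap Kb (FN N) c ≠ 0 := by rw [Ne, map_eq_zero]; exact hc
  have hc' : algebraMap Kb (FN N) c⁻¹ ∈ Vinf A N := by
    have : algebraMap Kb (FN N) c⁻¹ = v * (algebraMap Kb (FN N) c * v)⁻¹ := by
      rw [map_inv₀, mul_inv, mul_comm (algebraMap Kb (FN N) c)⁻¹, ← mul_assoc,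
        mul_inv_cancel₀ hv0, one_mul]
    rw [this]
    exact mul_mem v.2 hinv
  have hcA := mem_of_algebraMap_mem_Vinf hc'
  have h1 := (RedQ.of_intRed (intRed_cst (N := N) (⟨c⁻¹, hcA⟩ : A))).mul hQ
  have e : algebraMap Kb (FN N) ((⟨c⁻¹, hcA⟩ : A) : Kb) * (algebraMap Kb (FN N) c * v) = v := by
    show algebraMap Kb (FN N) c⁻¹ * (algebraMap Kb (FN N) c * v) = v
    rw [map_inv₀, inv_mul_cancel_left₀ hcF]
  rw [e] at h1
  obtain ⟨hy', hres'⟩ := Geo.resInf_of_redQ h1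
  rw [← hres'] at h1
  exact h1

theorem redC_of_Vinf {A : ValuationSubring Kb} {N : ℕ} [NeZero N] (v : Vinf A N)
    (hne : resInf A N v ≠ 0) : RedC A N (v : FN N) (resInf A N v) :=
  ⟨1, one_ne_zero, hne, by rw [map_one, one_mul]; exact redQ_of_Vinf v hne⟩

/-- **SP-CORE in the Place language** -/
theorem sp_core2 {M q r : ℕ} [NeZero M] [NeZero q] [NeZero r] {A : ValuationSubring Kb}
    (S0 : Setup M q r A) (u1 : Vinf A M) (hne : resInf A M u1 ≠ 0)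
    (hd : Geo.PDivRed S0 q (u1 : FN M)) :
    ∃ (n : ℕ) (uz : FN M), PDiv Kb (FN M) (q ^ (n + 1)) uz ∧ Om A M q n (resInf A M u1) uz 1 := by
  have hr := S0.hr
  have hrM := S0.hr1
  have hp := S0.hq
  have hA := S0.hA
  have hpM := S0.not_dvd
  have hfin := finiteDimensional_LT (haupt M r hr hrM) hrM
  obtain ⟨Ft, _, _, red, hRD⟩ := exists_redData (transcendental_tauL (haupt M r hr hrM) hrM)
    (isGen_tauL (haupt M r hr hrM) hrM) (fld_mod (haupt M r hr hrM) hrM A hp hA hpM)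
  obtain ⟨ι, h1, h2, h3⟩ := exists_iota (haupt M r hr hrM) hrM A hp hA hpM hRD
  have hQ := redQ_of_Vinf u1 hne
  have hmem : (u1 : FN M) ∈ KL.VV A (tauL (haupt M r hr hrM) hrM) (FN M) :=
    mem_VV_of_redQ (haupt M r hr hrM) hrM A hp hA hpM hQ
  have hι : ι (red ⟨u1, hmem⟩) = resInf A M u1 := (h1 ⟨u1, hmem⟩).unique hQ
  have hub' : red ⟨u1, hmem⟩ ≠ 0 := by
    intro h0
    rw [h0, map_zero] at hι
    exact hne hι.symm
  obtain ⟨n, uz, c, hbar, hc, hh, hred, hdiv⟩ := core_haupt hr hrM A hp hA hpM hRD _ hub'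
    (fun x => hd Ft _ red hRD hmem x)
  have hr0 : ι (red uz) ≠ 0 := by
    rw [hred, Ne, map_eq_zero]
    exact mul_ne_zero (mul_ne_zero (by rw [Ne, map_eq_zero]; exact hc) (pow_ne_zero _ hub'))
      (pow_ne_zero _ hh)
  have huz0 : (uz : FN M) ≠ 0 := by
    intro h0
    apply hr0
    have : uz = 0 := Subtype.ext h0
    rw [this, map_zero, map_zero]
  refine ⟨n, uz, ⟨huz0, hdiv⟩, ι (red uz), ⟨1, one_ne_zero, hr0, ?_⟩, c, ι hbar, hc, ?_, ?_⟩
  · rw [map_one, one_mul]; exact h1 uz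
  · rw [Ne, map_eq_zero]; exact hh
  · rw [hred, map_mul, map_mul, map_pow, map_pow, h3, mul_one, zpow_natCast, hι]

theorem RedQ.pow {A : ValuationSubring Kb} {N : ℕ} [NeZero N] {y : FN N}
    {r : LaurentSeries (kA A)} (h : RedQ A N y r) (n : ℕ) : RedQ A N (y ^ n) (r ^ n) := by
  induction n with
  | zero => rw [pow_zero, pow_zero]; exact RedQ.of_intRed intRed_one
  | succ n ih => rw [pow_succ, pow_succ]; exact ih.mul h

/-- **SP-CORE, strong form** : the `q^(n+1)`-th power comes from the level `M` -/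
theorem sp_core3 {M q r : ℕ} [NeZero M] [NeZero q] [NeZero r] {A : ValuationSubring Kb}
    (S0 : Setup M q r A) (u1 : Vinf A M) (hne : resInf A M u1 ≠ 0)
    (hd : Geo.PDivRed S0 q (u1 : FN M)) :
    ∃ (n : ℕ) (uz hh : FN M) (c : kA A), hh ≠ 0 ∧ c ≠ 0 ∧ PDiv Kb (FN M) (q ^ (n + 1)) uz ∧
      RedQ A M (uz * ((u1 : FN M) ^ (q ^ n) * hh ^ (q ^ (n + 1)))⁻¹) (HahnSeries.C c) := by
  have hr := S0.hr
  have hrM := S0.hr1
  have hp := S0.hq
  have hA := S0.hA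
  have hpM := S0.not_dvd
  have hfin := finiteDimensional_LT (haupt M r hr hrM) hrM
  obtain ⟨Ft, _, _, red, hRD⟩ := exists_redData (transcendental_tauL (haupt M r hr hrM) hrM)
    (isGen_tauL (haupt M r hr hrM) hrM) (fld_mod (haupt M r hr hrM) hrM A hp hA hpM)
  obtain ⟨ι, h1, h2, h3⟩ := exists_iota (haupt M r hr hrM) hrM A hp hA hpM hRD
  have hQ := redQ_of_Vinf u1 hne
  have hmem : (u1 : FN M) ∈ KL.VV A (tauL (haupt M r hr hrM) hrM) (FN M) :=
    mem_VV_of_redQ (haupt M r hr hrM) hrM A hp hA hpM hQ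
  have hι : ι (red ⟨u1, hmem⟩) = resInf A M u1 := (h1 ⟨u1, hmem⟩).unique hQ
  have hub' : red ⟨u1, hmem⟩ ≠ 0 := by
    intro h0
    rw [h0, map_zero] at hι
    exact hne hι.symm
  obtain ⟨n, uz, c, hbar, hc, hh, hred, hdiv⟩ := core_haupt hr hrM A hp hA hpM hRD _ hub'
    (fun x => hd Ft _ red hRD hmem x)
  obtain ⟨hh', rfl⟩ := hRD.surj hbar
  have hr0 : ι (red uz) ≠ 0 := by
    rw [hred, Ne, map_eq_zero]
    exact mul_ne_zero (mul_ne_zero (by rw [Ne, map_eq_zero]; exact hc) (pow_ne_zero _ hub'))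
      (pow_ne_zero _ hh)
  have huz0 : (uz : FN M) ≠ 0 := by
    intro h0
    apply hr0
    have : uz = 0 := Subtype.ext h0
    rw [this, map_zero, map_zero]
  have hh0 : (hh' : FN M) ≠ 0 := by
    intro h0
    apply hh
    have : hh' = 0 := Subtype.ext h0
    rw [this, map_zero]
  have hιh : ι (red hh') ≠ 0 := by rw [Ne, map_eq_zero]; exact hh
  refine ⟨n, uz, hh', c, hh0, hc, ⟨huz0, hdiv⟩, ?_⟩
  have hden : (resInf A M u1) ^ (q ^ n) * (ι (red hh')) ^ (q ^ (n + 1)) ≠ 0 :=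
    mul_ne_zero (pow_ne_zero _ hne) (pow_ne_zero _ hιh)
  have key := (h1 uz).mul (((hQ.pow (q ^ n)).mul ((h1 hh').pow (q ^ (n + 1)))).inv hden)
  have e : ι (red uz) * ((resInf A M u1) ^ (q ^ n) * (ι (red hh')) ^ (q ^ (n + 1)))⁻¹ =
      HahnSeries.C c := by
    rw [hred, map_mul, map_mul, map_pow, map_pow, h3, hι, mul_assoc (HahnSeries.C c), mul_assoc,
      mul_inv_cancel₀ hden, mul_one]
  rwa [e] at key

/-- the strong form gives `Om` -/
theorem om_of_core3 {A : ValuationSubring Kb} {M q n : ℕ} [NeZero M] (u1 : Vinf A M)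
    (hne : resInf A M u1 ≠ 0) {uz hh : FN M} {c : kA A} (hh0 : hh ≠ 0) (hc : c ≠ 0)
    (h : RedQ A M (uz * ((u1 : FN M) ^ (q ^ n) * hh ^ (q ^ (n + 1)))⁻¹) (HahnSeries.C c)) :
    Om A M q n (resInf A M u1) uz 1 := by
  obtain ⟨rh, hrh⟩ := exists_redC (A := A) hh0
  have hu0 : (u1 : FN M) ≠ 0 := by
    intro h0
    apply hne
    have : u1 = 0 := Subtype.ext h0
    rw [this, map_zero]
  have hX : RedC A M (uz * ((u1 : FN M) ^ (q ^ n) * hh ^ (q ^ (n + 1)))⁻¹) (HahnSeries.C c) :=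
    ⟨1, one_ne_zero, C_ne_zero' hc, by rw [map_one, one_mul]; exact h⟩
  have h2 := hX.mul (((redC_of_Vinf u1 hne).pow (q ^ n)).mul (hrh.pow (q ^ (n + 1))))
  have hden : (u1 : FN M) ^ (q ^ n) * hh ^ (q ^ (n + 1)) ≠ 0 :=
    mul_ne_zero (pow_ne_zero _ hu0) (pow_ne_zero _ hh0)
  rw [inv_mul_cancel_right₀ hden] at h2
  refine ⟨_, h2, c, rh, hc, hrh.ne_zero, ?_⟩
  rw [mul_one, zpow_natCast, mul_assoc]

end Fermat.Agent.S44.SP
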