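import Fermat.Agent.S44.SP.Res

/-!
# S44 / SP / Count : finitely many stable effective divisors of given degree     key `S44/SP-FIN-COUNT` (helper19)

`g` a semilinear automorphism of `F / k` whose powers have finitely many fixed constants, `g t = t`, `t` not constant.
(1) a place fixed by `h = g ^ N` is a pole of `t` or a zero of `t - c` with `h c = c`: finitely many.
(2) the support of a `g`-stable effective divisor of degree `d` has at most `d` elements, so it consists of places fixed by
`g ^ d!`; its coefficients are `≤ d`.
-/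

set_option autoImplicit false

open AlgebraicCurve WithZero
open Fermat.Agent.S37.RiemannAux

namespace Fermat.Agent.S44.SP

variable {k F : Type*} [Field k] [Field F] [Algebra k F]

theorem count_ord_pos_of_val_lt (x : Place k F) {f : F} (hf : f ≠ 0) (h : x.adicValuation f < 1) :
    0 < x.ord f := by
  rw [val_eq_exp x hf, ← WithZero.exp_zero, WithZero.exp_lt_exp] at h
  omega

theorem count_val_lt_of_ord_pos (x : Place k F) {f : F} (hf : f ≠ 0) (h : 0 < x.ord f) :
    x.adicValuation f < 1 := by
  rw [val_eq_exp x hf, ← WithZero.exp_zero, WithZero.exp_lt_exp]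
  omega

theorem count_val_const (x : Place k F) {c : k} (hc : c ≠ 0) :
    x.adicValuation (algebraMap k F c) = 1 := by
  apply le_antisymm (val_algebraMap_le_one x c)
  have h1 := val_algebraMap_le_one x c⁻¹
  have h2 : x.adicValuation (algebraMap k F c) * x.adicValuation (algebraMap k F c⁻¹) = 1 := by
    rw [← map_mul, ← map_mul, mul_inv_cancel₀ hc, map_one, map_one]
  calc (1 : ℤᵐ⁰) = x.adicValuation (algebraMap k F c) * x.adicValuation (algebraMap k F c⁻¹) :=
        h2.symm
    _ ≤ x.adicValuation (algebraMap k F c) * 1 := by gcongr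
    _ = _ := mul_one _

/-- (1) -/
theorem finite_fixed_places (hres : ResK k F)
    (hsupp : ∀ z : F, z ≠ 0 → {x : Place k F | x.ord z ≠ 0}.Finite)
    (h : SemilinearAut k F) (hh : {c : k | SemilinearAut.baseAut h c = c}.Finite)
    (t : F) (ht : ∀ c : k, t ≠ algebraMap k F c) (hht : h • t = t) :
    {x : Place k F | h • x = x}.Finite := by
  have ht0 : t ≠ 0 := by
    have := ht 0
    rwa [map_zero] at this
  have htc : ∀ c : k, t - algebraMap k F c ≠ 0 := fun c => sub_ne_zero.2 (ht c)
  refine ((hsupp t ht0).union (hh.biUnion fun c _ => hsupp _ (htc c))).subset ?_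
  intro x hx
  rw [Set.mem_ofPred_eq] at hx
  by_cases hmem : t ∈ x.toValuationSubring
  · right
    obtain ⟨c, hc⟩ := hres x t hmem
    have h1 : 0 < x.ord (t - algebraMap k F c) := count_ord_pos_of_val_lt x (htc c) hc
    have h2 : 0 < x.ord (t - algebraMap k F (SemilinearAut.baseAut h c)) := by
      have := SemilinearAut.ord_smul h x (t - algebraMap k F c)
      rw [hx, smul_sub, hht, SemilinearAut.smul_algebraMap] at this
      rw [this]
      exact h1
    have h3 := count_val_lt_of_ord_pos x (htc _) h2
    have hfix : SemilinearAut.baseAut h c = c := by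
      by_contra hne
      have h4 : x.adicValuation (algebraMap k F (SemilinearAut.baseAut h c - c)) < 1 := by
        have : algebraMap k F (SemilinearAut.baseAut h c - c) =
            (t - algebraMap k F c) - (t - algebraMap k F (SemilinearAut.baseAut h c)) := by
          rw [map_sub]; ring
        rw [this]
        exact lt_of_le_of_lt (Valuation.map_sub _ _ _) (max_lt hc h3)
      rw [count_val_const x (sub_ne_zero.2 hne)] at h4
      exact lt_irrefl _ h4
    rw [Set.mem_iUnion₂]
    exact ⟨c, hfix, h1.ne'⟩
  · left
    rw [Set.mem_ofPred_eq]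
    intro h0
    apply hmem
    rw [S24.mem_iff_ord_nonneg, h0]

theorem count_apply_pow_smul (g : SemilinearAut k F) {B : Divisor k F} (hB : g • B = B)
    (x : Place k F) (i : ℕ) : B (g ^ i • x) = B x := by
  induction i with
  | zero => rw [pow_zero, one_smul]
  | succ i ih =>
    rw [pow_succ', mul_smul, ← ih]
    conv_lhs => rw [← hB]
    exact SemilinearAut.divisor_smul_apply_smul g B _

/-- [S44/SP-FIN-COUNT] -/
theorem finite_stable (hres : ResK k F)
    (hsupp : ∀ z : F, z ≠ 0 → {x : Place k F | x.ord z ≠ 0}.Finite)
    (g : SemilinearAut k F)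
    (hg : ∀ N : ℕ, 0 < N → {c : k | SemilinearAut.baseAut (g ^ N) c = c}.Finite)
    (t : F) (ht : ∀ c : k, t ≠ algebraMap k F c) (hgt : g • t = t) (d : ℕ) :
    {B : Divisor k F | (∀ x, 0 ≤ B x) ∧ (B.sum fun _ n => n) = d ∧ g • B = B}.Finite := by
  classical
  have hpow : ∀ N : ℕ, g ^ N • t = t := by
    intro N
    induction N with
    | zero => rw [pow_zero, one_smul]
    | succ N ih => rw [pow_succ, mul_smul, hgt, ih]
  have hT := finite_fixed_places hres hsupp (g ^ d.factorial) (hg _ d.factorial_pos) t ht (hpow _)
  set T := hT.toFinset with hTdef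
  let Bmax : Divisor k F := Finsupp.onFinset T (fun x => if x ∈ T then (d : ℤ) else 0) (by
    intro a ha
    by_contra h
    simp [h] at ha)
  refine (Set.finite_Icc (0 : Divisor k F) Bmax).subset ?_
  rintro B ⟨hB0, hBd, hBg⟩
  have hle : ∀ x, B x ≤ d := by
    intro x
    by_cases hx : x ∈ B.support
    · rw [← hBd]
      exact Finset.single_le_sum (f := fun x => B x) (fun i _ => hB0 i) hx
    · rw [Finsupp.notMem_support_iff.1 hx]
      exact Int.natCast_nonneg d
  have hcard : B.support.card ≤ d := by
    have h1 : ((B.support.card : ℕ) : ℤ) ≤ d := by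
      rw [← hBd, Finsupp.sum, Finset.card_eq_sum_ones, Nat.cast_sum]
      refine Finset.sum_le_sum fun x hx => ?_
      have h2 := hB0 x
      have h3 := Finsupp.mem_support_iff.1 hx
      push_cast
      omega
    exact_mod_cast h1
  have hsub : ∀ x ∈ B.support, x ∈ T := by
    intro x hx
    have hmaps : Set.MapsTo (fun i : ℕ => g ^ i • x) (Finset.range (d + 1)) B.support := by
      intro i _
      rw [Finset.mem_coe, Finsupp.mem_support_iff, count_apply_pow_smul g hBg]
      exact Finsupp.mem_support_iff.1 hx
    obtain ⟨i, hi, j, hj, hij, heq⟩ := Finset.exists_ne_map_eq_of_card_lt_of_maps_to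
      (by rw [Finset.card_range]; omega) hmaps
    have key : ∀ i j : ℕ, i < j → j ≤ d → g ^ i • x = g ^ j • x → g ^ d.factorial • x = x := by
      intro i j hij hj heq
      have h1 : g ^ (j - i) • x = x := by
        have : g ^ j = g ^ i * g ^ (j - i) := by rw [← pow_add]; congr 1; omega
        rw [this, mul_smul] at heq
        exact (smul_left_cancel _ heq).symm
      obtain ⟨c, hc⟩ := Nat.dvd_factorial (show 0 < j - i by omega) (show j - i ≤ d by omega)
      have h2 : g ^ (j - i) ∈ MulAction.stabilizer (SemilinearAut k F) x := h1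
      have h3 := pow_mem h2 c
      rw [← pow_mul, ← hc] at h3
      exact h3
    rw [Finset.mem_range] at hi hj
    rw [hTdef, Set.Finite.mem_toFinset, Set.mem_ofPred_eq]
    rcases Nat.lt_or_gt_of_ne hij with h | h
    · exact key i j h (by omega) heq
    · exact key j i h (by omega) heq.symm
  refine ⟨fun x => hB0 x, fun x => ?_⟩
  show B x ≤ if x ∈ T then (d : ℤ) else 0
  split_ifs with hx
  · exact hle x
  · have : x ∉ B.support := fun h => hx (hsub x h)
    rw [Finsupp.notMem_support_iff.1 this]

end Fermat.Agent.S44.SP
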