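import Mathlib
import Fermat.Agent.S37.Riemann

/-!
# S44 / SP / Res : the residue field of a place is the constant field      key `S44/SP-FIN-RES` (helper19)

`k` algebraically closed (ANY characteristic), `F / k` of transcendence degree `≤ 1`.  Then for every place `x` of `F / k`
and every `f ∈ O_x` there is `c : k` with `v_x (f - c) < 1`.

Proof.  Suppose the residue class of `f` is transcendental over `k`; then `H(f)` is a unit of `O_x` for all `H ≠ 0` in `k[X]`,
`f` is transcendental, so `{f}` is a transcendence basis and a uniformiser `π` is algebraic over `k[f]`: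
`b_0 + b_1 π + ... = 0`, `b_0 ≠ 0` (divide by a power of `π`), so `v_x (b_0) < 1`: contradiction.
-/

set_option autoImplicit false

open AlgebraicCurve Polynomial

namespace Fermat.Agent.S44.SP

/-- the residue fields of all places are `k` -/
def ResK (k F : Type*) [Field k] [Field F] [Algebra k F] : Prop :=
  ∀ (x : Place k F) (f : F), f ∈ x.toValuationSubring →
    ∃ c : k, x.adicValuation (f - algebraMap k F c) < 1

variable {k F : Type*} [Field k] [Field F] [Algebra k F]

theorem isAlgebraic_residueField (htr : Algebra.trdeg k F ≤ 1) (x : Place k F) :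
    Algebra.IsAlgebraic k x.ResidueField := by
  constructor
  intro fb
  obtain ⟨f, rfl⟩ := IsLocalRing.residue_surjective fb
  by_contra htrans
  have key : ∀ H : k[X], x.adicValuation (aeval (f : F) H) < 1 → H = 0 := by
    intro H hH
    by_contra hH0
    apply htrans
    refine ⟨H, hH0, ?_⟩
    have h1 : ((aeval f H : x.toValuationSubring) : F) = aeval (f : F) H :=
      (Polynomial.aeval_algebraMap_apply F f H).symm
    have h2 : aeval f H ∈ IsLocalRing.maximalIdeal x.toValuationSubring := by
      rw [IsLocalRing.mem_maximalIdeal, mem_nonunits_iff]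
      intro hu
      rw [← x.adicValuation_coe_eq_one_iff, h1] at hu
      exact hH.ne hu
    have h3 : aeval (IsLocalRing.residue _ f) H = IsLocalRing.residue _ (aeval f H) :=
      Polynomial.aeval_algebraMap_apply x.ResidueField f H
    rw [h3, IsLocalRing.residue_eq_zero_iff]
    exact h2
  have hf : Transcendental k (f : F) := by
    rintro ⟨G, hG0, hG⟩
    exact hG0 (key G (by rw [hG, map_zero]; exact zero_lt_one))
  have hind : AlgebraicIndependent k (fun _ : Unit => (f : F)) :=
    algebraicIndependent_unique_type_iff.2 hf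
  have hbasis := hind.isTranscendenceBasis_of_lift_trdeg_le_of_finite (by simpa using htr)
  have halg := hbasis.isAlgebraic
  rw [Set.range_const] at halg
  obtain ⟨π, hπ⟩ := IsDiscreteValuationRing.exists_irreducible x.toValuationSubring
  have hπ0 : (π : F) ≠ 0 := by
    intro h
    exact hπ.ne_zero (Subtype.ext h)
  have hπv : x.adicValuation (π : F) < 1 := by
    rw [x.adicValuation_coe_irreducible hπ, ← WithZero.exp_zero, WithZero.exp_lt_exp]
    norm_num
  obtain ⟨G, hG0, hG⟩ := halg.isAlgebraic (π : F)
  obtain ⟨Q, hQ, hnd⟩ := Polynomial.exists_eq_pow_rootMultiplicity_mul_and_not_dvd G hG0 0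
  rw [map_zero, sub_zero] at hQ hnd
  have hQπ : aeval (π : F) Q = 0 := by
    rw [hQ, map_mul, map_pow, aeval_X] at hG
    exact (mul_eq_zero.1 hG).resolve_left (pow_ne_zero _ hπ0)
  have hb0 : Q.coeff 0 ≠ 0 := fun h => hnd (Polynomial.X_dvd_iff.2 h)
  -- elements of `k[f]` are integral at `x`
  have hle : ∀ b : Algebra.adjoin k {(f : F)}, x.adicValuation (b : F) ≤ 1 := by
    intro b
    rw [S37.RiemannAux.val_le_one_iff]
    have : Algebra.adjoin k {(f : F)} ≤
        ({ x.toValuationSubring.toSubring with algebraMap_mem' := x.algebraMap_mem' } :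
          Subalgebra k F) := by
      apply Algebra.adjoin_le
      rintro _ rfl
      exact f.2
    exact this b.2
  have hbv : x.adicValuation ((Q.coeff 0 : Algebra.adjoin k {(f : F)}) : F) < 1 := by
    rw [Polynomial.aeval_eq_sum_range, Finset.sum_range_succ', pow_zero] at hQπ
    have h1 : ((Q.coeff 0 : Algebra.adjoin k {(f : F)}) : F) =
        - ∑ i ∈ Finset.range Q.natDegree, Q.coeff (i + 1) • (π : F) ^ (i + 1) := by
      rw [eq_neg_iff_add_eq_zero, add_comm, ← hQπ, Algebra.smul_def, mul_one]
      rfl
    rw [h1, Valuation.map_neg]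
    refine Valuation.map_sum_lt _ one_ne_zero fun i _ => ?_
    rw [Algebra.smul_def, map_mul, map_pow]
    calc _ ≤ 1 * x.adicValuation (π : F) ^ (i + 1) := by
          gcongr
          exact hle _
      _ = x.adicValuation (π : F) ^ (i + 1) := one_mul _
      _ < 1 := pow_lt_one₀ zero_le hπv (by omega)
  obtain ⟨H, hH⟩ : ∃ H : k[X], aeval (f : F) H = ((Q.coeff 0 : Algebra.adjoin k {(f : F)}) : F) := by
    have h1 : ∀ z : F, z ∈ Algebra.adjoin k {(f : F)} → ∃ H : k[X], aeval (f : F) H = z := by
      intro z hz
      rw [Algebra.adjoin_singleton_eq_range_aeval] at hz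
      exact hz
    exact h1 _ (Q.coeff 0).2
  have hH0 := key H (by rw [hH]; exact hbv)
  rw [hH0, map_zero] at hH
  exact hb0 (Subtype.ext hH.symm)

/-- [S44/SP-FIN-RES] -/
theorem resK_of_trdeg_le [IsAlgClosed k] (htr : Algebra.trdeg k F ≤ 1) : ResK k F := by
  intro x f hf
  have := isAlgebraic_residueField htr x
  have hbij : Function.Bijective (algebraMap k x.ResidueField) :=
    IsAlgClosed.algebraMap_bijective_of_isIntegral
  obtain ⟨a, ha⟩ := hbij.2 (IsLocalRing.residue _ ⟨f, hf⟩)
  refine ⟨a, ?_⟩
  have hmem : (⟨f, hf⟩ - algebraMap k x.toValuationSubring a : x.toValuationSubring) ∈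
      IsLocalRing.maximalIdeal x.toValuationSubring := by
    rw [← IsLocalRing.residue_eq_zero_iff, map_sub, ← ha, sub_eq_zero]
    rfl
  exact S37.RiemannAux.val_lt_one_of_mem x _ hmem

/-- [S44/SP-FIN-RES] -/
theorem resK_of_isAlgebraic [IsAlgClosed k] (t : F)
    (h : Algebra.IsAlgebraic (Algebra.adjoin k {t}) F) : ResK k F := by
  apply resK_of_trdeg_le
  have := Algebra.IsAlgebraic.trdeg_le_cardinalMk k ({t} : Set F)
  simpa using this

end Fermat.Agent.S44.SP
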