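import Fermat.Agent.S44.SP.Map
import Fermat.Agent.S44.SP.Res

/-!
# S44 / SP-FIN : definitions + degree lemmas (helper18)

* `dg` : the sum of the coefficients of a divisor on `Ft`;
* `SpD.exists_div` : every `z ≠ 0` of `Ft` has a divisor, of the form `r_* div y` with `red y = z`, of degree `0`;
* `FrobD` : the Frobenius data.
-/

set_option autoImplicit false

open AlgebraicCurve Fermat.Agent.S37

noncomputable section

namespace Fermat.Agent.S44.SP

variable {K F k Ft : Type*} [Field K] [Field F] [Algebra K F] [Field k] [Field Ft] [Algebra k Ft]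

/-- sum of the coefficients -/
def dg {X : Type*} : (X →₀ ℤ) →+ ℤ := Finsupp.liftAddHom fun _ => AddMonoidHom.id ℤ

theorem dg_apply {X : Type*} (B : X →₀ ℤ) : dg B = B.sum fun _ n => n := rfl

theorem dg_single {X : Type*} (x : X) (n : ℤ) : dg (Finsupp.single x n) = n := by
  simp [dg]

theorem dg_mapDomain {X Y : Type*} (f : X → Y) (B : X →₀ ℤ) : dg (Finsupp.mapDomain f B) = dg B := by
  classical
  induction B using Finsupp.induction_linear with
  | zero => simp
  | add a b ha hb => rw [Finsupp.mapDomain_add, map_add, map_add, ha, hb]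
  | single x n => rw [Finsupp.mapDomain_single, dg_single, dg_single]

theorem dg_nonneg {X : Type*} (B : X →₀ ℤ) (hB : ∀ x, 0 ≤ B x) : 0 ≤ dg B := by
  rw [dg_apply, Finsupp.sum]
  exact Finset.sum_nonneg fun x _ => hB x

theorem le_dg {X : Type*} (B : X →₀ ℤ) (hB : ∀ x, 0 ≤ B x) (x : X) : B x ≤ dg B := by
  classical
  rw [dg_apply, Finsupp.sum]
  by_cases hx : x ∈ B.support
  · exact Finset.single_le_sum (f := fun x => B x) (fun y _ => hB y) hx
  · rw [Finsupp.notMem_support_iff.mp hx]
    exact Finset.sum_nonneg fun y _ => hB y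

theorem mapDomain_nonneg {X Y : Type*} (f : X → Y) (B : X →₀ ℤ) (hB : ∀ x, 0 ≤ B x) (y : Y) :
    0 ≤ Finsupp.mapDomain f B y := by
  classical
  rw [Finsupp.mapDomain, Finsupp.sum_apply, Finsupp.sum]
  refine Finset.sum_nonneg fun x _ => ?_
  rw [Finsupp.single_apply]
  split_ifs
  · exact hB x
  · exact le_rfl

variable {O : Subring F} {red : O →+* Ft} {r : Place K F → Place k Ft}
variable [IsAlgClosed K] [CharZero K]

theorem dg_eq_degree (hff : IsFF K F) (D : Divisor K F) : dg D = Divisor.degree D := by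
  rw [hff.degree_eq_sum, dg_apply]

/-- the divisor of an element of `Ft` -/
theorem SpD.exists_div (h : SpD O red r) (z : Ft) (hz : z ≠ 0) :
    ∃ (y : O) (D : Divisor K F), red y = z ∧ (∀ P, D P = P.ord (y : F)) ∧
      (∀ x, Finsupp.mapDomain r D x = x.ord z) ∧ dg (Finsupp.mapDomain r D) = 0 := by
  obtain ⟨y, rfl⟩ := h.surj z
  obtain ⟨D, hD, hD0⟩ := h.ff.hasPrincipalDivisors.exists_divisor (y : F) (ne_zero_of_red_ne_zero hz)
  exact ⟨y, D, rfl, hD, h.RED y hz D hD, by rw [dg_mapDomain, dg_eq_degree h.ff, hD0]⟩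

/-- the Frobenius data: `γ` a semilinear automorphism of `F` inducing the `q`-Frobenius `γb` on `Ft` -/
structure FrobD (O : Subring F) (red : O →+* Ft) (γ : SemilinearAut K F) (γb : SemilinearAut k Ft)
    (q : ℕ) (t : Ft) (oo : Place K F) : Prop where
  compat : Compat O red γ γb
  hq : 2 ≤ q
  base : ∀ c : k, SemilinearAut.baseAut γb c = c ^ q
  t_fix : γb • t = t
  t_tr : ∀ c : k, t ≠ algebraMap k Ft c
  oo_fix : γ • oo = oo
  resk : ResK k Ft
  CONST : ∀ z : Ft, z ≠ 0 → (∀ x : Place k Ft, x.ord z = 0) → ∃ c : k, z = algebraMap k Ft c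

end Fermat.Agent.S44.SP
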