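import Fermat.Agent.S44.SP.Res

/-!
# S44 / SP / LB : `L(B)` is finite dimensional      key `S44/SP-FIN-LB` (helper19)

Any constant field `k`, `F / k` with residue fields `k` (`ResK`) and "no nonconstant function without poles" (`hconst`).
`LL B = S37.RiemannAux.LL B = {g | ∀ x, v_x g ≤ exp (B x)}`.
`L(0) ≤ k`, `L` is monotone, `dim L(E) ≤ dim L(E - x) + 1` (copy of `S37.RiemannAux.exists_sub_smul_mem`).
-/

set_option autoImplicit false

open AlgebraicCurve WithZero
open Fermat.Agent.S37.RiemannAux

namespace Fermat.Agent.S44.SP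

variable {k F : Type*} [Field k] [Field F] [Algebra k F]

theorem LL_mono {B B' : Divisor k F} (h : ∀ x, B x ≤ B' x) : LL B ≤ LL B' :=
  fun _ hg x => (hg x).trans (WithZero.exp_le_exp.2 (h x))

theorem lb_exists_sub_smul_mem (h : ResK k F) (E : Divisor k F) (v : Place k F) {g₁ g₂ : F}
    (h1 : g₁ ∈ LL E) (h2 : g₂ ∈ LL E) (h2' : g₂ ∉ LL (E - Finsupp.single v 1)) :
    ∃ a : k, g₁ - a • g₂ ∈ LL (E - Finsupp.single v 1) := by
  classical
  have hv2 : v.adicValuation g₂ = exp (E v) := by
    by_contra hne
    apply h2'
    intro w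
    by_cases hw : w = v
    · subst hw
      rw [sub_single_apply_self]
      exact le_exp_pred (lt_of_le_of_ne (h2 w) hne)
    · rw [sub_single_apply_of_ne E hw]; exact h2 w
  have hg2 : g₂ ≠ 0 := by
    rintro rfl
    rw [map_zero] at hv2
    exact WithZero.exp_ne_zero hv2.symm
  have hq : g₁ / g₂ ∈ v.toValuationSubring := by
    rw [← val_le_one_iff, map_div₀, hv2]
    exact div_le_one_of_le₀ (h1 v) zero_le
  obtain ⟨a, hlt⟩ := h v _ hq
  refine ⟨a, ?_⟩
  have hsub : g₁ - a • g₂ ∈ LL E := sub_mem h1 (Submodule.smul_mem _ _ h2)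
  intro w
  by_cases hw : w = v
  · subst hw
    have h3 : g₁ - a • g₂ = (g₁ / g₂ - algebraMap k F a) * g₂ := by
      rw [Algebra.smul_def]; field_simp
    have h4 : w.adicValuation (g₁ - a • g₂) < exp (E w) := by
      rw [h3, map_mul, hv2]
      calc _ < 1 * exp (E w) := by
            apply mul_lt_mul_of_pos_right hlt
            exact WithZero.exp_pos
        _ = _ := one_mul _
    rw [sub_single_apply_self]
    exact le_exp_pred h4
  · rw [sub_single_apply_of_ne E hw]; exact hsub w

theorem lb_step (h : ResK k F) (E : Divisor k F) (v : Place k F)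
    (hfin : FiniteDimensional k (LL (E - Finsupp.single v 1))) : FiniteDimensional k (LL E) := by
  by_cases hle : LL E ≤ LL (E - Finsupp.single v 1)
  · exact Submodule.finiteDimensional_of_le hle
  obtain ⟨g₂, hg2, hg2'⟩ := SetLike.not_le_iff_exists.1 hle
  have h1 : LL E ≤ LL (E - Finsupp.single v 1) ⊔ Submodule.span k {g₂} := by
    intro g₁ hg1
    obtain ⟨a, ha⟩ := lb_exists_sub_smul_mem h E v hg1 hg2 hg2'
    have : g₁ = (g₁ - a • g₂) + a • g₂ := by abel
    rw [this]
    exact Submodule.add_mem_sup ha
      (Submodule.smul_mem _ _ (Submodule.mem_span_singleton_self _))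
  exact Submodule.finiteDimensional_of_le h1

theorem finite_LL_zero
    (hconst : ∀ z : F, z ≠ 0 → (∀ x : Place k F, 0 ≤ x.ord z) → ∃ c : k, z = algebraMap k F c) :
    FiniteDimensional k (LL (0 : Divisor k F)) := by
  have : LL (0 : Divisor k F) ≤ Submodule.span k {(1 : F)} := by
    intro z hz
    by_cases hz0 : z = 0
    · rw [hz0]; exact zero_mem _
    · obtain ⟨c, rfl⟩ := hconst z hz0 (fun x => by
        have := (mem_LL_iff hz0).1 hz x
        simpa using this)
      rw [Algebra.algebraMap_eq_smul_one]
      exact Submodule.smul_mem _ _ (Submodule.mem_span_singleton_self _)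
  exact Submodule.finiteDimensional_of_le this

/-- [S44/SP-FIN-LB] -/
theorem finite_LL (hres : ResK k F)
    (hconst : ∀ z : F, z ≠ 0 → (∀ x : Place k F, 0 ≤ x.ord z) → ∃ c : k, z = algebraMap k F c)
    (B : Divisor k F) : FiniteDimensional k (LL B) := by
  classical
  induction B using Finsupp.induction with
  | zero => exact finite_LL_zero hconst
  | single_add a b f _ _ ih =>
    have h1 : ∀ n : ℕ, FiniteDimensional k (LL (Finsupp.single a (n : ℤ) + f)) := by
      intro n
      induction n with
      | zero =>
        rw [Nat.cast_zero, Finsupp.single_zero, zero_add]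
        exact ih
      | succ n ihn =>
        apply lb_step hres _ a
        have : Finsupp.single a (((n + 1 : ℕ) : ℤ)) + f - Finsupp.single a 1 =
            Finsupp.single a (n : ℤ) + f := by
          rw [Nat.cast_succ, Finsupp.single_add]; abel
        rw [this]
        exact ihn
    have h2 : LL (Finsupp.single a b + f) ≤ LL (Finsupp.single a ((b.toNat : ℕ) : ℤ) + f) := by
      apply LL_mono
      intro x
      rw [Finsupp.add_apply, Finsupp.add_apply]
      by_cases hx : a = x
      · subst hx
        rw [Finsupp.single_eq_same, Finsupp.single_eq_same]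
        have := Int.self_le_toNat b
        omega
      · rw [Finsupp.single_apply, Finsupp.single_apply, if_neg hx, if_neg hx]
    have := h1 b.toNat
    exact Submodule.finiteDimensional_of_le h2

end Fermat.Agent.S44.SP
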