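import Mathlib

/-!
# S44 / SP / Lang : Lang's lemma for one semilinear map      key `S44/SP-LANG` (helper19), Mathlib only

`k` algebraically closed, `L ≠ 0` a finite dimensional `k`-vector space, `Φ : L → L` additive,
injective and `q`-semilinear (`Φ (c v) = c ^ q Φ v`, `q ≥ 2`).  Then `Φ` has a nonzero fixed vector.

Proof: cyclic vector.  Take `v ≠ 0`, `n` least with `Φ^n v = ∑_{i<n} a_i Φ^i v`.  A vector
`w = ∑ x_i Φ^i v` is fixed iff `x_0 = a_0 y^q`, `x_i = x_{i-1}^q + a_i y^q`, `x_{n-1} = y`: one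
polynomial equation `P(y) = y`, `P = X^2 Q`, `Q ≠ 0`; take a root of `X Q - 1`.
-/

set_option autoImplicit false

namespace Fermat.Agent.S44.SP

open Polynomial

section poly

variable {k : Type*} [Field k]

/-- the polynomials of the recursion -/
noncomputable def langP (q : ℕ) (a : ℕ → k) : ℕ → k[X]
  | 0 => C (a 0) * X ^ q
  | (i + 1) => (langP q a i) ^ q + C (a (i + 1)) * X ^ q

theorem langP_dvd (q : ℕ) (hq : 2 ≤ q) (a : ℕ → k) (i : ℕ) :
    (X : k[X]) ^ 2 ∣ langP q a i := by
  induction i with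
  | zero => exact Dvd.dvd.mul_left (pow_dvd_pow X hq) _
  | succ i ih =>
    exact dvd_add (ih.trans (dvd_pow_self _ (by omega))) (Dvd.dvd.mul_left (pow_dvd_pow X hq) _)

theorem langP_deg (q : ℕ) (hq : 2 ≤ q) (a : ℕ → k) (i : ℕ) :
    (langP q a i = 0 ∧ ∀ j ≤ i, a j = 0) ∨ q ≤ (langP q a i).natDegree := by
  induction i with
  | zero =>
    by_cases h : a 0 = 0
    · left
      refine ⟨by simp [langP, h], fun j hj => ?_⟩
      obtain rfl : j = 0 := by omega
      exact h
    · right
      simp only [langP]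
      rw [natDegree_C_mul_X_pow _ _ h]
  | succ i ih =>
    rcases ih with ⟨h0, hj⟩ | hdeg
    · by_cases h : a (i + 1) = 0
      · left
        refine ⟨?_, fun j hj' => ?_⟩
        · simp only [langP]
          rw [h0, h, zero_pow (by omega), map_zero, zero_mul, add_zero]
        · rcases Nat.lt_or_ge j (i + 1) with h1 | h1
          · exact hj j (by omega)
          · obtain rfl : j = i + 1 := by omega
            exact h
      · right
        simp only [langP]
        rw [h0, zero_pow (by omega), zero_add, natDegree_C_mul_X_pow _ _ h]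
    · right
      have h1 : ((langP q a i) ^ q).natDegree = q * (langP q a i).natDegree := natDegree_pow _ _
      have h2 : (C (a (i + 1)) * X ^ q : k[X]).natDegree ≤ q := natDegree_C_mul_X_pow_le _ _
      have h3 : q < q * (langP q a i).natDegree := by nlinarith
      simp only [langP]
      rw [natDegree_add_eq_left_of_natDegree_lt (by omega)]
      omega

/-- a nonzero solution of `P_m(y) = y` -/
theorem langP_root [IsAlgClosed k] (q : ℕ) (hq : 2 ≤ q) (a : ℕ → k) (m : ℕ)
    (ha : ∃ j ≤ m, a j ≠ 0) : ∃ y : k, y ≠ 0 ∧ (langP q a m).eval y = y := by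
  obtain ⟨Q, hQ⟩ := langP_dvd q hq a m
  have hP : langP q a m ≠ 0 := by
    rcases langP_deg q hq a m with ⟨_, h⟩ | h
    · obtain ⟨j, hj, hj0⟩ := ha
      exact absurd (h j hj) hj0
    · intro h0
      rw [h0, natDegree_zero] at h
      omega
  have hQ0 : Q ≠ 0 := by
    rintro rfl
    exact hP (by rw [hQ, mul_zero])
  have hdeg : (X * Q - 1 : k[X]).degree ≠ 0 := by
    intro h
    obtain ⟨c, hc⟩ : ∃ c : k, (X * Q - 1 : k[X]) = C c := ⟨_, eq_C_of_degree_eq_zero h⟩
    have h1 : (X * Q : k[X]) = C (c + 1) := by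
      rw [map_add, ← hc, map_one]; ring
    have h2 : c + 1 = 0 := by
      have := congrArg (Polynomial.eval 0) h1
      simpa using this.symm
    rw [h2, map_zero] at h1
    rcases mul_eq_zero.1 h1 with h3 | h3
    · exact X_ne_zero h3
    · exact hQ0 h3
  obtain ⟨y, hy⟩ := IsAlgClosed.exists_root _ hdeg
  have hy' : y * Q.eval y = 1 := by
    have : (X * Q - 1 : k[X]).eval y = 0 := hy
    simp only [eval_sub, eval_mul, eval_X, eval_one] at this
    exact sub_eq_zero.1 this
  refine ⟨y, ?_, ?_⟩
  · rintro rfl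
    rw [zero_mul] at hy'
    exact zero_ne_one hy'
  · rw [hQ, eval_mul, eval_pow, eval_X, pow_two, mul_assoc, hy', mul_one]

end poly

variable {k L : Type*} [Field k] [IsAlgClosed k] [AddCommGroup L] [Module k L]
  [FiniteDimensional k L] [Nontrivial L]

/-- [S44/SP-LANG], general form -/
theorem exists_fixed_of_semilinear (q : ℕ) (hq : 2 ≤ q) (Φ : L →+ L)
    (hΦ : ∀ (c : k) (v : L), Φ (c • v) = c ^ q • Φ v) (hinj : Function.Injective Φ) :
    ∃ v : L, v ≠ 0 ∧ Φ v = v := by
  obtain ⟨v0, hv0⟩ := exists_ne (0 : L)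
  set v : ℕ → L := fun i => Φ^[i] v0 with hvdef
  have hvs : ∀ i, v (i + 1) = Φ (v i) := fun i => Function.iterate_succ_apply' _ _ _
  have hvne : ∀ i, v i ≠ 0 := by
    intro i
    induction i with
    | zero => exact hv0
    | succ i ih => rw [hvs]; exact (map_ne_zero_iff Φ hinj).2 ih
  have hex : ∃ n, ¬ LinearIndependent k (fun i : Fin (n + 1) => v i) := by
    refine ⟨Module.finrank k L, fun h => ?_⟩
    have := h.fintype_card_le_finrank
    rw [Fintype.card_fin] at this
    omega
  classical
  set n := Nat.find hex with hn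
  have hn1 : ¬ LinearIndependent k (fun i : Fin (n + 1) => v i) := Nat.find_spec hex
  have hn0 : LinearIndependent k (fun i : Fin n => v i) := by
    rcases Nat.eq_zero_or_pos n with h | h
    · rw [h]; exact linearIndependent_empty_type
    · obtain ⟨m, hm⟩ : ∃ m, n = m + 1 := ⟨n - 1, by omega⟩
      have := Nat.find_min hex (m := m) (by omega)
      rw [not_not] at this
      rw [hm]; exact this
  have hmem : v n ∈ Submodule.span k (Set.range (fun i : Fin n => v i)) := by
    by_contra hcon
    apply hn1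
    rw [linearIndependent_finSucc']
    exact ⟨hn0, hcon⟩
  obtain ⟨a, ha⟩ := (Submodule.mem_span_range_iff_exists_fun k).1 hmem
  set a' : ℕ → k := fun i => if h : i < n then a ⟨i, h⟩ else 0 with ha'
  have hsum : ∑ i ∈ Finset.range n, a' i • v i = v n := by
    rw [← Fin.sum_univ_eq_sum_range (fun i => a' i • v i) n, ← ha]
    refine Finset.sum_congr rfl fun i _ => ?_
    simp [ha', i.2]
  obtain ⟨m, hm⟩ : ∃ m, n = m + 1 := by
    rcases Nat.eq_zero_or_pos n with h | h
    · exfalso
      rw [h] at hsum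
      exact hvne 0 (by simpa using hsum.symm)
    · exact ⟨n - 1, by omega⟩
  have hane : ∃ j ≤ m, a' j ≠ 0 := by
    by_contra hcon
    push Not at hcon
    apply hvne n
    rw [← hsum]
    refine Finset.sum_eq_zero fun i hi => ?_
    rw [hcon i (by rw [Finset.mem_range] at hi; omega), zero_smul]
  obtain ⟨y, hy0, hy⟩ := langP_root q hq a' m hane
  set x : ℕ → k := fun i => (langP q a' i).eval y with hx
  have hx0 : x 0 = a' 0 * y ^ q := by simp [hx, langP]
  have hxs : ∀ i, x (i + 1) = (x i) ^ q + a' (i + 1) * y ^ q := by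
    intro i; simp [hx, langP]
  have hxm : x m = y := hy
  refine ⟨∑ i ∈ Finset.range n, x i • v i, ?_, ?_⟩
  · intro h0
    rw [← Fin.sum_univ_eq_sum_range (fun i => x i • v i) n] at h0
    have := Fintype.linearIndependent_iff.1 hn0 (fun i => x i) h0 ⟨m, by omega⟩
    exact hy0 (hxm ▸ this)
  · rw [map_sum]
    have e1 : ∀ i ∈ Finset.range n, Φ (x i • v i) = (x i) ^ q • v (i + 1) := by
      intro i _; rw [hΦ, hvs]
    rw [Finset.sum_congr rfl e1]
    rw [hm] at hsum ⊢
    rw [Finset.sum_range_succ, ← hsum, hxm, Finset.sum_range_succ' (fun i => x i • v i),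
      Finset.sum_range_succ' (fun i => a' i • v i), smul_add, Finset.smul_sum, ← add_assoc,
      ← Finset.sum_add_distrib, hx0]
    congr 1
    · refine Finset.sum_congr rfl fun i _ => ?_
      rw [hxs, add_smul, smul_smul, mul_comm]
    · rw [smul_smul, mul_comm]

/-- [S44/SP-LANG] -/
theorem exists_fixed (p f : ℕ) [Fact p.Prime] [CharP k p] (hf : 0 < f) (Φ : L →+ L)
    (hΦ : ∀ (c : k) (v : L), Φ (c • v) = c ^ (p ^ f) • Φ v) (hinj : Function.Injective Φ) :
    ∃ v : L, v ≠ 0 ∧ Φ v = v := by
  refine exists_fixed_of_semilinear (p ^ f) ?_ Φ hΦ hinj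
  calc 2 ≤ p := (Fact.out : p.Prime).two_le
    _ = p ^ 1 := (pow_one p).symm
    _ ≤ p ^ f := Nat.pow_le_pow_right (Fact.out : p.Prime).pos hf

end Fermat.Agent.S44.SP
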