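import Fermat.Agent.S44.SP.FinDefs
import Fermat.Agent.S44.SP.LB
import Fermat.Agent.S44.SP.Count
import Fermat.Agent.S44.SP.Lang

/-!
# S44 / SP-FIN-MAIN : `Fix(hb)` is finite  (helper18)

`y = sp c`, `c = [D]`.  `n₀ ≥ γ₀` (Riemann).  `E := D + n₀ oo + div g ≥ 0`, `B := r_* E ≥ 0`, `dg B = n₀`.
`hb y = y` ⟹ (`sp_eq_iff`) `r_* (γ D) = r_* D + r_* E₁`, `E₁` principal ⟹ `γb • B = B + r_* E₂`, `E₂ = E₁ + γ div g - div g = div f₂`;
`w := red (c f₂)`.  `Φ z := γb z * w` maps `LL B` to itself, is `q`-semilinear and injective; `SP.exists_fixed_of_semilinear` gives `v ≠ 0` with `Φ v = v`.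
`B' := B + div v ≥ 0` is `γb`-stable, `dg B' = n₀`, and `B' = r_* E'` with `[E' - n₀ oo] = c`.
`y` is determined by `B'` (`sp_eq_iff`).  The set of such `B'` is finite (`finite_stable`, helper19).
-/

set_option autoImplicit false

open AlgebraicCurve Fermat.Agent.S37 Fermat.Agent.S37.RiemannAux

noncomputable section

namespace Fermat.Agent.S44.SP

variable {K F k Ft : Type*} [Field K] [Field F] [Algebra K F] [Field k] [Field Ft] [Algebra k Ft]
variable {O : Subring F} {red : O →+* Ft} {r : Place K F → Place k Ft}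

/-- the fixed points of a power of the `q`-Frobenius are finite -/
theorem finite_baseAut_fixed {γb : SemilinearAut k Ft} {q : ℕ} (hq : 2 ≤ q)
    (base : ∀ c : k, SemilinearAut.baseAut γb c = c ^ q) (N : ℕ) (hN : 0 < N) :
    {c : k | SemilinearAut.baseAut (γb ^ N) c = c}.Finite := by
  classical
  have hpow : ∀ (n : ℕ) (c : k), SemilinearAut.baseAut (γb ^ n) c = c ^ (q ^ n) := by
    intro n
    induction n with
    | zero => intro c; simp
    | succ n ih =>
      intro c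
      rw [pow_succ, SemilinearAut.baseAut_mul, RingAut.mul_apply, base, ih, ← pow_mul, pow_succ,
        mul_comm]
  have hne : (Polynomial.X ^ q ^ N - Polynomial.X : Polynomial k) ≠ 0 :=
    FiniteField.X_pow_card_pow_sub_X_ne_zero k hN.ne' (by omega)
  refine ((Polynomial.X ^ q ^ N - Polynomial.X : Polynomial k).roots.toFinset.finite_toSet).subset ?_
  intro c hc
  rw [Set.mem_ofPred_eq, hpow] at hc
  rw [Finset.mem_coe, Multiset.mem_toFinset, Polynomial.mem_roots hne]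
  simp [Polynomial.IsRoot, hc]

theorem ord_smul' (γb : SemilinearAut k Ft) (x : Place k Ft) (z : Ft) :
    x.ord (γb • z) = (γb⁻¹ • x).ord z := by
  have := SemilinearAut.ord_smul γb (γb⁻¹ • x) z
  rwa [smul_inv_smul] at this

/-- the semilinear map `z ↦ γb z * w` on `L(B)` -/
theorem smul_mul_mem_LL {γb : SemilinearAut k Ft} {B : Divisor k Ft} {w : Ft} (hw : w ≠ 0)
    (hBw : ∀ x, (γb • B) x = B x + x.ord w) {z : Ft} (hz : z ∈ LL B) : γb • z * w ∈ LL B := by
  by_cases hz0 : z = 0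
  · rw [hz0, smul_zero, zero_mul]; exact zero_mem _
  have hz1 : γb • z ≠ 0 := by simpa using hz0
  rw [mem_LL_iff (mul_ne_zero hz1 hw)]
  rw [mem_LL_iff hz0] at hz
  intro x
  have h1 := hz (γb⁻¹ • x)
  have h2 := hBw x
  rw [SemilinearAut.divisor_smul_apply] at h2
  rw [x.ord_mul hz1 hw, ord_smul']
  omega

variable [IsAlgClosed K] [CharZero K]

theorem SpD.finite_supp (h : SpD O red r) (z : Ft) (hz : z ≠ 0) :
    {x : Place k Ft | x.ord z ≠ 0}.Finite := by
  obtain ⟨y, D, -, -, hD, -⟩ := h.exists_div z hz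
  refine (Finsupp.mapDomain r D).support.finite_toSet.subset ?_
  intro x hx
  rw [Finset.mem_coe, Finsupp.mem_support_iff, hD]
  exact hx

theorem SpD.const_of_nonneg (h : SpD O red r)
    (hC : ∀ z : Ft, z ≠ 0 → (∀ x : Place k Ft, x.ord z = 0) → ∃ c : k, z = algebraMap k Ft c)
    (z : Ft) (hz : z ≠ 0) (h0 : ∀ x : Place k Ft, 0 ≤ x.ord z) : ∃ c : k, z = algebraMap k Ft c := by
  obtain ⟨y, D, -, -, hD, hdg⟩ := h.exists_div z hz
  refine hC z hz fun x => ?_
  have h1 : ∀ x, 0 ≤ Finsupp.mapDomain r D x := fun x => by rw [hD]; exact h0 x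
  have h2 := le_dg _ h1 x
  rw [hdg, hD] at h2
  exact le_antisymm h2 (h0 x)

/-- the key step: a fixed class is represented by a stable effective divisor -/
theorem SpD.exists_stable [IsAlgClosed k] (h : SpD O red r) {γ : SemilinearAut K F}
    {γb : SemilinearAut k Ft} {q : ℕ} {t : Ft} {oo : Place K F} (hF : FrobD O red γ γb q t oo)
    (n₀ : ℕ) (hn₀ : ∀ D : Divisor K F, (n₀ : ℤ) ≤ Divisor.degree D →
      ∃ g : F, g ≠ 0 ∧ ∀ v : Place K F, 0 ≤ D v + v.ord g)
    (y : YY r) (hy : hb (h.eqv hF.compat) y = y) :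
    ∃ (D' : Divisor.degZero (K := K) (F := F)), sp r (Pic0.mk D') = y ∧
      (∀ x, 0 ≤ Finsupp.mapDomain r ((D' : Divisor K F) + Finsupp.single oo (n₀ : ℤ)) x) ∧
      γb • Finsupp.mapDomain r ((D' : Divisor K F) + Finsupp.single oo (n₀ : ℤ)) =
        Finsupp.mapDomain r ((D' : Divisor K F) + Finsupp.single oo (n₀ : ℤ)) := by
  classical
  have he := h.eqv hF.compat
  obtain ⟨c, rfl⟩ := sp_surjective (r := r) y
  obtain ⟨D, rfl⟩ := Pic0.mk_surjective c
  have hdegD : Divisor.degree (D : Divisor K F) = 0 := D.2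
  set D₁ : Divisor K F := (D : Divisor K F) + Finsupp.single oo (n₀ : ℤ) with hD₁
  have hdeg1 : Divisor.degree D₁ = n₀ := by
    rw [hD₁, map_add, hdegD, Divisor.degree_single, h.ff.deg_eq_one]
    simp
  obtain ⟨g, hg0, hg⟩ := hn₀ D₁ hdeg1.ge
  obtain ⟨Dg, hDg, hDg0⟩ := h.ff.hasPrincipalDivisors.exists_divisor g hg0
  have hDgp : Dg ∈ Divisor.principal (K := K) (F := F) := ⟨g, hg0, hDg⟩
  set E : Divisor K F := D₁ + Dg with hE
  have hE0 : ∀ v, 0 ≤ E v := fun v => by rw [hE, Finsupp.add_apply, hDg]; exact hg v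
  set B : Divisor k Ft := Finsupp.mapDomain r E with hB
  have hB0 : ∀ x, 0 ≤ B x := mapDomain_nonneg r E hE0
  -- the fixed point equation
  have hy' : sp r (Pic0.mk (SemilinearAut.degZeroSMulHom γ D)) = sp r (Pic0.mk D) := hy
  obtain ⟨E₁, hE₁, hE₁'⟩ := (sp_eq_iff h.ff _ _).mp hy'
  rw [SemilinearAut.coe_degZeroSMulHom] at hE₁'
  set E₂ : Divisor K F := E₁ + γ • Dg - Dg with hE₂
  have hE₂p : E₂ ∈ Divisor.principal (K := K) (F := F) :=
    sub_mem (add_mem hE₁ (SemilinearAut.smul_mem_principal γ hDgp)) hDgp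
  have hγB : γb • B = B + Finsupp.mapDomain r E₂ := by
    rw [hB, ← mapDomain_smul he, hE, hD₁, smul_add, smul_add, SemilinearAut.smul_single, hF.oo_fix,
      Finsupp.mapDomain_add, Finsupp.mapDomain_add, hE₁', hE₂]
    have e1 := map_sub (Finsupp.mapDomain.addMonoidHom r) (E₁ + γ • Dg) Dg
    simp only [Finsupp.mapDomain.addMonoidHom_apply] at e1
    rw [e1, Finsupp.mapDomain_add, Finsupp.mapDomain_add, Finsupp.mapDomain_add]
    abel
  obtain ⟨f₂, hf₂, hE₂f⟩ := hE₂p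
  obtain ⟨c₂, hc₂, y₂, hy₂, hy₂0⟩ := h.scale f₂ hf₂
  set w : Ft := red y₂ with hw
  have hE₂w : ∀ x, Finsupp.mapDomain r E₂ x = x.ord w :=
    h.RED y₂ hy₂0 E₂ (fun P => by rw [hE₂f P, hy₂, ord_const_mul P hc₂ hf₂])
  have hBw : ∀ x, (γb • B) x = B x + x.ord w := fun x => by
    rw [hγB, Finsupp.add_apply, hE₂w]
  -- Lang
  have : FiniteDimensional k (LL B) := finite_LL hF.resk (h.const_of_nonneg hF.CONST) B
  have h1mem : (1 : Ft) ∈ LL B := by
    rw [mem_LL_iff one_ne_zero]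
    intro x
    rw [Place.ord_one, add_zero]
    exact hB0 x
  have : Nontrivial (LL B) := ⟨⟨⟨1, h1mem⟩, 0, fun h0 => one_ne_zero (congrArg Subtype.val h0)⟩⟩
  let Φ : LL B →+ LL B :=
    { toFun := fun z => ⟨γb • (z : Ft) * w, smul_mul_mem_LL hy₂0 hBw z.2⟩
      map_zero' := Subtype.ext (by simp)
      map_add' := fun a b => Subtype.ext (by
        show γb • ((a : Ft) + (b : Ft)) * w = γb • (a : Ft) * w + γb • (b : Ft) * w
        rw [smul_add, add_mul]) }
  have hΦ : ∀ (c : k) (v : LL B), Φ (c • v) = c ^ q • Φ v := by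
    intro c v
    apply Subtype.ext
    show γb • (c • (v : Ft)) * w = c ^ q • (γb • (v : Ft) * w)
    rw [Algebra.smul_def, smul_mul', SemilinearAut.smul_algebraMap, hF.base, Algebra.smul_def,
      mul_assoc]
  have hinj : Function.Injective Φ := by
    intro a b hab
    have h1 : γb • (a : Ft) * w = γb • (b : Ft) * w := congrArg Subtype.val hab
    have h2 := mul_right_cancel₀ hy₂0 h1
    exact Subtype.ext (MulAction.injective γb h2)
  obtain ⟨v, hv0, hv⟩ := exists_fixed_of_semilinear q hF.hq Φ hΦ hinj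
  have hv0' : (v : Ft) ≠ 0 := fun h0 => hv0 (Subtype.ext h0)
  have hv' : γb • (v : Ft) * w = (v : Ft) := congrArg Subtype.val hv
  obtain ⟨yv, Dv, hyv, hDv, hDv', -⟩ := h.exists_div (v : Ft) hv0'
  have hyv0 : (yv : F) ≠ 0 := ne_zero_of_red_ne_zero (red := red) (by rw [hyv]; exact hv0')
  have hDvp : Dv ∈ Divisor.principal (K := K) (F := F) := ⟨yv, hyv0, hDv⟩
  have hpr : Dg + Dv ∈ Divisor.principal (K := K) (F := F) := add_mem hDgp hDvp
  refine ⟨D + ⟨Dg + Dv, principal_le_degZero h.ff hpr⟩, ?_, ?_, ?_⟩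
  · congr 1
    have : Pic0.mk (D + ⟨Dg + Dv, principal_le_degZero h.ff hpr⟩) =
        Pic0.mk D + Pic0.mk ⟨Dg + Dv, principal_le_degZero h.ff hpr⟩ := rfl
    rw [this]
    have h2 : Pic0.mk (⟨Dg + Dv, principal_le_degZero h.ff hpr⟩ :
        Divisor.degZero (K := K) (F := F)) = 0 := by
      apply (QuotientAddGroup.eq_zero_iff _).mpr
      rw [AddSubgroup.mem_addSubgroupOf]
      exact hpr
    rw [h2, add_zero]
  all_goals
    have e : ((D + ⟨Dg + Dv, principal_le_degZero h.ff hpr⟩ :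
        Divisor.degZero (K := K) (F := F)) : Divisor K F) + Finsupp.single oo (n₀ : ℤ) = E + Dv := by
      rw [hE, hD₁]
      push_cast
      abel
    rw [e, Finsupp.mapDomain_add, ← hB]
  · intro x
    rw [Finsupp.add_apply, hDv']
    exact (mem_LL_iff hv0').mp v.2 x
  · ext x
    rw [SemilinearAut.divisor_smul_apply, Finsupp.add_apply, Finsupp.add_apply, hDv', hDv']
    have h1 := hBw x
    rw [SemilinearAut.divisor_smul_apply] at h1
    have h2 : x.ord (v : Ft) = x.ord (γb • (v : Ft)) + x.ord w := by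
      conv_lhs => rw [← hv']
      exact x.ord_mul (by simpa using hv0') hy₂0
    rw [ord_smul'] at h2
    omega

/-- **[S44/SP-FIN-MAIN]** -/
theorem SpD.finite_fix [IsAlgClosed k] (h : SpD O red r) {γ : SemilinearAut K F}
    {γb : SemilinearAut k Ft} {q : ℕ} {t : Ft} {oo : Place K F} (hF : FrobD O red γ γb q t oo) :
    {y : YY r | hb (h.eqv hF.compat) y = y}.Finite := by
  classical
  obtain ⟨γ₀, hγ₀⟩ := h.ff.riemann
  set n₀ : ℕ := γ₀.toNat with hn₀def
  have hn₀ : ∀ D : Divisor K F, (n₀ : ℤ) ≤ Divisor.degree D →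
      ∃ g : F, g ≠ 0 ∧ ∀ v : Place K F, 0 ≤ D v + v.ord g :=
    fun D hD => hγ₀ D ((Int.self_le_toNat γ₀).trans hD)
  have hfin := finite_stable hF.resk h.finite_supp γb (finite_baseAut_fixed hF.hq hF.base) t
    hF.t_tr hF.t_fix n₀
  let P : YY r → Divisor k Ft → Prop := fun y B =>
    ∃ D' : Divisor.degZero (K := K) (F := F), sp r (Pic0.mk D') = y ∧
      Finsupp.mapDomain r ((D' : Divisor K F) + Finsupp.single oo (n₀ : ℤ)) = B
  have huniq : ∀ y₁ y₂ B, P y₁ B → P y₂ B → y₁ = y₂ := by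
    rintro _ _ B ⟨D₁, rfl, h1⟩ ⟨D₂, rfl, h2⟩
    rw [← h2, Finsupp.mapDomain_add, Finsupp.mapDomain_add] at h1
    have h3 := add_right_cancel h1
    exact (sp_eq_iff h.ff D₁ D₂).mpr ⟨0, zero_mem _, by rw [h3, Finsupp.mapDomain_zero, add_zero]⟩
  refine (hfin.image (fun B => Classical.epsilon (fun y => P y B))).subset ?_
  intro y hy
  obtain ⟨D', h1, h2, h3⟩ := h.exists_stable hF n₀ hn₀ y hy
  refine ⟨Finsupp.mapDomain r ((D' : Divisor K F) + Finsupp.single oo (n₀ : ℤ)), ⟨h2, ?_, h3⟩, ?_⟩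
  · rw [← dg_apply, dg_mapDomain, map_add, dg_single, dg_eq_degree h.ff]
    have : Divisor.degree (D' : Divisor K F) = 0 := D'.2
    rw [this, zero_add]
  · exact huniq _ _ _ (Classical.epsilon_spec (p := fun y => P y _) ⟨y, D', h1, rfl⟩) ⟨D', h1, rfl⟩

end Fermat.Agent.S44.SP
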