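import Fermat.Agent.ES.AlgES

/-!
# S44 / SP : Hecke operators on reductions of `q`-expansions            (helper20, key `S44/SP-HECKERED`)

Level independent, everything happens in `k((q))`, `k = kA A`.

* `HRel ζ ℓ r R` : `R = T̄_ℓ r`, i.e. `R(q^ℓ) = r(q^(ℓ^2)) ∏_{j<ℓ} r(ζ^j q)`.
* `intRed_Tl` : `IntRed A N x r → ∃ R, IntRed A N (Tl N ℓ x) R ∧ HRel ζ̄ ℓ r R`   (`ℓ ∤ N`, no condition on the residue characteristic).
* `RedQ A N y r` : `y = x₁ / x₂` with `xᵢ` integral, `x̄₂ ≠ 0`, `r = x̄₁ / x̄₂`   (the reduction of an element of the Gauss ring).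
* `RedQ.Tl`.
* `IsOm p n ub e r` : `r = c * ub ^ (p^(n-1) * e) * h ^ (p^n)`; `IsOm.hrel` (the induction step), `IsOm.isPow` (the final contradiction).
-/

set_option autoImplicit false
set_option synthInstance.maxHeartbeats 400000

open HahnSeries ModularCurve AlgebraicCurve Fermat.Agent.S24 Fermat.Agent.S29 Fermat.Agent.S18
  Fermat.Agent.ES.Alg

noncomputable section

namespace Fermat.Agent.S44.SP

section Formal

variable {k : Type*} [Field k]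

/-- `R = T̄_ℓ r` -/
def HRel (ζ : kˣ) (ℓ : ℕ) [NeZero ℓ] (r R : LaurentSeries k) : Prop :=
  qExpand k ℓ R = qExpand k ℓ (qExpand k ℓ r) * ∏ j ∈ Finset.range ℓ, twist (ζ ^ j) r

variable {ζ : kˣ} {ℓ : ℕ} [NeZero ℓ] {r R s S : LaurentSeries k}

theorem HRel.unique (h : HRel ζ ℓ r R) (h' : HRel ζ ℓ r S) : R = S :=
  qExpand_injective (R := k) ℓ (h.trans h'.symm)

theorem HRel.mul (h : HRel ζ ℓ r R) (h' : HRel ζ ℓ s S) : HRel ζ ℓ (r * s) (R * S) := by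
  unfold HRel at *
  rw [map_mul, h, h', map_mul, map_mul]
  simp only [map_mul, Finset.prod_mul_distrib]
  ring

theorem HRel.one : HRel ζ ℓ (1 : LaurentSeries k) 1 := by
  unfold HRel
  simp

theorem HRel.ne_zero (h : HRel ζ ℓ r R) (hr : r ≠ 0) : R ≠ 0 := by
  intro h0
  unfold HRel at h
  rw [h0, map_zero] at h
  have h1 : qExpand k ℓ (qExpand k ℓ r) ≠ 0 := by
    rw [Ne, map_eq_zero, map_eq_zero]; exact hr
  have h2 : ∏ j ∈ Finset.range ℓ, twist (ζ ^ j) r ≠ 0 := by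
    rw [Finset.prod_ne_zero_iff]
    intro j _
    rw [Ne, map_eq_zero]; exact hr
  exact mul_ne_zero h1 h2 h.symm

theorem HRel.inv (h : HRel ζ ℓ r R) : HRel ζ ℓ r⁻¹ R⁻¹ := by
  unfold HRel at *
  rw [map_inv₀, h, map_inv₀, map_inv₀, mul_inv]
  simp only [map_inv₀, Finset.prod_inv_distrib]

theorem HRel.pow (h : HRel ζ ℓ r R) (n : ℕ) : HRel ζ ℓ (r ^ n) (R ^ n) := by
  induction n with
  | zero => simpa using HRel.one
  | succ n ih => rw [pow_succ, pow_succ]; exact ih.mul h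

theorem HRel.zpow (h : HRel ζ ℓ r R) (n : ℤ) : HRel ζ ℓ (r ^ n) (R ^ n) := by
  cases n with
  | ofNat n => simpa using h.pow n
  | negSucc n => rw [zpow_negSucc, zpow_negSucc]; exact (h.pow _).inv

theorem HRel.div (h : HRel ζ ℓ r R) (h' : HRel ζ ℓ s S) : HRel ζ ℓ (r / s) (R / S) := by
  rw [div_eq_mul_inv, div_eq_mul_inv]; exact h.mul h'.inv

theorem twist_C (c : kˣ) (a : k) : twist c (HahnSeries.C a : LaurentSeries k) = HahnSeries.C a := by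
  ext n
  rw [twist_coeff, HahnSeries.C_apply, HahnSeries.coeff_single]
  split_ifs with h
  · subst h; simp
  · simp

theorem HRel.const (a : k) :
    HRel ζ ℓ (HahnSeries.C a : LaurentSeries k) (HahnSeries.C (a ^ (ℓ + 1))) := by
  unfold HRel
  rw [qExpand_C, qExpand_C, qExpand_C]
  simp only [twist_C, Finset.prod_const, Finset.card_range]
  rw [pow_succ', map_mul, map_pow]

/-- a series supported on multiples of `ℓ` is a series in `q^ℓ` -/
theorem exists_qExpand_eq (x : LaurentSeries k) (hx : ∀ n : ℤ, ¬ (ℓ : ℤ) ∣ n → x.coeff n = 0) :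
    ∃ y : LaurentSeries k, qExpand k ℓ y = x := by
  have hℓ : (1 : ℤ) ≤ ℓ := by exact_mod_cast Nat.pos_of_ne_zero (NeZero.ne ℓ)
  have hb : BddBelow (Function.support fun n : ℤ => x.coeff ((ℓ : ℤ) * n)) := by
    refine ⟨min x.order 0, fun n hn => ?_⟩
    by_contra hlt
    rw [not_le, lt_min_iff] at hlt
    apply hn
    apply HahnSeries.coeff_eq_zero_of_lt_order
    nlinarith [hlt.1, hlt.2]
  refine ⟨HahnSeries.ofSuppBddBelow _ hb, ?_⟩
  ext n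
  by_cases hn : (ℓ : ℤ) ∣ n
  · obtain ⟨t, rfl⟩ := hn
    rw [qExpand_coeff_mul]
    rfl
  · rw [qExpand_coeff_of_not_dvd ℓ _ hn, hx n hn]

/-- `T̄_ℓ g` exists -/
theorem exists_hrel (hζ : IsPrimitiveRoot ζ ℓ) (g : LaurentSeries k) : ∃ G, HRel ζ ℓ g G := by
  by_cases hg : g = 0
  · refine ⟨0, ?_⟩
    unfold HRel
    rw [hg]; simp
  set f : ℕ → LaurentSeries k := fun j => twist (ζ ^ j) g with hf
  have hf0 : f 0 ≠ 0 := by
    rw [hf]; simp only [pow_zero]; rw [twist_one]; exact hg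
  have hfl : f ℓ = f 0 := by
    rw [hf]; simp only [hζ.pow_eq_one, pow_zero]
  have hinv : twist ζ (∏ j ∈ Finset.range ℓ, f j) = ∏ j ∈ Finset.range ℓ, f j := by
    rw [map_prod]
    have h1 : ∀ j, twist ζ (f j) = f (j + 1) := by
      intro j
      rw [hf]
      simp only
      rw [← twist_mul, pow_succ']
    simp only [h1]
    have h2 := Finset.prod_range_succ' f ℓ
    rw [Finset.prod_range_succ, hfl] at h2
    exact (mul_right_cancel₀ hf0 h2).symm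
  obtain ⟨y, hy⟩ := exists_qExpand_eq (ℓ := ℓ) (∏ j ∈ Finset.range ℓ, f j) (by
    intro n hn
    have h1 := congrArg (fun z : LaurentSeries k => z.coeff n) hinv
    simp only [twist_coeff] at h1
    by_contra h0
    have h2 : ((ζ ^ n : kˣ) : k) = 1 := by
      have : (((ζ ^ n : kˣ) : k) - 1) * (∏ j ∈ Finset.range ℓ, f j).coeff n = 0 := by
        rw [sub_mul, h1, one_mul, sub_self]
      rcases mul_eq_zero.mp this with h | h
      · exact sub_eq_zero.mp h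
      · exact absurd h h0
    have h3 : ζ ^ n = 1 := Units.ext h2
    exact hn ((hζ.zpow_eq_one_iff_dvd n).mp h3))
  refine ⟨qExpand k ℓ g * y, ?_⟩
  unfold HRel
  rw [map_mul, hy]

end Formal

section Int

variable (A : ValuationSubring Kb) (ℓ : ℕ) [NeZero ℓ]

/-- a primitive `ℓ`-th root of unity of `Kb` -/
def z0 : Kb := (HasEnoughRootsOfUnity.exists_primitiveRoot Kb ℓ).choose

theorem z0_spec : IsPrimitiveRoot (z0 ℓ) ℓ :=
  (HasEnoughRootsOfUnity.exists_primitiveRoot Kb ℓ).choose_spec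

theorem z0_pow_mem (n : ℕ) : z0 ℓ ^ n ∈ A :=
  Frob.mem_of_isIntegral A (((z0_spec ℓ).isIntegral (Nat.pos_of_ne_zero (NeZero.ne ℓ))).pow n)

theorem z0_mul_pow : z0 ℓ * z0 ℓ ^ (ℓ - 1) = 1 := by
  rw [← pow_succ', Nat.sub_add_cancel (Nat.pos_of_ne_zero (NeZero.ne ℓ)), (z0_spec ℓ).pow_eq_one]

/-- the same as a unit of `A` -/
def zA : Aˣ :=
  ⟨⟨z0 ℓ, by simpa using z0_pow_mem A ℓ 1⟩, ⟨z0 ℓ ^ (ℓ - 1), z0_pow_mem A ℓ _⟩,
    Subtype.ext (z0_mul_pow ℓ), Subtype.ext (by rw [mul_comm]; exact z0_mul_pow ℓ)⟩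

/-- its reduction -/
def zb : (kA A)ˣ := Units.map ((IsLocalRing.residue A : A →+* kA A) : A →* kA A) (zA A ℓ)

variable {A ℓ} {N : ℕ} [NeZero N]

/-- **the `q`-expansion formula of `T_ℓ` modulo `𝔪`** -/
theorem intRed_Tl (hℓ : ℓ.Prime) (hℓN : ¬ ℓ ∣ N) {x : FN N} {r : LaurentSeries (kA A)}
    (h : IntRed A N x r) : ∃ R, IntRed A N (Tl N ℓ x) R ∧ HRel (zb A ℓ) ℓ r R := by
  obtain ⟨y, hy, rfl⟩ := h
  let ζ : Kbˣ := Units.map (A.subtype : A →* Kb) (zA A ℓ)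
  have hζ : IsPrimitiveRoot ζ ℓ := by
    rw [← IsPrimitiveRoot.coe_units_iff]
    exact z0_spec ℓ
  set Z : LaurentSeries A :=
    qExpand A ℓ (qExpand A ℓ y) * ∏ j ∈ Finset.range ℓ, twist (zA A ℓ ^ j) y with hZ
  have hZ1 : coeffMap A.subtype Z = qExpand Kb ℓ (Tl N ℓ x : LaurentSeries Kb) := by
    rw [qExpand_Tl N ℓ hℓ hℓN ζ hζ x, hZ, map_mul, coeffMap_qExpand, coeffMap_qExpand, hy,
      map_prod]
    congr 1
    refine Finset.prod_congr rfl fun j _ => ?_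
    rw [coeffMap_twist, hy, map_pow]
  obtain ⟨t, ht⟩ := exists_lift (A := A) (Tl N ℓ x : LaurentSeries Kb) (fun n => by
    rw [← qExpand_coeff_mul ℓ, ← hZ1, coeffMap_coeff]
    exact (Z.coeff _).2)
  refine ⟨red A t, ⟨t, ht, rfl⟩, ?_⟩
  have ht2 : qExpand A ℓ t = Z := by
    apply coeffMap_subtype_injective
    rw [coeffMap_qExpand, ht, hZ1]
  unfold HRel
  rw [← coeffMap_qExpand, ht2, hZ, map_mul, coeffMap_qExpand, coeffMap_qExpand, map_prod]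
  congr 1
  refine Finset.prod_congr rfl fun j _ => ?_
  rw [coeffMap_twist, map_pow]
  rfl

end Int

/-! ### `IsOm` : `r = c * ub ^ (p^m * e) * h ^ (p^(m+1))` -/

section Om

variable {k : Type*} [Field k]

/-- `r = c * ω ^ e * (p^(m+1)-th power)`, `ω = ub ^ (p^m)` -/
def IsOm (p m : ℕ) (ub : LaurentSeries k) (e : ℤ) (r : LaurentSeries k) : Prop :=
  ∃ (c : k) (h : LaurentSeries k), c ≠ 0 ∧ h ≠ 0 ∧
    r = HahnSeries.C c * ub ^ (((p ^ m : ℕ) : ℤ) * e) * h ^ (p ^ (m + 1))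

variable {p m : ℕ} {ub r r' : LaurentSeries k} {e e' : ℤ}

theorem C_ne_zero' {c : k} (hc : c ≠ 0) : (HahnSeries.C c : LaurentSeries k) ≠ 0 := by
  rw [Ne, map_eq_zero]; exact hc

theorem IsOm.ne_zero (hub : ub ≠ 0) (h : IsOm p m ub e r) : r ≠ 0 := by
  obtain ⟨c, g, hc, hg, rfl⟩ := h
  exact mul_ne_zero (mul_ne_zero (C_ne_zero' hc) (zpow_ne_zero _ hub)) (pow_ne_zero _ hg)

theorem IsOm.mul (hub : ub ≠ 0) (h : IsOm p m ub e r) (h' : IsOm p m ub e' r') :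
    IsOm p m ub (e + e') (r * r') := by
  obtain ⟨c, g, hc, hg, rfl⟩ := h
  obtain ⟨c', g', hc', hg', rfl⟩ := h'
  refine ⟨c * c', g * g', mul_ne_zero hc hc', mul_ne_zero hg hg', ?_⟩
  rw [mul_add, zpow_add₀ hub, map_mul, mul_pow]
  ring

theorem IsOm.inv (h : IsOm p m ub e r) : IsOm p m ub (-e) r⁻¹ := by
  obtain ⟨c, g, hc, hg, rfl⟩ := h
  refine ⟨c⁻¹, g⁻¹, inv_ne_zero hc, inv_ne_zero hg, ?_⟩
  rw [mul_neg, zpow_neg, map_inv₀, inv_pow, mul_inv, mul_inv]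

theorem IsOm.const_mul (h : IsOm p m ub e r) {a : k} (ha : a ≠ 0) :
    IsOm p m ub e (HahnSeries.C a * r) := by
  obtain ⟨c, g, hc, hg, rfl⟩ := h
  refine ⟨a * c, g, mul_ne_zero ha hc, hg, ?_⟩
  rw [map_mul]; ring

theorem isOm_pow {g : LaurentSeries k} (hg : g ≠ 0) : IsOm p m ub 0 (g ^ (p ^ (m + 1))) :=
  ⟨1, g, one_ne_zero, hg, by simp⟩

theorem isOm_self : IsOm p m ub 1 (ub ^ (p ^ m)) :=
  ⟨1, 1, one_ne_zero, one_ne_zero, by rw [mul_one, zpow_natCast]; simp⟩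

theorem IsOm.add_p (hub : ub ≠ 0) (h : IsOm p m ub e r) (t : ℤ) : IsOm p m ub (e + p * t) r := by
  obtain ⟨c, g, hc, hg, rfl⟩ := h
  refine ⟨c, g * ub ^ (-t), hc, mul_ne_zero hg (zpow_ne_zero _ hub), ?_⟩
  rw [mul_pow, ← zpow_natCast (ub ^ (-t)), ← zpow_mul, mul_add, zpow_add₀ hub]
  have e1 : ((p ^ m : ℕ) : ℤ) * (p * t) = - (-t * ((p ^ (m + 1) : ℕ) : ℤ)) := by
    push_cast; ring
  rw [e1, zpow_neg]
  have hz : ub ^ (-t * ((p ^ (m + 1) : ℕ) : ℤ)) ≠ 0 := zpow_ne_zero _ hub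
  field_simp

/-- **the induction step** -/
theorem IsOm.hrel {ζ : kˣ} {ℓ : ℕ} [NeZero ℓ] (hζ : IsPrimitiveRoot ζ ℓ) {a : ℤ}
    {gb R : LaurentSeries k} (hub : ub ≠ 0)
    (hgb : gb ≠ 0) (hU : HRel ζ ℓ ub (ub ^ a * gb ^ p)) (h : IsOm p m ub e r) (hR : HRel ζ ℓ r R) :
    IsOm p m ub (e * a) R := by
  obtain ⟨c, g, hc, hg, rfl⟩ := h
  obtain ⟨G, hG⟩ := exists_hrel hζ g
  have h1 := ((HRel.const (ζ := ζ) (ℓ := ℓ) c).mul (hU.zpow (((p ^ m : ℕ) : ℤ) * e))).mul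
    (hG.pow (p ^ (m + 1)))
  rw [hR.unique h1]
  refine ⟨c ^ (ℓ + 1), gb ^ e * G, pow_ne_zero _ hc,
    mul_ne_zero (zpow_ne_zero _ hgb) (hG.ne_zero hg), ?_⟩
  rw [mul_zpow, ← zpow_mul, mul_pow, ← zpow_natCast (gb ^ e), ← zpow_mul, ← zpow_natCast gb p,
    ← zpow_mul]
  have e1 : a * (((p ^ m : ℕ) : ℤ) * e) = ((p ^ m : ℕ) : ℤ) * (e * a) := by ring
  have e2 : (p : ℤ) * (((p ^ m : ℕ) : ℤ) * e) = e * ((p ^ (m + 1) : ℕ) : ℤ) := by
    push_cast; ring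
  rw [e1, e2]
  ring

theorem exists_pow_root (hk : ∀ a : k, ∃ b, b ^ p = a) (n : ℕ) (a : k) : ∃ b, b ^ (p ^ n) = a := by
  induction n generalizing a with
  | zero => exact ⟨a, by simp⟩
  | succ n ih =>
    obtain ⟨b, hb⟩ := hk a
    obtain ⟨c, hc⟩ := ih b
    exact ⟨c, by rw [pow_succ, pow_mul, hc, hb]⟩

/-- **the final contradiction** : the exponent `e` is well defined modulo `p` unless `ub` is a `p`-th power -/
theorem IsOm.exists_root [CharP k p] (hp : p.Prime) (hk : ∀ a : k, ∃ b, b ^ p = a) (hub : ub ≠ 0)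
    (h : IsOm p m ub e r) (h' : IsOm p m ub e' r) (hne : ¬ (p : ℤ) ∣ e - e') :
    ∃ w : LaurentSeries k, ub = w ^ p := by
  haveI : Fact p.Prime := ⟨hp⟩
  haveI : CharP (LaurentSeries k) p :=
    charP_of_injective_algebraMap (algebraMap k (LaurentSeries k)).injective p
  obtain ⟨c, g, hc, hg, rfl⟩ := h
  obtain ⟨c', g', hc', hg', h2⟩ := h'
  set P : ℤ := ((p ^ m : ℕ) : ℤ) with hP
  have hcop : IsCoprime (e - e') (p : ℤ) :=
    ((Nat.prime_iff_prime_int.mp hp).coprime_iff_not_dvd.mpr hne).symm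
  obtain ⟨α, β, hαβ⟩ := hcop
  have hCc : (HahnSeries.C c : LaurentSeries k) ≠ 0 := C_ne_zero' hc
  have hgP : g ^ (p ^ (m + 1)) ≠ 0 := pow_ne_zero _ hg
  have h3 : ub ^ (P * (e - e')) = HahnSeries.C (c' / c) * (g' / g) ^ (p ^ (m + 1)) := by
    rw [mul_sub, zpow_sub₀ hub, map_div₀, div_pow]
    have hz : ub ^ (P * e') ≠ 0 := zpow_ne_zero _ hub
    field_simp
    rw [mul_comm (ub ^ (P * e)), mul_assoc] at *
    linear_combination h2
  obtain ⟨γ, hγ⟩ := exists_pow_root hk (m + 1) ((c' / c) ^ α)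
  have h4 : ub ^ (p ^ m) = ((HahnSeries.C γ * (g' / g) ^ α * ub ^ β) ^ p) ^ (p ^ m) := by
    have e1 : ub ^ (p ^ m) = (ub ^ (P * (e - e'))) ^ α * ub ^ (β * ((p ^ (m + 1) : ℕ) : ℤ)) := by
      rw [← zpow_mul, ← zpow_add₀ hub, ← zpow_natCast ub (p ^ m)]
      congr 1
      have : P * (e - e') * α + β * ((p ^ (m + 1) : ℕ) : ℤ) = P * (α * (e - e') + β * p) := by
        rw [hP]; push_cast; ring
      rw [this, hαβ, mul_one]
    rw [e1, h3, ← pow_mul, mul_comm p, ← pow_succ, mul_pow, mul_pow, ← map_pow, hγ, mul_zpow,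
      map_zpow₀, zpow_mul, zpow_natCast, ← zpow_natCast ((g' / g) ^ α), ← zpow_mul,
      ← zpow_natCast (g' / g), ← zpow_mul, mul_comm α]
  refine ⟨HahnSeries.C γ * (g' / g) ^ α * ub ^ β, ?_⟩
  have := iterateFrobenius_inj (LaurentSeries k) p m
  apply this
  rw [iterateFrobenius_def, iterateFrobenius_def]
  exact h4

end Om

/-! ### reduction of quotients -/

section Fun

variable (A : ValuationSubring Kb) (N : ℕ) [NeZero N]

/-- `y = x₁ / x₂`, `xᵢ` integral, `x̄₂ ≠ 0`, `r = x̄₁ / x̄₂` -/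
def RedQ (y : FN N) (r : LaurentSeries (kA A)) : Prop :=
  ∃ (x1 x2 : FN N) (z1 z2 : LaurentSeries (kA A)), IntRed A N x1 z1 ∧ IntRed A N x2 z2 ∧ z2 ≠ 0 ∧
    y * x2 = x1 ∧ r * z2 = z1

/-- `r ≠ 0` is the reduction of a constant multiple of `y` -/
def RedC (y : FN N) (r : LaurentSeries (kA A)) : Prop :=
  ∃ c : Kb, c ≠ 0 ∧ r ≠ 0 ∧ RedQ A N (algebraMap Kb (FN N) c * y) r

variable {A N}

theorem intRed_one : IntRed A N 1 1 := ⟨1, by rw [map_one]; rfl, map_one _⟩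

theorem intRed_cst (a : A) :
    IntRed A N (algebraMap Kb (FN N) (a : Kb)) (HahnSeries.C (IsLocalRing.residue A a)) :=
  ⟨HahnSeries.single 0 a, coeffMap_subtype_single a, by
    show ModularCurve.coeffMap _ _ = _
    rw [coeffMap_single]; rfl⟩

theorem RedQ.of_intRed {y : FN N} {r : LaurentSeries (kA A)} (h : IntRed A N y r) : RedQ A N y r :=
  ⟨y, 1, r, 1, h, intRed_one, one_ne_zero, mul_one _, mul_one _⟩

theorem RedQ.unique {y : FN N} {r r' : LaurentSeries (kA A)} (h : RedQ A N y r)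
    (h' : RedQ A N y r') : r = r' := by
  obtain ⟨x1, x2, z1, z2, h1, h2, hz, e1, e2⟩ := h
  obtain ⟨x1', x2', z1', z2', h1', h2', hz', e1', e2'⟩ := h'
  have e : x1 * x2' = x1' * x2 := by rw [← e1, ← e1']; ring
  have := (h1.mul h2').unique (e ▸ h1'.mul h2)
  rw [← e2, ← e2'] at this
  have h3 : r * (z2 * z2') = r' * (z2 * z2') := by linear_combination this
  exact mul_right_cancel₀ (mul_ne_zero hz hz') h3

theorem RedQ.mul {y y' : FN N} {r r' : LaurentSeries (kA A)} (h : RedQ A N y r)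
    (h' : RedQ A N y' r') : RedQ A N (y * y') (r * r') := by
  obtain ⟨x1, x2, z1, z2, h1, h2, hz, e1, e2⟩ := h
  obtain ⟨x1', x2', z1', z2', h1', h2', hz', e1', e2'⟩ := h'
  exact ⟨x1 * x1', x2 * x2', z1 * z1', z2 * z2', h1.mul h1', h2.mul h2', mul_ne_zero hz hz',
    by rw [← e1, ← e1']; ring, by rw [← e2, ← e2']; ring⟩

theorem RedQ.inv {y : FN N} {r : LaurentSeries (kA A)} (h : RedQ A N y r) (hr : r ≠ 0) :
    RedQ A N y⁻¹ r⁻¹ := by
  obtain ⟨x1, x2, z1, z2, h1, h2, hz, e1, e2⟩ := h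
  have hz1 : z1 ≠ 0 := by rw [← e2]; exact mul_ne_zero hr hz
  have hx1 : x1 ≠ 0 := h1.ne_zero hz1
  have hy : y ≠ 0 := by rintro rfl; exact hx1 (by rw [← e1, zero_mul])
  refine ⟨x2, x1, z2, z1, h2, h1, hz1, ?_, ?_⟩
  · rw [← e1, inv_mul_cancel_left₀ hy]
  · rw [← e2, inv_mul_cancel_left₀ hr]

theorem RedQ.Tl {ℓ : ℕ} [NeZero ℓ] (hℓ : ℓ.Prime) (hℓN : ¬ ℓ ∣ N) {y : FN N}
    {r : LaurentSeries (kA A)} (h : RedQ A N y r) :
    ∃ R, RedQ A N (Tl N ℓ y) R ∧ HRel (zb A ℓ) ℓ r R := by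
  obtain ⟨x1, x2, z1, z2, h1, h2, hz, e1, e2⟩ := h
  obtain ⟨R1, hR1, hh1⟩ := intRed_Tl hℓ hℓN h1
  obtain ⟨R2, hR2, hh2⟩ := intRed_Tl hℓ hℓN h2
  have hR20 : R2 ≠ 0 := hh2.ne_zero hz
  refine ⟨R1 / R2, ⟨_, _, R1, R2, hR1, hR2, hR20, by rw [← map_mul, e1],
    div_mul_cancel₀ _ hR20⟩, ?_⟩
  have : r = z1 / z2 := by rw [← e2, mul_div_cancel_right₀ _ hz]
  rw [this]
  exact hh1.div hh2

theorem exists_redC {y : FN N} (hy : y ≠ 0) : ∃ r, RedC A N y r := by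
  obtain ⟨c, x1, x2, r1, r2, hc, h1, h2, hr1, hr2, e⟩ := exists_intRed A y hy
  have hc' : algebraMap Kb (FN N) c ≠ 0 := by rw [Ne, map_eq_zero]; exact hc
  refine ⟨r1 / r2, c⁻¹, inv_ne_zero hc, div_ne_zero hr1 hr2, x1, x2, r1, r2, h1, h2, hr2, ?_,
    div_mul_cancel₀ _ hr2⟩
  rw [mul_assoc, e, map_inv₀, inv_mul_cancel_left₀ hc']

theorem RedC.ne_zero {y : FN N} {r : LaurentSeries (kA A)} (h : RedC A N y r) : r ≠ 0 := by
  obtain ⟨_, _, hr, _⟩ := h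
  exact hr

theorem RedC.mul {y y' : FN N} {r r' : LaurentSeries (kA A)} (h : RedC A N y r)
    (h' : RedC A N y' r') : RedC A N (y * y') (r * r') := by
  obtain ⟨c, hc, hr, h⟩ := h
  obtain ⟨c', hc', hr', h'⟩ := h'
  refine ⟨c * c', mul_ne_zero hc hc', mul_ne_zero hr hr', ?_⟩
  have := h.mul h'
  rw [map_mul]
  convert this using 1
  ring

theorem RedC.inv {y : FN N} {r : LaurentSeries (kA A)} (h : RedC A N y r) :
    RedC A N y⁻¹ r⁻¹ := by
  obtain ⟨c, hc, hr, h⟩ := h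
  refine ⟨c⁻¹, inv_ne_zero hc, inv_ne_zero hr, ?_⟩
  have := h.inv hr
  rwa [mul_inv, ← map_inv₀] at this

theorem RedC.pow {y : FN N} {r : LaurentSeries (kA A)} (h : RedC A N y r) (n : ℕ) :
    RedC A N (y ^ n) (r ^ n) := by
  induction n with
  | zero =>
    rw [pow_zero, pow_zero]
    exact ⟨1, one_ne_zero, one_ne_zero, by rw [map_one, one_mul]; exact .of_intRed intRed_one⟩
  | succ n ih => rw [pow_succ, pow_succ]; exact ih.mul h

theorem RedC.const_mul {y : FN N} {r : LaurentSeries (kA A)} (h : RedC A N y r) {c : Kb}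
    (hc : c ≠ 0) : RedC A N (algebraMap Kb (FN N) c * y) r := by
  obtain ⟨c', hc', hr, h⟩ := h
  refine ⟨c' * c⁻¹, mul_ne_zero hc' (inv_ne_zero hc), hr, ?_⟩
  have hc2 : algebraMap Kb (FN N) c ≠ 0 := by rw [Ne, map_eq_zero]; exact hc
  convert h using 1
  rw [map_mul, map_inv₀]
  field_simp

theorem RedC.Tl {ℓ : ℕ} [NeZero ℓ] (hℓ : ℓ.Prime) (hℓN : ¬ ℓ ∣ N) {y : FN N}
    {r : LaurentSeries (kA A)} (h : RedC A N y r) :
    ∃ R, RedC A N (Tl N ℓ y) R ∧ HRel (zb A ℓ) ℓ r R := by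
  obtain ⟨c, hc, hr, h⟩ := h
  obtain ⟨R, hR, hh⟩ := h.Tl hℓ hℓN
  obtain ⟨n, hn⟩ := Tl_algebraMap (N := N) ℓ c
  refine ⟨R, ⟨c ^ n, pow_ne_zero _ hc, hh.ne_zero hr, ?_⟩, hh⟩
  rwa [map_mul, hn] at hR

theorem scal_aux {X X' : FN N} {Z Z' : LaurentSeries (kA A)} (h : IntRed A N X Z)
    (h' : IntRed A N X' Z') (hZ' : Z' ≠ 0) {lam : Kb} (hl : lam ∈ A)
    (e : algebraMap Kb (FN N) lam * X = X') : ∃ a : kA A, a ≠ 0 ∧ Z' = HahnSeries.C a * Z := by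
  have h1 := (intRed_cst (N := N) (⟨lam, hl⟩ : A)).mul h
  have h2 : Z' = HahnSeries.C (IsLocalRing.residue A ⟨lam, hl⟩) * Z := h'.unique (e ▸ h1)
  refine ⟨_, ?_, h2⟩
  intro h0
  rw [h0, map_zero, zero_mul] at h2
  exact hZ' h2

/-- the reduction up to constants is unique up to constants -/
theorem RedC.unique {y : FN N} {r r' : LaurentSeries (kA A)} (h : RedC A N y r)
    (h' : RedC A N y r') : ∃ a : kA A, a ≠ 0 ∧ r' = HahnSeries.C a * r := by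
  obtain ⟨c, hc, hr, x1, x2, z1, z2, h1, h2, hz, e1, e2⟩ := h
  obtain ⟨c', hc', hr', x1', x2', z1', z2', h1', h2', hz', e1', e2'⟩ := h'
  have hcF : algebraMap Kb (FN N) c ≠ 0 := by rw [Ne, map_eq_zero]; exact hc
  have hcF' : algebraMap Kb (FN N) c' ≠ 0 := by rw [Ne, map_eq_zero]; exact hc'
  have hX := h1.mul h2'
  have hX' := h1'.mul h2
  have hZ : z1 * z2' ≠ 0 := by rw [← e2]; exact mul_ne_zero (mul_ne_zero hr hz) hz'
  have hZ' : z1' * z2 ≠ 0 := by rw [← e2']; exact mul_ne_zero (mul_ne_zero hr' hz') hz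
  have key : ∃ a : kA A, a ≠ 0 ∧ z1' * z2 = HahnSeries.C a * (z1 * z2') := by
    rcases A.mem_or_inv_mem (c' / c) with hl | hl
    · refine scal_aux hX hX' hZ' hl ?_
      rw [← e1, ← e1', map_div₀]
      field_simp
    · obtain ⟨a, ha, e⟩ := scal_aux hX' hX hZ hl (by
        rw [← e1, ← e1', map_inv₀, map_div₀]
        field_simp)
      refine ⟨a⁻¹, inv_ne_zero ha, ?_⟩
      rw [e, ← mul_assoc, ← map_mul, inv_mul_cancel₀ ha, map_one, one_mul]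
  obtain ⟨a, ha, e⟩ := key
  refine ⟨a, ha, ?_⟩
  rw [← e2, ← e2'] at e
  have : r' * (z2 * z2') = HahnSeries.C a * r * (z2 * z2') := by linear_combination e
  exact mul_right_cancel₀ (mul_ne_zero hz hz') this

theorem zb_isPrimitiveRoot {ℓ : ℕ} [NeZero ℓ] (hℓ : ℓ.Prime) (hne : (ℓ : kA A) ≠ 0) :
    IsPrimitiveRoot (zb A ℓ) ℓ := by
  have hpow : zA A ℓ ^ ℓ = 1 := by
    apply Units.ext
    apply Subtype.ext
    show (z0 ℓ : Kb) ^ ℓ = 1
    exact (z0_spec ℓ).pow_eq_one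
  have h1 : zb A ℓ ^ ℓ = 1 := by
    unfold zb
    rw [← map_pow, hpow, map_one]
  have h2 : zb A ℓ ≠ 1 := by
    intro h
    apply hne
    have hs : ∑ j ∈ Finset.range ℓ, ((zA A ℓ : A)) ^ j = 0 := by
      apply Subtype.ext
      have := (z0_spec ℓ).geom_sum_eq_zero hℓ.one_lt
      rw [ZeroMemClass.coe_zero, ← this]
      simp only [AddSubmonoidClass.coe_finset_sum, SubmonoidClass.coe_pow]
      rfl
    have h3 := congrArg (IsLocalRing.residue A) hs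
    rw [map_sum, map_zero] at h3
    have h4 : IsLocalRing.residue A (zA A ℓ : A) = 1 := congrArg Units.val h
    simp only [map_pow, h4, one_pow, Finset.sum_const, Finset.card_range, nsmul_eq_mul,
      mul_one] at h3
    exact h3
  have h5 := orderOf_eq_prime h1 h2 (hp := ⟨hℓ⟩)
  have h6 := IsPrimitiveRoot.orderOf (zb A ℓ)
  rwa [h5] at h6

variable (A N) in
/-- the reduction of `y` (up to constants) is `ω ^ e` times a `p^(m+1)`-th power, `ω = ub ^ (p^m)` -/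
def Om (p m : ℕ) (ub : LaurentSeries (kA A)) (y : FN N) (e : ℤ) : Prop :=
  ∃ r, RedC A N y r ∧ IsOm p m ub e r

variable {p m : ℕ} {ub : LaurentSeries (kA A)} {y y' : FN N} {e e' : ℤ}

theorem Om.mul (hub : ub ≠ 0) (h : Om A N p m ub y e) (h' : Om A N p m ub y' e') :
    Om A N p m ub (y * y') (e + e') := by
  obtain ⟨r, h1, h2⟩ := h
  obtain ⟨r', h1', h2'⟩ := h'
  exact ⟨_, h1.mul h1', h2.mul hub h2'⟩

theorem Om.inv (h : Om A N p m ub y e) : Om A N p m ub y⁻¹ (-e) := by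
  obtain ⟨r, h1, h2⟩ := h
  exact ⟨_, h1.inv, h2.inv⟩

theorem Om.const_mul (h : Om A N p m ub y e) {c : Kb} (hc : c ≠ 0) :
    Om A N p m ub (algebraMap Kb (FN N) c * y) e := by
  obtain ⟨r, h1, h2⟩ := h
  exact ⟨_, h1.const_mul hc, h2⟩

theorem om_pow {g : FN N} (hg : g ≠ 0) : Om A N p m ub (g ^ (p ^ (m + 1))) 0 := by
  obtain ⟨r, hr⟩ := exists_redC (A := A) hg
  exact ⟨_, hr.pow _, isOm_pow hr.ne_zero⟩

theorem Om.add_p (hub : ub ≠ 0) (h : Om A N p m ub y e) (t : ℤ) : Om A N p m ub y (e + p * t) := by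
  obtain ⟨r, h1, h2⟩ := h
  exact ⟨_, h1, h2.add_p hub t⟩

theorem Om.pow (hub : ub ≠ 0) (h : Om A N p m ub y e) (n : ℕ) : Om A N p m ub (y ^ n) (n * e) := by
  induction n with
  | zero =>
    have := om_pow (A := A) (N := N) (p := p) (m := m) (ub := ub) (one_ne_zero)
    simpa using this
  | succ n ih =>
    rw [pow_succ]
    have := ih.mul hub h
    convert this using 1
    push_cast; ring

theorem Om.zpow (hub : ub ≠ 0) (h : Om A N p m ub y e) (n : ℤ) : Om A N p m ub (y ^ n) (n * e) := by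
  cases n with
  | ofNat n => simpa using h.pow hub n
  | negSucc n =>
    rw [zpow_negSucc]
    have := (h.pow hub (n + 1)).inv
    convert this using 1
    rw [Int.negSucc_eq]; push_cast; ring

/-- **HECKE-RED** -/
theorem Om.Tl {ℓ : ℕ} [NeZero ℓ] (hℓ : ℓ.Prime) (hℓN : ¬ ℓ ∣ N) (hne : (ℓ : kA A) ≠ 0) {a : ℤ}
    {gb : LaurentSeries (kA A)} (hub : ub ≠ 0) (hgb : gb ≠ 0)
    (hU : HRel (zb A ℓ) ℓ ub (ub ^ a * gb ^ p)) (h : Om A N p m ub y e) :
    Om A N p m ub (Tl N ℓ y) (e * a) := by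
  obtain ⟨r, h1, h2⟩ := h
  obtain ⟨R, hR, hh⟩ := h1.Tl hℓ hℓN
  exact ⟨R, hR, h2.hrel (zb_isPrimitiveRoot hℓ hne) hub hgb hU hh⟩

/-- **the final contradiction** -/
theorem Om.exists_root [CharP (kA A) p] (hp : p.Prime) (hk : ∀ a : kA A, ∃ b, b ^ p = a)
    (hub : ub ≠ 0) (h : Om A N p m ub y e) (h' : Om A N p m ub y e') (hne : ¬ (p : ℤ) ∣ e - e') :
    ∃ w : LaurentSeries (kA A), ub = w ^ p := by
  obtain ⟨r, h1, h2⟩ := h
  obtain ⟨r', h1', h2'⟩ := h'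
  obtain ⟨a, ha, rfl⟩ := h1.unique h1'
  exact (h2.const_mul ha).exists_root hp hk hub h2' hne

end Fun

end Fermat.Agent.S44.SP
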