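import Fermat.Agent.S44.SP.InstAbs
import Fermat.Agent.S44.SP.Core
import Fermat.Agent.S37.ModRed
import Fermat.Agent.S17.WMW.Smooth
import Fermat.Agent.Lib.Frobenius
import Fermat.Agent.Lib.PicDiv
import Fermat.Agent.S55.E.Lvl

/-!
# S44 / SP-INST : the modular instance of `SpD.core`   (helper18)

Level `M`, `r0 ∈ {2, 3}`, `r0 ∣ M`, `p ∤ M`, `A` over `p`, `τ = tauL H hrM`, `O = KL.VV A τ (FN M)`,
`red : O → Ft` ANY reduction map with `S37.RedData` (e.g. the one of `S37.exists_redData`, or the reduction of `q`-expansions).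

`core_mod` : `ub ∈ Ft`, `p ∣ ord_x ub` for all places `x` of `Ft / kk A`  ⟹
  `∃ n uz c hbar, red uz = c * ub^(p^n) * hbar^(p^(n+1))` and `p^(n+1) ∣ div uz`.
-/

set_option autoImplicit false
set_option synthInstance.maxHeartbeats 400000

open HahnSeries ModularCurve AlgebraicCurve Polynomial
open Fermat.Agent.S24 Fermat.Agent.S29 Fermat.Agent.S18 Fermat.Agent.S37 Fermat.Agent.ES.Alg
open scoped Pointwise

noncomputable section

namespace Fermat.Agent.S44.SP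

/-! ### Frobenius elements -/

section Frob

variable {A : ValuationSubring Kb}

theorem IsFrob.mul {σ σ' : GQ} {q q' : ℕ} (h : A.IsFrobeniusAt σ q) (h' : A.IsFrobeniusAt σ' q') :
    A.IsFrobeniusAt (σ * σ') (q' * q) := by
  refine ⟨mul_mem h.mem_decompositionSubgroup h'.mem_decompositionSubgroup, fun x => ?_⟩
  have e : (⟨σ * σ', mul_mem h.mem_decompositionSubgroup h'.mem_decompositionSubgroup⟩ :
      A.decompositionSubgroup ℚ) = ⟨σ, h.mem_decompositionSubgroup⟩ *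
        ⟨σ', h'.mem_decompositionSubgroup⟩ := rfl
  rw [e, mul_smul, h'.smul_residue_eq, h.smul_residue_eq, ← pow_mul]

theorem IsFrob.pow {σ : GQ} {q : ℕ} (h : A.IsFrobeniusAt σ q) (e : ℕ) :
    A.IsFrobeniusAt (σ ^ e) (q ^ e) := by
  induction e with
  | zero =>
    refine ⟨one_mem _, fun x => ?_⟩
    have e : (⟨σ ^ 0, one_mem _⟩ : A.decompositionSubgroup ℚ) = 1 := rfl
    rw [e, one_smul, pow_zero, pow_one]
  | succ e ih =>
    rw [pow_succ, pow_succ']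
    exact IsFrob.mul ih h

theorem mem_of_dec {σ : GQ} (hσ : σ ∈ A.decompositionSubgroup ℚ) {a : Kb} (ha : a ∈ A) :
    σ a ∈ A := by
  have h1 : σ • A = A := hσ
  have h2 := ValuationSubring.smul_mem_pointwise_smul σ a A ha
  rwa [h1] at h2

theorem residue_frob {σ : GQ} {q : ℕ} (h : A.IsFrobeniusAt σ q) (a : A) :
    IsLocalRing.residue A ⟨σ a, mem_of_dec h.mem_decompositionSubgroup a.2⟩ =
      (IsLocalRing.residue A a) ^ q := by
  have h1 := h.smul_residue_eq (IsLocalRing.residue A a)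
  rw [← h1]
  rfl

end Frob

theorem red_ne_zero_of_inv {F Ft : Type*} [Field F] [Field Ft] {O : Subring F} (red : O →+* Ft)
    {x : F} (hx0 : x ≠ 0) (hx : x ∈ O) (hx' : x⁻¹ ∈ O) : red ⟨x, hx⟩ ≠ 0 := by
  intro h0
  have h1 : (⟨x, hx⟩ : O) * ⟨x⁻¹, hx'⟩ = 1 := Subtype.ext (mul_inv_cancel₀ hx0)
  have h2 := congrArg red h1
  rw [map_mul, h0, zero_mul, map_one] at h2
  exact zero_ne_one h2

section Main

variable {M r0 : ℕ} [NeZero M] (H : Haupt M r0) (hr : r0 = 2 ∨ r0 = 3) (hrM : r0 ∣ M)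
  (A : ValuationSubring Kb) {p : ℕ} (hp : p.Prime) (hA : A.LiesOverPrime p) (hpM : ¬ p ∣ M)
variable {Ft : Type*} [Field Ft] [Algebra (KL.kk A) Ft]
  {red : KL.VV A (tauL H hrM) (FN M) →+* Ft}

/-- elements of the decomposition group preserve the model -/
theorem presA_of_dec
    (hgal : ∀ σ : GQ, arithmeticGalois (modularFunctionFieldFull M) σ • tauF H hrM = tauF H hrM)
    {σ : GQ} (hσ : σ ∈ A.decompositionSubgroup ℚ) :
    PresA (F := FN M) A (tauL H hrM) (arithmeticGalois (modularFunctionFieldFull M) σ) where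
  tau := by
    rw [algebraMap_tauL]
    exact hgal σ
  memA := fun a ha => mem_of_dec hσ ha
  memA' := fun a ha => mem_of_dec (inv_mem hσ) ha

include hp hA hpM in
theorem scale_mod {f : FN M} (hf : f ≠ 0) : ∃ c : Kb, c ≠ 0 ∧
    algebraMap Kb (FN M) c * f ∈ KL.VV A (tauL H hrM) (FN M) ∧
    (algebraMap Kb (FN M) c * f)⁻¹ ∈ KL.VV A (tauL H hrM) (FN M) := by
  obtain ⟨c, hc, hu, hinv, -⟩ := RedPkgAux.conv_input (A := A) H hrM hp hA hpM (dvd_refl M) hf
  have e : incl (dvd_refl M) (algebraMap Kb (FN M) c * f) = algebraMap Kb (FN M) c * f :=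
    Subtype.ext (coe_incl _ _)
  rw [e] at hu hinv
  exact ⟨c, hc, hu, hinv⟩

include hr hp hA hpM in
/-- [S44/SP-INST-RED] -/
theorem exists_spD (hRD : RedData A (tauL H hrM) (FN M) (KL.VV A (tauL H hrM) (FN M)) red) :
    ∃ r : Place Kb (FN M) → Place (KL.kk A) Ft,
      SpD (KL.VV A (tauL H hrM) (FN M)) red r ∧
      (∀ z : Ft, z ≠ 0 → (∀ x : Place (KL.kk A) Ft, x.ord z = 0) →
        ∃ c : KL.kk A, z = algebraMap (KL.kk A) Ft c) := by
  have hfin := finiteDimensional_LT H hrM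
  have hτ := transcendental_tauL H hrM
  have hgen := isGen_tauL H hrM
  obtain ⟨G⟩ := exists_goodRed H hrM A hp hA hpM
  have hrl : ¬ p ∣ r0 := fun h => hpM (h.trans hrM)
  obtain ⟨c0, hc0, hbr⟩ := Branch.exists_unit_Br hr hrM H A
    (RedPkgAux.inv_natCast_mem A hp hA hrl) (tauF H hrM) (corr_tauF H hrM).iota_eq
  obtain ⟨r, hRED, -, hCONST⟩ :=
    exists_reduction (Arch.arch A hp hA) hτ hgen G c0 hc0 hbr hRD
  refine ⟨r, ⟨isFF_FN M, hRD.surj, ?_, hRED⟩, hCONST⟩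
  intro f hf
  obtain ⟨c, hc, hu, hinv⟩ := scale_mod H hrM A hp hA hpM hf
  have hne : algebraMap Kb (FN M) c * f ≠ 0 :=
    mul_ne_zero (by rw [Ne, map_eq_zero]; exact hc) hf
  exact ⟨c, hc, ⟨_, hu⟩, rfl, red_ne_zero_of_inv red hne hu hinv⟩

include hp hA in
/-- [S44/SP-INST-FROB] -/
theorem exists_frobD
    (hgal : ∀ σ : GQ, arithmeticGalois (modularFunctionFieldFull M) σ • tauF H hrM = tauF H hrM)
    (hRD : RedData A (tauL H hrM) (FN M) (KL.VV A (tauL H hrM) (FN M)) red)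
    (hCONST : ∀ z : Ft, z ≠ 0 → (∀ x : Place (KL.kk A) Ft, x.ord z = 0) →
        ∃ c : KL.kk A, z = algebraMap (KL.kk A) Ft c)
    (oo : Place Kb (FN M)) (D : Divisor Kb (FN M)) :
    ∃ (γ : SemilinearAut Kb (FN M)) (γb : SemilinearAut (KL.kk A) Ft) (q : ℕ),
      FrobD (KL.VV A (tauL H hrM) (FN M)) red γ γb q (tb hRD) oo ∧ γ • D = D := by
  have hτ := transcendental_tauL H hrM
  obtain ⟨φ, hφ⟩ := Fermat.Agent.Frob.exists_isFrobeniusAt A hp hA
  obtain ⟨K1, hK1, h1⟩ := S17.WMW.smooth_div M D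
  obtain ⟨K2, hK2, h2⟩ := S17.WMW.smooth_place M oo
  have hK : FiniteDimensional ℚ ↥(K1 ⊔ K2) := IntermediateField.finiteDimensional_sup K1 K2
  have hfi := Fermat.Agent.S55.E.finiteIndex_fixingSubgroup (K1 ⊔ K2) hK
  obtain ⟨e, he, -, hmem⟩ := Subgroup.exists_pow_mem_of_index_ne_zero hfi.index_ne_zero φ
  have hσ := IsFrob.pow hφ e
  have hγ := presA_of_dec H hrM A hgal hσ.mem_decompositionSubgroup
  have : IsAlgClosed (KL.kk A) := isAlgClosed_kk A
  refine ⟨_, hγ.gb hRD, p ^ e, ⟨hγ.compat hRD, ?_, ?_, hγ.gb_smul_tb hRD, tb_ne_const hRD hτ, ?_,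
    resK_of_redData hRD hτ, hCONST⟩, ?_⟩
  · calc 2 ≤ p := hp.two_le
      _ = p ^ 1 := (pow_one p).symm
      _ ≤ p ^ e := Nat.pow_le_pow_right hp.pos he
  · intro c
    obtain ⟨a, rfl⟩ := IsLocalRing.residue_surjective c
    rw [hγ.baseAut_gb, hγ.gk_residue]
    exact residue_frob hσ a
  · exact h2 _ (IntermediateField.fixingSubgroup_antitone le_sup_right hmem)
  · exact h1 _ (IntermediateField.fixingSubgroup_antitone le_sup_left hmem)

include hr hp hA hpM in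
/-- **[S44/SP-INST]** the modular instance of `SpD.core` -/
theorem core_mod
    (hgal : ∀ σ : GQ, arithmeticGalois (modularFunctionFieldFull M) σ • tauF H hrM = tauF H hrM)
    (hRD : RedData A (tauL H hrM) (FN M) (KL.VV A (tauL H hrM) (FN M)) red)
    (ub : Ft) (hub : ub ≠ 0) (hpu : ∀ x : Place (KL.kk A) Ft, (p : ℤ) ∣ x.ord ub) :
    ∃ (n : ℕ) (uz : KL.VV A (tauL H hrM) (FN M)) (c : KL.kk A) (hbar : Ft),
      c ≠ 0 ∧ hbar ≠ 0 ∧
      red uz = algebraMap (KL.kk A) Ft c * ub ^ (p ^ n) * hbar ^ (p ^ (n + 1)) ∧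
      ∀ P : Place Kb (FN M), ((p ^ (n + 1) : ℕ) : ℤ) ∣ P.ord (uz : FN M) := by
  obtain ⟨r, hSp, hCONST⟩ := exists_spD H hr hrM A hp hA hpM hRD
  have : IsAlgClosed (KL.kk A) := isAlgClosed_kk A
  by_cases hne : Nonempty (Place (KL.kk A) Ft)
  swap
  · -- no place at all: `ub` is constant
    obtain ⟨c, hc⟩ := hCONST ub hub (fun x => absurd ⟨x⟩ hne)
    have hc0 : c ≠ 0 := by
      rintro rfl
      rw [map_zero] at hc
      exact hub hc
    refine ⟨0, 1, c⁻¹, 1, inv_ne_zero hc0, one_ne_zero, ?_, fun P => ?_⟩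
    · rw [map_one, one_pow, mul_one, pow_zero, pow_one, hc, ← map_mul, inv_mul_cancel₀ hc0, map_one]
    · rw [OneMemClass.coe_one, Place.ord_one]
      exact dvd_zero _
  obtain ⟨x₁⟩ := hne
  obtain ⟨x₀, -⟩ := hSp.onto x₁
  refine hSp.core hp (fun x => PicDiv.pic0_divisible (isFF_FN M) p hp.pos x) (fun n => ?_)
    (t := tb hRD) (oo := x₀) (exists_frobD H hrM A hp hA hgal hRD hCONST x₀) ub hub hpu
  have h := S27.lefschetz (fun F' _ _ h N hN => S27.complex_case F' h N hN) Kb (FN M) (isFF_FN M)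
    (p ^ n) (pow_pos hp.pos n)
  have hfin : Finite (Pic0.torsion Kb (FN M) (p ^ n)) :=
    Nat.finite_of_card_ne_zero (by rw [h]; exact pow_ne_zero _ (pow_ne_zero _ hp.ne_zero))
  have h2 : {t : Pic0 Kb (FN M) | p ^ n • t = 0} =
      (Pic0.torsion Kb (FN M) (p ^ n) : Set (Pic0 Kb (FN M))) := by
    ext t
    rw [Set.mem_ofPred_eq, SetLike.mem_coe, Pic0.mem_torsion, natCast_zsmul]
  rw [h2]
  exact hfin

/-- the instance for the Hauptmodul of `S18/Haupt.lean` -/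
theorem core_haupt {M r0 : ℕ} [NeZero M] [NeZero r0] (hr : r0 = 2 ∨ r0 = 3) (hrM : r0 ∣ M)
    (A : ValuationSubring Kb) {p : ℕ} (hp : p.Prime) (hA : A.LiesOverPrime p) (hpM : ¬ p ∣ M)
    {Ft : Type*} [Field Ft] [Algebra (KL.kk A) Ft]
    {red : KL.VV A (tauL (haupt M r0 hr hrM) hrM) (FN M) →+* Ft}
    (hRD : RedData A (tauL (haupt M r0 hr hrM) hrM) (FN M)
      (KL.VV A (tauL (haupt M r0 hr hrM) hrM) (FN M)) red)
    (ub : Ft) (hub : ub ≠ 0) (hpu : ∀ x : Place (KL.kk A) Ft, (p : ℤ) ∣ x.ord ub) :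
    ∃ (n : ℕ) (uz : KL.VV A (tauL (haupt M r0 hr hrM) hrM) (FN M)) (c : KL.kk A) (hbar : Ft),
      c ≠ 0 ∧ hbar ≠ 0 ∧
      red uz = algebraMap (KL.kk A) Ft c * ub ^ (p ^ n) * hbar ^ (p ^ (n + 1)) ∧
      ∀ P : Place Kb (FN M), ((p ^ (n + 1) : ℕ) : ℤ) ∣ P.ord (uz : FN M) :=
  core_mod (haupt M r0 hr hrM) hr hrM A hp hA hpM (gal_tauF M r0 hr hrM) hRD ub hub hpu

end Main

end Fermat.Agent.S44.SP
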