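import Fermat.Agent.S44.SP.FinDefs
import Fermat.Agent.S37.BrMain

/-!
# S44 / SP-INST (abstract `KL` level)   (helper18)

`K ⊃ A`, `L = K(τ)`, `F / L` finite, `O = VV A τ F`, `red : O → Ft` (`S37.RedData`).
* `red_eO` : `red (S(τ)) = S̄(t)`, `t = red τ`; `red_eO_ne_zero` for primitive `S`;
* `resK_of_redData` : `ResK (kk A) Ft`;
* `t_ne_const`;
* `exists_frob` : a semilinear automorphism `γ` of `F / K` fixing `τ`, preserving `A` and inducing `x ↦ x ^ q` on `kk A` descends to
  `γb : SemilinearAut (kk A) Ft` with `Compat O red γ γb`, `baseAut γb c = c ^ q`, `γb • t = t`.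
-/

set_option autoImplicit false

open AlgebraicCurve Polynomial Fermat.Agent.S37 Fermat.Agent.S18.KL

noncomputable section

namespace Fermat.Agent.S44.SP

variable {K : Type*} [Field K] {A : ValuationSubring K}
variable {L : Type*} [Field L] [Algebra K L] {τ : L}
variable {F : Type*} [Field F] [Algebra L F] [Algebra K F] [IsScalarTower K L F]
variable {Ft : Type*} [Field Ft] [Algebra (kk A) Ft] {O : Subring F} {red : O →+* Ft}

/-- evaluation `A[X] → O` -/
def eO (h : RedData A τ F O red) : (↥A)[X] →+* O :=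
  (evE A τ F).codRestrict O fun P => h.C0_le (evE_mem_C0 A τ F P)

theorem coe_eO (h : RedData A τ F O red) (P : (↥A)[X]) : ((eO h P : O) : F) = evE A τ F P := rfl

/-- `t = red τ` -/
def tb (h : RedData A τ F O red) : Ft := red (eO h X)

theorem red_eO (h : RedData A τ F O red) (P : (↥A)[X]) :
    red (eO h P) = aeval (tb h) (redP A P) := by
  have : red.comp (eO h) = ((aeval (tb h) : (kk A)[X] →ₐ[kk A] Ft) : (kk A)[X] →+* Ft).comp (redP A) := by
    apply Polynomial.ringHom_ext
    · intro a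
      have e1 : eO h (C a) = ⟨algebraMap K F (a : K), h.C0_le (algebraMap_mem_C0 A τ F a)⟩ :=
        Subtype.ext (by rw [coe_eO, evE_C_eq])
      simp only [RingHom.comp_apply]
      rw [e1, h.alg]
      simp [redP]
    · simp [redP, tb]
  exact congrArg (fun f => f P) this

theorem red_eO_ne_zero (h : RedData A τ F O red) (hτ : Transcendental K τ) {S : (↥A)[X]}
    (hS : redP A S ≠ 0) : red (eO h S) ≠ 0 := by
  have hmem : algebraMap L F (evL A τ S)⁻¹ ∈ O := by
    rw [h.hO]
    exact algebraMap_mem_VV A hτ (inv_evL_mem_OG A hτ hS)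
  have h1 : eO h S * ⟨_, hmem⟩ = 1 := by
    apply Subtype.ext
    show evE A τ F S * algebraMap L F (evL A τ S)⁻¹ = 1
    rw [evE_apply, ← map_mul, mul_inv_cancel₀ (evL_ne_zero A hτ hS), map_one]
  intro h0
  have h2 := congrArg red h1
  rw [map_mul, h0, zero_mul, map_one] at h2
  exact zero_ne_one h2

theorem tb_ne_const (h : RedData A τ F O red) (hτ : Transcendental K τ) (c : kk A) :
    tb h ≠ algebraMap (kk A) Ft c := by
  obtain ⟨a, rfl⟩ := IsLocalRing.residue_surjective c
  have hS : redP A (X - C a) ≠ 0 := by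
    have : redP A (X - C a) = X - C (IsLocalRing.residue A a) := by simp [redP]
    rw [this]
    exact X_sub_C_ne_zero _
  have h1 := red_eO_ne_zero h hτ hS
  rw [red_eO] at h1
  intro h2
  apply h1
  simp [redP, h2]

/-- elements of `C0` reduce to elements integral over `k[t]` -/
theorem isIntegral_red (h : RedData A τ F O red) {w : F} (hw : w ∈ C0 A τ F) :
    IsIntegral (Algebra.adjoin (kk A) {tb h}) (red ⟨w, h.C0_le hw⟩) := by
  obtain ⟨Q, hQ, hQ0⟩ := hw
  let ψ : (↥A)[X] →+* Algebra.adjoin (kk A) {tb h} :=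
    (((aeval (tb h) : (kk A)[X] →ₐ[kk A] Ft) : (kk A)[X] →+* Ft).comp (redP A)).codRestrict
      (Algebra.adjoin (kk A) {tb h}).toSubring (fun P => by
        show aeval (tb h) (redP A P) ∈ Algebra.adjoin (kk A) {tb h}
        rw [Algebra.adjoin_singleton_eq_range_aeval]
        exact ⟨_, rfl⟩)
  refine ⟨Q.map ψ, hQ.map ψ, ?_⟩
  rw [eval₂_map]
  have e1 : (algebraMap (Algebra.adjoin (kk A) {tb h}) Ft).comp ψ = red.comp (eO h) := by
    refine RingHom.ext fun P => ?_
    exact (red_eO h P).symm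
  rw [e1, ← Polynomial.hom_eval₂]
  have e2 : eval₂ (eO h) (⟨w, h.C0_le ⟨Q, hQ, hQ0⟩⟩ : O) Q = 0 := by
    apply Subtype.ext
    have := Polynomial.hom_eval₂ Q (eO h) O.subtype (⟨w, h.C0_le ⟨Q, hQ, hQ0⟩⟩ : O)
    rw [Subring.coe_subtype] at this
    rw [this]
    exact hQ0
  rw [e2, map_zero]

theorem isAlgebraic_Ft (h : RedData A τ F O red) (hτ : Transcendental K τ) :
    Algebra.IsAlgebraic (Algebra.adjoin (kk A) {tb h}) Ft := by
  constructor
  intro z
  obtain ⟨y, rfl⟩ := h.surj z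
  have hy : (y : F) ∈ VV A τ F := by rw [← h.hO]; exact y.2
  obtain ⟨S, hS, hSy⟩ := hy
  have h1 := (isIntegral_red h hSy).isAlgebraic
  have e : (⟨evE A τ F S * (y : F), h.C0_le hSy⟩ : O) = eO h S * y := Subtype.ext rfl
  rw [e, map_mul] at h1
  have h2 : IsAlgebraic (Algebra.adjoin (kk A) {tb h}) (red (eO h S)) := by
    have hm : red (eO h S) ∈ Algebra.adjoin (kk A) {tb h} := by
      rw [red_eO, Algebra.adjoin_singleton_eq_range_aeval]
      exact ⟨_, rfl⟩
    exact isAlgebraic_algebraMap (⟨_, hm⟩ : Algebra.adjoin (kk A) {tb h})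
  exact IsAlgebraic.of_mul (mem_nonZeroDivisors_of_ne_zero (red_eO_ne_zero h hτ hS)) h2 h1

theorem resK_of_redData [IsAlgClosed (kk A)] (h : RedData A τ F O red) (hτ : Transcendental K τ) :
    ResK (kk A) Ft :=
  resK_of_isAlgebraic (tb h) (isAlgebraic_Ft h hτ)

/-! ### semilinear automorphisms preserving the model -/

/-- `γ` fixes `τ` and preserves `A` -/
structure PresA (A : ValuationSubring K) (τ : L) (γ : SemilinearAut K F) : Prop where
  tau : γ • algebraMap L F τ = algebraMap L F τ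
  memA : ∀ a ∈ A, SemilinearAut.baseAut γ a ∈ A
  memA' : ∀ a ∈ A, (SemilinearAut.baseAut γ).symm a ∈ A

variable {γ : SemilinearAut K F}

theorem PresA.inv (hγ : PresA A τ γ) : PresA A τ γ⁻¹ where
  tau := by
    conv_lhs => rw [← hγ.tau]
    rw [inv_smul_smul]
  memA := hγ.memA'
  memA' := hγ.memA

/-- the automorphism of `A` -/
def PresA.gA (hγ : PresA A τ γ) : A ≃+* A where
  toFun a := ⟨SemilinearAut.baseAut γ a, hγ.memA a a.2⟩
  invFun a := ⟨(SemilinearAut.baseAut γ).symm a, hγ.memA' a a.2⟩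
  left_inv a := Subtype.ext (by simp)
  right_inv a := Subtype.ext (by simp)
  map_mul' a b := Subtype.ext (by simp)
  map_add' a b := Subtype.ext (by simp)

theorem PresA.coe_gA (hγ : PresA A τ γ) (a : A) :
    ((hγ.gA a : A) : K) = SemilinearAut.baseAut γ a := rfl

/-- the automorphism of `kk A` -/
def PresA.gk (hγ : PresA A τ γ) : kk A ≃+* kk A := IsLocalRing.ResidueField.mapEquiv hγ.gA

theorem PresA.gk_residue (hγ : PresA A τ γ) (a : A) :
    hγ.gk (IsLocalRing.residue A a) = IsLocalRing.residue A (hγ.gA a) := by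
  rw [PresA.gk, IsLocalRing.ResidueField.mapEquiv_apply, IsLocalRing.ResidueField.map_residue]
  rfl

/-- the action on polynomials -/
def PresA.th (hγ : PresA A τ γ) : (↥A)[X] →+* (↥A)[X] := Polynomial.mapRingHom (hγ.gA : A →+* A)

theorem PresA.smul_evE (hγ : PresA A τ γ) (P : (↥A)[X]) :
    γ • evE A τ F P = evE A τ F (hγ.th P) := by
  have : ((SemilinearAut.toRingAut γ : F ≃+* F) : F →+* F).comp (evE A τ F) =
      (evE A τ F).comp hγ.th := by
    apply Polynomial.ringHom_ext
    · intro a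
      simp only [RingHom.comp_apply, PresA.th, coe_mapRingHom, map_C]
      rw [evE_C_eq, evE_C_eq]
      exact SemilinearAut.commutes γ _
    · simp only [RingHom.comp_apply, PresA.th, coe_mapRingHom, map_X]
      rw [evE_apply, evL_X]
      exact hγ.tau
  exact congrArg (fun f => f P) this

theorem PresA.redP_th (hγ : PresA A τ γ) (P : (↥A)[X]) :
    redP A (hγ.th P) = (redP A P).map (hγ.gk : kk A →+* kk A) := by
  simp only [redP, PresA.th, coe_mapRingHom, Polynomial.map_map]
  congr 1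

theorem PresA.redP_th_ne_zero (hγ : PresA A τ γ) {P : (↥A)[X]} (hP : redP A P ≠ 0) :
    redP A (hγ.th P) ≠ 0 := by
  rw [hγ.redP_th]
  exact (Polynomial.map_ne_zero_iff (hγ.gk : kk A →+* kk A).injective).mpr hP

theorem PresA.smul_mem_C0 (hγ : PresA A τ γ) {x : F} (hx : x ∈ C0 A τ F) : γ • x ∈ C0 A τ F := by
  obtain ⟨Q, hQ, hQ0⟩ := hx
  refine ⟨Q.map hγ.th, hQ.map _, ?_⟩
  rw [eval₂_map]
  have e : (evE A τ F).comp hγ.th =
      ((SemilinearAut.toRingAut γ : F ≃+* F) : F →+* F).comp (evE A τ F) :=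
    RingHom.ext fun P => (hγ.smul_evE P).symm
  rw [e]
  have := Polynomial.hom_eval₂ Q (evE A τ F) ((SemilinearAut.toRingAut γ : F ≃+* F) : F →+* F) x
  rw [hQ0, map_zero] at this
  exact this.symm

theorem PresA.smul_mem_VV (hγ : PresA A τ γ) {x : F} (hx : x ∈ VV A τ F) : γ • x ∈ VV A τ F := by
  obtain ⟨S, hS, hSx⟩ := hx
  refine ⟨hγ.th S, hγ.redP_th_ne_zero hS, ?_⟩
  rw [← hγ.smul_evE, ← smul_mul']
  exact hγ.smul_mem_C0 hSx

theorem PresA.gA_mem_maximalIdeal (hγ : PresA A τ γ) {a : A}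
    (ha : a ∈ IsLocalRing.maximalIdeal A) : hγ.gA a ∈ IsLocalRing.maximalIdeal A := by
  rw [← IsLocalRing.residue_eq_zero_iff] at ha ⊢
  rw [← hγ.gk_residue, ha, map_zero]

theorem PresA.smul_SmV (hγ : PresA A τ γ) {x : F} (hx : SmV A τ F x) : SmV A τ F (γ • x) := by
  obtain ⟨a, ha, y, hy, rfl⟩ := hx
  refine ⟨hγ.gA a, hγ.gA_mem_maximalIdeal ha, γ • y, hγ.smul_mem_VV hy, ?_⟩
  rw [smul_mul', hγ.smul_evE]
  simp [PresA.th]

/-- the endomorphism of `O` -/
def PresA.gO (hγ : PresA A τ γ) (h : RedData A τ F O red) : O →+* O :=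
  (((SemilinearAut.toRingAut γ : F ≃+* F) : F →+* F).comp O.subtype).codRestrict O fun y => by
    have hy : (y : F) ∈ VV A τ F := by rw [← h.hO]; exact y.2
    have h1 : ∀ x : F, x ∈ VV A τ F → x ∈ O := fun x hx => by rw [h.hO]; exact hx
    exact h1 _ (hγ.smul_mem_VV hy)

theorem PresA.coe_gO (hγ : PresA A τ γ) (h : RedData A τ F O red) (y : O) :
    ((hγ.gO h y : O) : F) = γ • (y : F) := rfl

/-- the endomorphism of `Ft` -/
def PresA.gF (hγ : PresA A τ γ) (h : RedData A τ F O red) : Ft →+* Ft :=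
  RingHom.liftOfSurjective red h.surj ⟨red.comp (hγ.gO h), by
    intro y hy
    rw [RingHom.mem_ker] at hy ⊢
    rw [RingHom.comp_apply, h.ker]
    exact hγ.smul_SmV ((h.ker y).mp hy)⟩

theorem PresA.gF_red (hγ : PresA A τ γ) (h : RedData A τ F O red) (y : O) :
    hγ.gF h (red y) = red (hγ.gO h y) :=
  RingHom.liftOfRightInverse_comp_apply red _ _ _ y

/-- the automorphism of `Ft` -/
def PresA.gFe (hγ : PresA A τ γ) (h : RedData A τ F O red) : Ft ≃+* Ft :=
  RingEquiv.ofRingHom (hγ.gF h) (hγ.inv.gF h)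
    (by
      refine RingHom.ext fun z => ?_
      obtain ⟨y, rfl⟩ := h.surj z
      rw [RingHom.comp_apply, PresA.gF_red, PresA.gF_red, RingHom.id_apply]
      congr 1
      apply Subtype.ext
      rw [PresA.coe_gO, PresA.coe_gO, smul_inv_smul])
    (by
      refine RingHom.ext fun z => ?_
      obtain ⟨y, rfl⟩ := h.surj z
      rw [RingHom.comp_apply, PresA.gF_red, PresA.gF_red, RingHom.id_apply]
      congr 1
      apply Subtype.ext
      rw [PresA.coe_gO, PresA.coe_gO, inv_smul_smul])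

/-- the semilinear automorphism of `Ft / kk A` induced by `γ` -/
def PresA.gb (hγ : PresA A τ γ) (h : RedData A τ F O red) : SemilinearAut (kk A) Ft :=
  ⟨(hγ.gFe h, hγ.gk), by
    intro c
    obtain ⟨a, rfl⟩ := IsLocalRing.residue_surjective c
    show hγ.gF h (algebraMap (kk A) Ft (IsLocalRing.residue A a)) =
      algebraMap (kk A) Ft (hγ.gk (IsLocalRing.residue A a))
    rw [hγ.gk_residue, ← h.alg a (h.C0_le (algebraMap_mem_C0 A τ F a)),
      ← h.alg (hγ.gA a) (h.C0_le (algebraMap_mem_C0 A τ F _)), PresA.gF_red]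
    congr 1
    apply Subtype.ext
    rw [PresA.coe_gO]
    exact SemilinearAut.smul_algebraMap γ _⟩

theorem PresA.gb_smul_red (hγ : PresA A τ γ) (h : RedData A τ F O red) (y : O) :
    hγ.gb h • red y = red (hγ.gO h y) := hγ.gF_red h y

theorem PresA.baseAut_gb (hγ : PresA A τ γ) (h : RedData A τ F O red) (c : kk A) :
    SemilinearAut.baseAut (hγ.gb h) c = hγ.gk c := rfl

theorem PresA.compat (hγ : PresA A τ γ) (h : RedData A τ F O red) :
    Compat O red γ (hγ.gb h) where
  mem := fun y => (hγ.gO h y).2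
  comm := fun y => (hγ.gb_smul_red h y).symm

theorem PresA.gb_smul_tb (hγ : PresA A τ γ) (h : RedData A τ F O red) :
    hγ.gb h • tb h = tb h := by
  rw [tb, hγ.gb_smul_red]
  congr 1
  apply Subtype.ext
  rw [PresA.coe_gO, coe_eO, hγ.smul_evE]
  simp [PresA.th]

end Fermat.Agent.S44.SP
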