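import Fermat.Agent.S44.SP.Glue
import Fermat.Agent.S44.SP.OutX

/-!
# S44 / SP : the export of the block SP (= `IfSP`)          (helper20, key `S44/SP-MAIN`)

`sp_main` : level `M` (`r0 ∣ M`, `r0 ∈ {2,3}`, `q ∤ M`), `A` over `q`, `v : FN (M q)` with integral `q`-expansion reducing to `ub`,
`ub ∈ Kap A M`, `PDivBar A M q ub`, `ub` not a `q`-th power in `k((q))`, `T_ℓ v = v^(a ℓ) g^q` (`ℓ ∈ S`)  ⟹  `SpOut q M S a`.
-/

set_option autoImplicit false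
set_option synthInstance.maxHeartbeats 400000

open HahnSeries ModularCurve AlgebraicCurve Fermat.Agent.S24 Fermat.Agent.S29 Fermat.Agent.S18
  Fermat.Agent.ES Fermat.Agent.ES.Alg Fermat.Agent.S33 CongruenceSubgroup Fermat.Agent.S41 Fermat.Agent.S31

noncomputable section

namespace Fermat.Agent.S44.SP

/-- **SP** -/
theorem sp_main {q : Nat.Primes} {M r0 : ℕ} [NeZero M] [NeZero r0] [NeZero (q : ℕ)]
    (hr : r0 = 2 ∨ r0 = 3) (hrM : r0 ∣ M) (A : ValuationSubring Kb) (hA : A.LiesOverPrime (q : ℕ))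
    (hqM : ¬ (q : ℕ) ∣ M) {S : Set ℕ} {a : ℕ → ℤ} {ub : LaurentSeries (kA A)}
    (hnp : ¬ ∃ w : LaurentSeries (kA A), ub = w ^ (q : ℕ)) (hK : ub ∈ Kap A M)
    (hP : PDivBar A M (q : ℕ) ub) {v : FN (M * (q : ℕ))} (hv : IntRed A (M * (q : ℕ)) v ub)
    (hT : ∀ (ℓ : ℕ) (hℓ : ℓ.Prime), ¬ ℓ ∣ M * (q : ℕ) → ℓ ∈ S →
      ∃ g : FN (M * (q : ℕ)), @Tl (M * (q : ℕ)) ℓ _ ⟨hℓ.ne_zero⟩ v = v ^ (a ℓ) * g ^ (q : ℕ)) :
    SpOut q M S a := by
  haveI : CharP (kA A) (q : ℕ) := charP_kA q.2 hA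
  haveI : IsAlgClosed (kA A) := S37.isAlgClosed_kk A
  have hub : ub ≠ 0 := by
    rintro rfl
    exact hnp ⟨0, (zero_pow q.2.ne_zero).symm⟩
  exact spOut_of_om (fun x => IsAlgClosed.exists_pow_nat_eq x q.2.pos) hnp hv hT
    (sp_core hr hrM A q.2 hA hqM hub hK hP)

end Fermat.Agent.S44.SP
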