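import Fermat.Agent.S37.Riemann
import Fermat.Agent.S37.ChartGlueAux
import Fermat.Prelude.Def_AlgebraicCurve_BaseChangeGalois

/-!
# S44 / SP-MAP : abstract place reduction (helper18)

`F / K` a function field (char. `0`, `K` algebraically closed), `Ft / k` any field extension, `O ⊂ F` a subring (the Gauss valuation ring),
`red : O → Ft`, `r : Place K F → Place k Ft` with **(RED)** `r_* div y = div (red y)`  (this is what `S37.exists_reduction` exports).

Everything below follows from (RED) alone (no charts):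
* `SpD.onto`  : `r` is onto;
* `SpD.uniq`  : `r` is determined by (RED)  (`IsFF.rigid`);
* `SpD.eqv`   : a semilinear automorphism `γ` of `F` which preserves `O` and induces `γb` on `Ft` satisfies `r (γ • P) = γb • r P`;
* `NN r` : the subgroup `{[D] : r_* D = 0}` of `Pic0 K F`;  `YY r := Pic0 K F ⧸ NN r`, `sp r`, `hb`  (input of `SP.exists_torsion_lift`);
* `sp_eq_iff` : `sp [D] = sp [D'] ↔ r_* D = r_* D' + r_* div f` for some `f`.
-/

set_option autoImplicit false

open AlgebraicCurve Fermat.Agent.S37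

noncomputable section

namespace Fermat.Agent.S44.SP

variable {K F k Ft : Type*} [Field K] [Field F] [Algebra K F] [Field k] [Field Ft] [Algebra k Ft]

/-- abstract place reduction -/
structure SpD (O : Subring F) (red : O →+* Ft) (r : Place K F → Place k Ft) : Prop where
  ff : IsFF K F
  surj : Function.Surjective red
  scale : ∀ f : F, f ≠ 0 → ∃ c : K, c ≠ 0 ∧ ∃ y : O, (y : F) = algebraMap K F c * f ∧ red y ≠ 0
  RED : ∀ y : O, red y ≠ 0 → ∀ D : Divisor K F, (∀ P, D P = P.ord (y : F)) →
    ∀ x : Place k Ft, Finsupp.mapDomain r D x = x.ord (red y)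

variable {O : Subring F} {red : O →+* Ft} {r r' : Place K F → Place k Ft}

theorem ne_zero_of_red_ne_zero {y : O} (h : red y ≠ 0) : (y : F) ≠ 0 := by
  intro h0
  apply h
  have : y = 0 := Subtype.ext h0
  rw [this, map_zero]

variable [IsAlgClosed K] [CharZero K]

/-- `r` is onto -/
theorem SpD.onto (h : SpD O red r) (x : Place k Ft) : ∃ P, r P = x := by
  classical
  obtain ⟨π, hπ⟩ := IsDiscreteValuationRing.exists_irreducible x.toValuationSubring
  have hord : x.ord (π : Ft) = 1 := x.ord_coe_irreducible hπ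
  obtain ⟨y, hy⟩ := h.surj (π : Ft)
  have hy0 : red y ≠ 0 := by
    rw [hy]
    intro h0
    rw [h0] at hord
    simp at hord
  obtain ⟨D, hD, -⟩ := h.ff.hasPrincipalDivisors.exists_divisor (y : F) (ne_zero_of_red_ne_zero hy0)
  have h1 := h.RED y hy0 D hD x
  rw [hy, hord] at h1
  by_contra hne
  push Not at hne
  rw [Finsupp.mapDomain_of_notMem_range] at h1
  · exact zero_ne_one h1
  · rintro ⟨P, hP⟩
    exact hne P hP

omit [IsAlgClosed K] [CharZero K] in
/-- the divisor of `c * f` -/
theorem ord_const_mul (P : Place K F) {c : K} (hc : c ≠ 0) {f : F} (hf : f ≠ 0) :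
    P.ord (algebraMap K F c * f) = P.ord f := by
  have hc' : algebraMap K F c ≠ 0 := by rw [Ne, map_eq_zero]; exact hc
  rw [P.ord_mul hc' hf, S24.Diff.ord_algebraMap, zero_add]

/-- (RED) for arbitrary functions: `r_* div f` only depends on `(O, red)` -/
theorem SpD.mapDomain_eq (h : SpD O red r) (h' : SpD O red r') (D : Divisor K F)
    (hD : D ∈ Divisor.principal (K := K) (F := F)) :
    Finsupp.mapDomain r D = Finsupp.mapDomain r' D := by
  obtain ⟨f, hf, hDf⟩ := hD
  obtain ⟨c, hc, y, hy, hy0⟩ := h.scale f hf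
  have hDy : ∀ P, D P = P.ord (y : F) := fun P => by rw [hDf P, hy, ord_const_mul P hc hf]
  ext x
  rw [h.RED y hy0 D hDy x, h'.RED y hy0 D hDy x]

/-- `r` is determined by (RED) -/
theorem SpD.uniq (h : SpD O red r) (h' : SpD O red r') : r = r' := by
  classical
  funext P₀
  by_contra hne
  set x := r P₀ with hx
  let a : Divisor K F →+ ℤ :=
    (Finsupp.applyAddHom x).comp (Finsupp.mapDomain.addMonoidHom r) -
      (Finsupp.applyAddHom x).comp (Finsupp.mapDomain.addMonoidHom r')
  have ha : ∀ D, a D = Finsupp.mapDomain r D x - Finsupp.mapDomain r' D x := fun D => rfl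
  have hs : ∀ v : Place K F, a (Finsupp.single v 1) =
      (if r v = x then 1 else 0) - (if r' v = x then 1 else 0) := by
    intro v
    rw [ha, Finsupp.mapDomain_single, Finsupp.mapDomain_single, Finsupp.single_apply,
      Finsupp.single_apply]
  have hrig := h.ff.rigid a 1 (fun v => by
    rw [hs]
    split_ifs <;> simp) (fun D hD => by rw [ha, h.mapDomain_eq h' D hD, sub_self])
  obtain ⟨P₁, hP₁⟩ := h'.onto x
  have h0 := hrig (Finsupp.single P₀ 1 - Finsupp.single P₁ 1) (by
    rw [Divisor.mem_degZero, map_sub, Divisor.degree_single, Divisor.degree_single,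
      h.ff.deg_eq_one, h.ff.deg_eq_one]
    simp)
  rw [map_sub, hs, hs, if_pos hx.symm, if_neg (fun h => hne (by rw [h])), if_pos hP₁] at h0
  split_ifs at h0 <;> omega

/-- a semilinear automorphism of `F` compatible with the reduction -/
structure Compat (O : Subring F) (red : O →+* Ft) (γ : SemilinearAut K F)
    (γb : SemilinearAut k Ft) : Prop where
  mem : ∀ y : O, γ • (y : F) ∈ O
  comm : ∀ y : O, red ⟨γ • (y : F), mem y⟩ = γb • red y

omit [IsAlgClosed K] [CharZero K] in
theorem smul_divisor_eq (γ : SemilinearAut K F) {D : Divisor K F} {f : F}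
    (hD : ∀ P, D P = P.ord f) (P : Place K F) : (γ • D) P = P.ord (γ • f) := by
  rw [SemilinearAut.divisor_smul_apply, hD]
  have := SemilinearAut.ord_smul γ (γ⁻¹ • P) f
  rw [smul_inv_smul] at this
  exact this.symm

/-- equivariance of the place reduction -/
theorem SpD.eqv (h : SpD O red r) {γ : SemilinearAut K F} {γb : SemilinearAut k Ft}
    (hγ : Compat O red γ γb) (P : Place K F) : r (γ • P) = γb • r P := by
  classical
  have h' : SpD O red (fun P => γb⁻¹ • r (γ • P)) := by
    refine ⟨h.ff, h.surj, h.scale, fun y hy D hD x => ?_⟩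
    have e1 : Finsupp.mapDomain (fun P => γb⁻¹ • r (γ • P)) D =
        Finsupp.mapDomain (fun z : Place k Ft => γb⁻¹ • z) (Finsupp.mapDomain r (γ • D)) := by
      rw [SemilinearAut.divisor_smul_def, ← Finsupp.mapDomain_comp, ← Finsupp.mapDomain_comp]
      rfl
    have e2 : x = γb⁻¹ • (γb • x) := (inv_smul_smul γb x).symm
    rw [e1]
    conv_lhs => rw [e2]
    rw [Finsupp.mapDomain_apply (MulAction.injective γb⁻¹)]
    have hy' : red ⟨γ • (y : F), hγ.mem y⟩ ≠ 0 := by
      rw [hγ.comm y]
      simpa using hy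
    rw [h.RED ⟨γ • (y : F), hγ.mem y⟩ hy' (γ • D) (smul_divisor_eq γ hD) (γb • x), hγ.comm y,
      SemilinearAut.ord_smul]
  have := congrFun (h.uniq h') P
  rw [this, smul_inv_smul]

omit [IsAlgClosed K] [CharZero K] in
/-- `r_* (γ D) = γb (r_* D)` -/
theorem mapDomain_smul {γ : SemilinearAut K F} {γb : SemilinearAut k Ft}
    (he : ∀ P, r (γ • P) = γb • r P) (D : Divisor K F) :
    Finsupp.mapDomain r (γ • D) = γb • Finsupp.mapDomain r D := by
  rw [SemilinearAut.divisor_smul_def, SemilinearAut.divisor_smul_def, ← Finsupp.mapDomain_comp,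
    ← Finsupp.mapDomain_comp]
  congr 1
  funext P
  exact he P

/-! ### the quotient `Y` -/

omit [IsAlgClosed K] [CharZero K] in
variable (r) in
/-- classes which have a representative with trivial reduction -/
def NN : AddSubgroup (Pic0 K F) where
  carrier := {c | ∃ D : Divisor.degZero (K := K) (F := F), Pic0.mk D = c ∧
    Finsupp.mapDomain r (D : Divisor K F) = 0}
  zero_mem' := ⟨0, rfl, by simp⟩
  add_mem' := by
    rintro _ _ ⟨D, rfl, hD⟩ ⟨E, rfl, hE⟩
    exact ⟨D + E, rfl, by rw [AddSubgroup.coe_add, Finsupp.mapDomain_add, hD, hE, add_zero]⟩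
  neg_mem' := by
    rintro _ ⟨D, rfl, hD⟩
    refine ⟨-D, rfl, ?_⟩
    have : Finsupp.mapDomain r ((-D : Divisor.degZero (K := K) (F := F)) : Divisor K F) =
        - Finsupp.mapDomain r (D : Divisor K F) :=
      map_neg (Finsupp.mapDomain.addMonoidHom r) (D : Divisor K F)
    rw [this, hD, neg_zero]

variable (r) in
/-- `Pic⁰` of the special fibre -/
abbrev YY : Type _ := Pic0 K F ⧸ NN r

variable (r) in
/-- the specialisation map -/
def sp : Pic0 K F →+ YY r := QuotientAddGroup.mk' (NN r)

omit [IsAlgClosed K] [CharZero K] in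
theorem sp_surjective : Function.Surjective (sp r) := QuotientAddGroup.mk'_surjective _

omit [IsAlgClosed K] [CharZero K] in
theorem sp_eq_zero_iff (c : Pic0 K F) : sp r c = 0 ↔ c ∈ NN r :=
  QuotientAddGroup.eq_zero_iff c

theorem principal_le_degZero (hff : IsFF K F) {E : Divisor K F}
    (hE : E ∈ Divisor.principal (K := K) (F := F)) : E ∈ Divisor.degZero (K := K) (F := F) := by
  obtain ⟨f, hf, hEf⟩ := hE
  obtain ⟨E', hE', h0⟩ := hff.hasPrincipalDivisors.exists_divisor f hf
  have : E = E' := by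
    ext P
    rw [hEf, hE']
  rw [this]
  exact h0

/-- `sp [D] = sp [D']` iff `r_* D = r_* D' + r_* div f` -/
theorem sp_eq_iff (hff : IsFF K F) (D D' : Divisor.degZero (K := K) (F := F)) :
    sp r (Pic0.mk D) = sp r (Pic0.mk D') ↔
      ∃ E ∈ Divisor.principal (K := K) (F := F),
        Finsupp.mapDomain r (D : Divisor K F) =
          Finsupp.mapDomain r (D' : Divisor K F) + Finsupp.mapDomain r E := by
  rw [← sub_eq_zero, (map_sub (sp r) (Pic0.mk D) (Pic0.mk D')).symm, sp_eq_zero_iff]
  constructor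
  · rintro ⟨D₀, h0, h1⟩
    have h2 : Pic0.mk (D - D' - D₀) = 0 := by
      have : Pic0.mk (D - D' - D₀) = Pic0.mk D - Pic0.mk D' - Pic0.mk D₀ := rfl
      rw [this, h0, sub_self]
    have h3 := (QuotientAddGroup.eq_zero_iff _).mp h2
    rw [AddSubgroup.mem_addSubgroupOf] at h3
    refine ⟨_, h3, ?_⟩
    have e : (D : Divisor K F) = (D' : Divisor K F) +
        ((D - D' - D₀ : Divisor.degZero (K := K) (F := F)) : Divisor K F) + (D₀ : Divisor K F) := by
      push_cast
      abel
    conv_lhs => rw [e]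
    rw [Finsupp.mapDomain_add, Finsupp.mapDomain_add, h1, add_zero]
  · rintro ⟨E, hE, h1⟩
    have hE0 : E ∈ Divisor.degZero (K := K) (F := F) := principal_le_degZero hff hE
    refine ⟨D - D' - ⟨E, hE0⟩, ?_, ?_⟩
    · have : Pic0.mk (D - D' - ⟨E, hE0⟩) = Pic0.mk D - Pic0.mk D' - Pic0.mk ⟨E, hE0⟩ := rfl
      rw [this]
      have h2 : Pic0.mk (⟨E, hE0⟩ : Divisor.degZero (K := K) (F := F)) = 0 := by
        apply (QuotientAddGroup.eq_zero_iff _).mpr
        rw [AddSubgroup.mem_addSubgroupOf]
        exact hE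
      rw [h2, sub_zero]
    · have e : ((D - D' - ⟨E, hE0⟩ : Divisor.degZero (K := K) (F := F)) : Divisor K F) =
          (D : Divisor K F) - (D' : Divisor K F) - E := by
        push_cast
        rfl
      rw [e]
      have := map_sub (Finsupp.mapDomain.addMonoidHom r) ((D : Divisor K F) - (D' : Divisor K F)) E
      have h3 := map_sub (Finsupp.mapDomain.addMonoidHom r) (D : Divisor K F) (D' : Divisor K F)
      simp only [Finsupp.mapDomain.addMonoidHom_apply] at this h3
      rw [this, h3, h1]
      abel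

/-! ### the automorphism of `Y` -/

omit [IsAlgClosed K] [CharZero K] in
/-- the action of `γ` on `Pic⁰` -/
def hP (γ : SemilinearAut K F) : Pic0 K F →+ Pic0 K F := DistribSMul.toAddMonoidHom (Pic0 K F) γ

omit [IsAlgClosed K] [CharZero K] in
theorem hP_apply (γ : SemilinearAut K F) (c : Pic0 K F) : hP γ c = γ • c := rfl

omit [IsAlgClosed K] [CharZero K] in
theorem NN_stable {γ : SemilinearAut K F} {γb : SemilinearAut k Ft}
    (he : ∀ P, r (γ • P) = γb • r P) : NN r ≤ (NN r).comap (hP γ) := by
  rintro _ ⟨D, rfl, hD⟩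
  refine ⟨SemilinearAut.degZeroSMulHom γ D, rfl, ?_⟩
  rw [SemilinearAut.coe_degZeroSMulHom, mapDomain_smul he, hD, smul_zero]

omit [IsAlgClosed K] [CharZero K] in
/-- the endomorphism of `Y` induced by `γ` -/
def hb {γ : SemilinearAut K F} {γb : SemilinearAut k Ft} (he : ∀ P, r (γ • P) = γb • r P) :
    YY r →+ YY r := QuotientAddGroup.map (NN r) (NN r) (hP γ) (NN_stable he)

omit [IsAlgClosed K] [CharZero K] in
theorem sp_hP {γ : SemilinearAut K F} {γb : SemilinearAut k Ft} (he : ∀ P, r (γ • P) = γb • r P)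
    (c : Pic0 K F) : sp r (hP γ c) = hb he (sp r c) := rfl

end Fermat.Agent.S44.SP
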