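import Fermat.Agent.S44.SP.LB
import Fermat.Agent.S44.SP.Lang

/-!
# S44 / SP / Stable : a stable effective divisor in a fixed class      key `S44/SP-FIN-STABLE` (helper19)

`k` algebraically closed, `g` a semilinear automorphism of `F / k` acting on constants by `c ↦ c ^ q` (`q ≥ 2`), `B ≥ 0` with
`g B - B = div w`.  Then `Φ z = g z * w` is a `q`-semilinear injective additive endomorphism of `L(B) ∋ 1`, which is finite
dimensional (`finite_LL`); a nonzero fixed vector `v` (`exists_fixed_of_semilinear`) gives `B + div v ≥ 0`, `g`-stable.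
-/

set_option autoImplicit false

open AlgebraicCurve WithZero
open Fermat.Agent.S37.RiemannAux

namespace Fermat.Agent.S44.SP

variable {k F : Type*} [Field k] [Field F] [Algebra k F]

theorem stable_ord_smul (g : SemilinearAut k F) (x : Place k F) (z : F) :
    x.ord (g • z) = (g⁻¹ • x).ord z := by
  have := SemilinearAut.ord_smul g (g⁻¹ • x) z
  rwa [smul_inv_smul] at this

theorem stable_mem (g : SemilinearAut k F) (B : Divisor k F) (w : F) (hw : w ≠ 0)
    (hBw : ∀ x : Place k F, (g • B) x - B x = x.ord w) {z : F} (hz : z ∈ LL B) :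
    (g • z) * w ∈ LL B := by
  by_cases hz0 : z = 0
  · rw [hz0, smul_zero, zero_mul]; exact zero_mem _
  have hgz : g • z ≠ 0 := by rwa [Ne, smul_eq_zero_iff_eq]
  rw [mem_LL_iff (mul_ne_zero hgz hw)]
  intro x
  rw [x.ord_mul hgz hw, ← hBw x, stable_ord_smul, SemilinearAut.divisor_smul_apply]
  have := (mem_LL_iff hz0).1 hz (g⁻¹ • x)
  omega

/-- [S44/SP-FIN-STABLE] -/
theorem exists_stable [IsAlgClosed k] (hres : ResK k F)
    (hconst : ∀ z : F, z ≠ 0 → (∀ x : Place k F, 0 ≤ x.ord z) → ∃ c : k, z = algebraMap k F c)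
    (g : SemilinearAut k F) (q : ℕ) (hq : 2 ≤ q)
    (hg : ∀ c : k, SemilinearAut.baseAut g c = c ^ q)
    (B : Divisor k F) (hB : ∀ x, 0 ≤ B x) (w : F) (hw : w ≠ 0)
    (hBw : ∀ x : Place k F, (g • B) x - B x = x.ord w) :
    ∃ v : F, v ≠ 0 ∧ (∀ x : Place k F, 0 ≤ B x + x.ord v) ∧
      ∀ x : Place k F, B (g • x) + (g • x).ord v = B x + x.ord v := by
  have hfin := finite_LL hres hconst B
  have h1 : (1 : F) ∈ LL B := by
    rw [mem_LL_iff one_ne_zero]
    intro x
    rw [Place.ord_one, add_zero]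
    exact hB x
  have hnt : Nontrivial (LL B) :=
    ⟨⟨⟨1, h1⟩, 0, fun h => one_ne_zero (congrArg Subtype.val h)⟩⟩
  let Φ : LL B →+ LL B :=
    { toFun := fun z => ⟨(g • (z : F)) * w, stable_mem g B w hw hBw z.2⟩
      map_zero' := Subtype.ext (by simp)
      map_add' := fun a b => Subtype.ext (by
        show (g • ((a : F) + (b : F))) * w = (g • (a : F)) * w + (g • (b : F)) * w
        rw [smul_add, add_mul]) }
  have hΦ : ∀ (c : k) (z : LL B), Φ (c • z) = c ^ q • Φ z := by
    intro c z
    apply Subtype.ext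
    show (g • (c • (z : F))) * w = c ^ q • ((g • (z : F)) * w)
    rw [Algebra.smul_def, Algebra.smul_def, smul_mul', SemilinearAut.smul_algebraMap, hg, mul_assoc]
  have hinj : Function.Injective Φ := by
    rw [injective_iff_map_eq_zero]
    intro z hz
    have h2 : (g • (z : F)) * w = 0 := congrArg Subtype.val hz
    have h3 : g • (z : F) = 0 := (mul_eq_zero.1 h2).resolve_right hw
    exact Subtype.ext ((smul_eq_zero_iff_eq g).1 h3)
  obtain ⟨v, hv0, hv⟩ := exists_fixed_of_semilinear q hq Φ hΦ hinj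
  have hvF : (v : F) ≠ 0 := fun h => hv0 (Subtype.ext h)
  have hfix : (g • (v : F)) * w = v := congrArg Subtype.val hv
  refine ⟨v, hvF, (mem_LL_iff hvF).1 v.2, fun x => ?_⟩
  have hgv : g • (v : F) ≠ 0 := by rwa [Ne, smul_eq_zero_iff_eq]
  have h4 : (g • x).ord (v : F) = x.ord (v : F) + (B x - B (g • x)) := by
    conv_lhs => rw [← hfix]
    rw [(g • x).ord_mul hgv hw, SemilinearAut.ord_smul, ← hBw,
      SemilinearAut.divisor_smul_apply_smul]
  rw [h4]
  ring

end Fermat.Agent.S44.SP
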